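/-
S59lib / SMO / ALp  (helper4)

**Atkin–Lehner's lemma AL(p)**: a cusp form `f ∈ S₂(Γ₀(M))`, `p ∤ M` prime, whose `q`-expansion is supported on the
multiples of `p` (`a_n(f) = 0` for `p ∤ n`) vanishes:  `eq_zero_of_qCoeff_coprime`.

Proof.  `f(τ + 1/p) = f(τ)` (`apply_heckeMatrix_smul_eq`, from the `q`-expansion), so `U_p f = p • f ∣ diag(1, p)`
(`heckeU_eq_smul`), which is invariant under `Γ₀(M) ∩ Γ⁰(p)` (conjugation by `diag(1, p)`, `heckeMatrix_mul_mapGL`)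
and under `Γ₀(M p)` (Prelude), hence under `Γ₀(M)` (`gamma0_gen`): `upForm : S₂(Γ₀(M))` with `a_n = a_{n p}(f)`.
Then `V f := p⁻¹ (T_p f - U_p f)` has `a_n(V f) = a_{n/p}(f)` (`exists_shift`); iterating, `V^k f ∈ S₂(Γ₀(M))` has its first
`p^k` coefficients zero, hence vanishes for `k` large (`exists_coeff_bound`, finite dimensionality), and `f = 0`.
-/
import Mathlib
import Fermat.Agent.Helper8.QCoeff
import Fermat.Agent.S31lib.PET.AtkinLehner
import Fermat.Agent.ProgramR.ES.Assembly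

set_option autoImplicit false
set_option linter.unusedSectionVars false
set_option linter.style.haveILetI false

noncomputable section

namespace Fermat.Agent.S59lib.SMO

open UpperHalfPlane ModularFormClass CongruenceSubgroup ModularForm Matrix Matrix.SpecialLinearGroup
open Fermat.Agent.Helper8 Fermat.Agent.S31lib.PET
open scoped MatrixGroups ModularForm

variable {M : ℕ}



/-- the upper unipotent matrices -/
def ut (t : ℤ) : SL(2, ℤ) := ⟨!![1, t; 0, 1], by rw [Matrix.det_fin_two_of]; ring⟩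

theorem ut_mem (N : ℕ) (t : ℤ) : ut t ∈ Gamma0 N := by
  rw [Gamma0_mem]
  show (((0 : ℤ)) : ZMod N) = 0
  simp

theorem ut_coe (t : ℤ) : ((ut t : SL(2, ℤ)) : Matrix (Fin 2) (Fin 2) ℤ) = !![1, t; 0, 1] := rfl

theorem ut_neg_mul (t : ℤ) : ut (-t) * ut t = 1 := by
  ext i j
  rw [Matrix.SpecialLinearGroup.coe_mul, ut_coe, ut_coe, Matrix.mul_apply, Fin.sum_univ_two]
  fin_cases i <;> fin_cases j <;> simp

theorem gamma0_mem_iff_dvd (N : ℕ) (g : SL(2, ℤ)) : g ∈ Gamma0 N ↔ (N : ℤ) ∣ g 1 0 := by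
  rw [Gamma0_mem, ZMod.intCast_zmod_eq_zero_iff_dvd]

/-- `Γ₀(M)` is generated by `Γ₀(M p)` and `Γ₀(M) ∩ Γ⁰(p)` -/
theorem gamma0_gen {p : ℕ} (hp : p.Prime) (Pr : SL(2, ℤ) → Prop)
    (hmul : ∀ x y, Pr x → Pr y → Pr (x * y))
    (h1 : ∀ x ∈ Gamma0 (M * p), Pr x)
    (h2 : ∀ x ∈ Gamma0 M, (p : ℤ) ∣ x 0 1 → Pr x) : ∀ g ∈ Gamma0 M, Pr g := by
  have hpZ : Prime (p : ℤ) := Nat.prime_iff_prime_int.mp hp
  -- the case `p ∤ d`
  have aux : ∀ g ∈ Gamma0 M, ¬ (p : ℤ) ∣ g 1 1 → Pr g := by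
    intro g hg hd
    have hcop : IsCoprime (g 1 1) (p : ℤ) :=
      (hpZ.coprime_iff_not_dvd.2 hd).symm
    obtain ⟨u, v, huv⟩ := hcop
    set t : ℤ := -(g 0 1) * u with ht
    have hmem : ut t * g ∈ Gamma0 M := (Gamma0 M).mul_mem (ut_mem M t) hg
    have hb : (p : ℤ) ∣ (ut t * g) 0 1 := by
      have e : (ut t * g) 0 1 = g 0 1 + t * g 1 1 := by
        rw [Matrix.SpecialLinearGroup.coe_mul, ut_coe, Matrix.mul_apply, Fin.sum_univ_two]
        simp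
      rw [e, ht]
      exact ⟨g 0 1 * v, by linear_combination (-(g 0 1)) * huv⟩
    have e : g = ut (-t) * (ut t * g) := by
      rw [← mul_assoc, ut_neg_mul, one_mul]
    rw [e]
    exact hmul _ _ (h1 _ (ut_mem _ _)) (h2 _ hmem hb)
  intro g hg
  by_cases hd : (p : ℤ) ∣ g 1 1
  · -- then `p ∤ c`
    have hdet : g 0 0 * g 1 1 - g 0 1 * g 1 0 = 1 := by
      have := g.det_coe
      rwa [Matrix.det_fin_two] at this
    have hc : ¬ (p : ℤ) ∣ g 1 0 := by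
      intro hc
      have : (p : ℤ) ∣ 1 := by
        rw [← hdet]
        exact dvd_sub (Dvd.dvd.mul_left hd _) (Dvd.dvd.mul_left hc _)
      exact hpZ.not_dvd_one this
    have hmem : g * ut 1 ∈ Gamma0 M := (Gamma0 M).mul_mem hg (ut_mem M 1)
    have hd' : ¬ (p : ℤ) ∣ (g * ut 1) 1 1 := by
      have e : (g * ut 1) 1 1 = g 1 0 + g 1 1 := by
        rw [Matrix.SpecialLinearGroup.coe_mul, ut_coe, Matrix.mul_apply, Fin.sum_univ_two]
        simp
      rw [e]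
      intro h
      exact hc ((dvd_add_left hd).1 h)
    have e : g = (g * ut 1) * ut (-1) := by
      have h1' : ut 1 * ut (-1) = 1 := by
        have := ut_neg_mul (-1)
        rwa [neg_neg] at this
      rw [mul_assoc, h1', mul_one]
    rw [e]
    exact hmul _ _ (aux _ hmem hd') (h1 _ (ut_mem _ _))
  · exact aux g hg hd
/-- the conjugate `A γ A⁻¹`, `A = diag(1, p)`, of `γ ∈ Γ⁰(p)` -/
def conjA (p : ℕ) (γ : SL(2, ℤ)) (hb : (p : ℤ) ∣ γ 0 1) : SL(2, ℤ) :=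
  ⟨!![γ 0 0, γ 0 1 / p; (p : ℤ) * γ 1 0, γ 1 1], by
    have hdet : γ 0 0 * γ 1 1 - γ 0 1 * γ 1 0 = 1 := by
      have := γ.det_coe
      rwa [Matrix.det_fin_two] at this
    obtain ⟨b', hb'⟩ := hb
    rw [Matrix.det_fin_two_of, hb']
    rcases eq_or_ne (p : ℤ) 0 with h0 | h0
    · rw [h0, zero_mul] at hb'
      rw [h0]
      simp only [zero_mul, Int.zero_ediv, mul_zero, sub_zero]
      rw [hb', zero_mul, sub_zero] at hdet
      exact hdet
    · rw [Int.mul_ediv_cancel_left _ h0]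
      rw [hb'] at hdet
      linear_combination hdet⟩

theorem conjA_coe (p : ℕ) (γ : SL(2, ℤ)) (hb : (p : ℤ) ∣ γ 0 1) :
    ((conjA p γ hb : SL(2, ℤ)) : Matrix (Fin 2) (Fin 2) ℤ) =
      !![γ 0 0, γ 0 1 / p; (p : ℤ) * γ 1 0, γ 1 1] := rfl

theorem conjA_mem (p : ℕ) {γ : SL(2, ℤ)} (hγ : γ ∈ Gamma0 M) (hb : (p : ℤ) ∣ γ 0 1) :
    conjA p γ hb ∈ Gamma0 M := by
  rw [Gamma0_mem, ZMod.intCast_zmod_eq_zero_iff_dvd] at hγ ⊢
  show (M : ℤ) ∣ (p : ℤ) * γ 1 0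
  exact Dvd.dvd.mul_left hγ _

/-- `A γ = γ' A` in `GL₂(ℝ)` -/
theorem heckeMatrix_mul_mapGL {p : ℕ} (hp : p ≠ 0) (γ : SL(2, ℤ)) (hb : (p : ℤ) ∣ γ 0 1) :
    heckeMatrix p 0 * (mapGL ℝ γ : GL (Fin 2) ℝ) =
      (mapGL ℝ (conjA p γ hb) : GL (Fin 2) ℝ) * heckeMatrix p 0 := by
  apply Units.ext
  rw [Units.val_mul, Units.val_mul]
  show ((heckeMatrix p 0 : GL (Fin 2) ℝ) : Matrix (Fin 2) (Fin 2) ℝ) *
      ((mapGL ℝ γ : GL (Fin 2) ℝ) : Matrix (Fin 2) (Fin 2) ℝ) =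
    ((mapGL ℝ (conjA p γ hb) : GL (Fin 2) ℝ) : Matrix (Fin 2) (Fin 2) ℝ) *
      ((heckeMatrix p 0 : GL (Fin 2) ℝ) : Matrix (Fin 2) (Fin 2) ℝ)
  rw [val_heckeMatrix hp, coe_mapGL_eq, coe_mapGL_eq, conjA_coe]
  obtain ⟨b', hb'⟩ := hb
  have hp' : (p : ℤ) ≠ 0 := by exact_mod_cast hp
  have hdiv : γ 0 1 / (p : ℤ) = b' := by rw [hb', Int.mul_ediv_cancel_left _ hp']
  rw [hdiv]
  ext i j
  fin_cases i <;> fin_cases j <;>
    simp [Matrix.mul_apply, Fin.sum_univ_two, hb'] <;> ring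

/-- for `f` with `a_n = 0` for `p ∤ n`: `U_p f = p • f ∣ diag(1, p)` as functions -/
theorem heckeU_eq_smul [NeZero M] {p : ℕ} (hp : p ≠ 0) (f : CuspForm (Gamma0 M) 2)
    (hper : ∀ (j : ℕ) (τ : ℍ), f (heckeMatrix p j • τ) = f (heckeMatrix p 0 • τ)) :
    heckeU 2 p ⇑f = (p : ℂ) • (⇑f ∣[(2 : ℤ)] heckeMatrix p 0) := by
  have hp' : (p : ℂ) ≠ 0 := by exact_mod_cast hp
  funext τ
  rw [heckeU_def, Finset.sum_apply, Pi.smul_apply, slash_heckeMatrix_apply 2 hp, smul_eq_mul]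
  have : ∀ j ∈ Finset.range p, (⇑f ∣[(2 : ℤ)] heckeMatrix p j) τ =
      (p : ℂ)⁻¹ * f (heckeMatrix p 0 • τ) := by
    intro j _
    rw [slash_heckeMatrix_apply 2 hp, hper]
  rw [Finset.sum_congr rfl this, Finset.sum_const, Finset.card_range, nsmul_eq_mul]



/-- the `Γ₀(M)`-invariance of `U_p f` when all the translates `f((τ + j)/p)` coincide -/
theorem heckeU_slash_eq_self [NeZero M] {p : ℕ} (hp : p.Prime) (f : CuspForm (Gamma0 M) 2)
    (hper : ∀ (j : ℕ) (τ : ℍ), f (heckeMatrix p j • τ) = f (heckeMatrix p 0 • τ))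
    (γ : GL (Fin 2) ℝ)
    (hγ : γ ∈ ((Gamma0 M : Subgroup SL(2, ℤ)) : Subgroup (GL (Fin 2) ℝ))) :
    heckeU 2 p ⇑f ∣[(2 : ℤ)] γ = heckeU 2 p ⇑f := by
  obtain ⟨g, hg, rfl⟩ := Subgroup.mem_map.mp hγ
  have hf : ∀ γ ∈ ((Gamma0 M : Subgroup SL(2, ℤ)) : Subgroup (GL (Fin 2) ℝ)),
      ⇑f ∣[(2 : ℤ)] γ = ⇑f := fun γ hγ => SlashInvariantFormClass.slash_action_eq f γ hγ
  have hle : Gamma0 (M * p) ≤ Gamma0 M := by
    intro x hx
    rw [gamma0_mem_iff_dvd] at hx ⊢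
    exact dvd_trans (by push_cast; exact dvd_mul_right _ _) hx
  refine gamma0_gen hp (fun x => heckeU 2 p ⇑f ∣[(2 : ℤ)] (mapGL ℝ x : GL (Fin 2) ℝ) =
    heckeU 2 p ⇑f) ?_ ?_ ?_ g hg
  · intro x y hx hy
    show heckeU 2 p ⇑f ∣[(2 : ℤ)] (mapGL ℝ (x * y) : GL (Fin 2) ℝ) = heckeU 2 p ⇑f
    rw [map_mul, SlashAction.slash_mul, hx, hy]
  · intro x hx
    refine heckeU_slash_eq_self_of_mem_Gamma0 2 (Dvd.intro_left M rfl) ?_ _
      (Subgroup.mem_map_of_mem _ hx)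
    intro γ hγ
    obtain ⟨y, hy, rfl⟩ := Subgroup.mem_map.mp hγ
    exact hf _ (Subgroup.mem_map_of_mem _ (hle hy))
  · intro x hx hb
    show heckeU 2 p ⇑f ∣[(2 : ℤ)] (mapGL ℝ x : GL (Fin 2) ℝ) = heckeU 2 p ⇑f
    rw [heckeU_eq_smul hp.ne_zero f hper]
    have h1 : ((p : ℂ) • (⇑f ∣[(2 : ℤ)] heckeMatrix p 0)) ∣[(2 : ℤ)] (mapGL ℝ x : GL (Fin 2) ℝ) =
        (p : ℂ) • ((⇑f ∣[(2 : ℤ)] heckeMatrix p 0) ∣[(2 : ℤ)] (mapGL ℝ x : GL (Fin 2) ℝ)) :=
      ModularForm.SL_smul_slash 2 x _ _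
    rw [h1, ← SlashAction.slash_mul, heckeMatrix_mul_mapGL hp.ne_zero x hb, SlashAction.slash_mul,
      hf _ (Subgroup.mem_map_of_mem _ (conjA_mem p hx hb))]

/-- **the form `U_p f` of level `M`** for `f` of level `M` with `a_n(f) = 0` for `p ∤ n` -/
def upForm [NeZero M] {p : ℕ} (hp : p.Prime) (f : CuspForm (Gamma0 M) 2)
    (hper : ∀ (j : ℕ) (τ : ℍ), f (heckeMatrix p j • τ) = f (heckeMatrix p 0 • τ)) :
    CuspForm (Gamma0 M) 2 :=
  { toFun := heckeU 2 p ⇑f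
    slash_action_eq' := fun γ hγ => heckeU_slash_eq_self hp f hper γ hγ
    holo' := mdifferentiable_heckeU (CuspFormClass.holo f) 2 p
    zero_at_cusps' := fun hc => CuspFormClass.isZeroAt_heckeU f p hc }

theorem qCoeff_upForm [NeZero M] {p : ℕ} (hp : p.Prime) (f : CuspForm (Gamma0 M) 2)
    (hper : ∀ (j : ℕ) (τ : ℍ), f (heckeMatrix p j • τ) = f (heckeMatrix p 0 • τ)) (n : ℕ) :
    qCoeff ⇑(upForm hp f hper) n = qCoeff ⇑f (n * p) := by
  show qCoeff (heckeU 2 p ⇑f) n = _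
  rw [ModularFormClass.qCoeff_heckeU f (one_mem_strictPeriods M) hp.ne_zero n, coeffHeckeU_apply]
/-- the `q`-parameter at `(τ + j) / p` to the power `t p` -/
theorem qParam_heckeMatrix_pow {p : ℕ} (hp : p ≠ 0) (j t : ℕ) (τ : ℍ) :
    Function.Periodic.qParam 1 ((heckeMatrix p j • τ : ℍ) : ℂ) ^ (t * p) =
      Function.Periodic.qParam 1 ((heckeMatrix p 0 • τ : ℍ) : ℂ) ^ (t * p) := by
  have hp' : (p : ℂ) ≠ 0 := by exact_mod_cast hp
  rw [coe_heckeMatrix_smul hp, coe_heckeMatrix_smul hp, Function.Periodic.qParam, Function.Periodic.qParam,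
    ← Complex.exp_nat_mul, ← Complex.exp_nat_mul]
  have e : ((t * p : ℕ) : ℂ) * (2 * Real.pi * Complex.I * (((τ : ℂ) + (j : ℕ)) / p) / (1 : ℝ)) =
      ((t * p : ℕ) : ℂ) * (2 * Real.pi * Complex.I * (((τ : ℂ) + (0 : ℕ)) / p) / (1 : ℝ)) +
        ((t * j : ℕ) : ℂ) * (2 * Real.pi * Complex.I) := by
    push_cast
    field_simp
    ring
  rw [e, Complex.exp_add, Complex.exp_nat_mul_two_pi_mul_I, mul_one]

theorem apply_heckeMatrix_smul_eq [NeZero M] {p : ℕ} (hp : p ≠ 0) (f : CuspForm (Gamma0 M) 2)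
    (hW : ∀ n, ¬ p ∣ n → qCoeff ⇑f n = 0) (j : ℕ) (τ : ℍ) :
    f (heckeMatrix p j • τ) = f (heckeMatrix p 0 • τ) := by
  haveI : Fact (IsCusp OnePoint.infty
      (Subgroup.map (Matrix.SpecialLinearGroup.mapGL ℝ) (Gamma0 M))) :=
    ⟨Subgroup.isCusp_of_mem_strictPeriods one_pos (one_mem_strictPeriods M)⟩
  have h1 := ModularForm.hasSum_qExpansion (f := f) one_pos (one_mem_strictPeriods M)
    (heckeMatrix p j • τ)
  have h0 := ModularForm.hasSum_qExpansion (f := f) one_pos (one_mem_strictPeriods M)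
    (heckeMatrix p 0 • τ)
  have heq : (fun m : ℕ => (qExpansion 1 ⇑f).coeff m *
      Function.Periodic.qParam 1 ((heckeMatrix p j • τ : ℍ) : ℂ) ^ m) =
      (fun m : ℕ => (qExpansion 1 ⇑f).coeff m *
        Function.Periodic.qParam 1 ((heckeMatrix p 0 • τ : ℍ) : ℂ) ^ m) := by
    funext m
    by_cases hm : p ∣ m
    · obtain ⟨t, rfl⟩ := hm
      rw [mul_comm p t, qParam_heckeMatrix_pow hp]
    · have := hW m hm
      rw [qCoeff] at this
      rw [this, zero_mul, zero_mul]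
  rw [heq] at h1
  exact h1.unique h0

/-! ### a Sturm-type bound from finite dimensionality -/

/-- the forms whose first `B` coefficients vanish -/
def truncKer (M : ℕ) (B : ℕ) : Submodule ℂ (CuspForm (Gamma0 M) 2) where
  carrier := {f | ∀ n < B, qCoeff ⇑f n = 0}
  zero_mem' := fun n _ => qCoeff_zero' n
  add_mem' := by
    intro f g hf hg n hn
    rw [qCoeff_add, hf n hn, hg n hn, add_zero]
  smul_mem' := by
    intro c f hf n hn
    rw [qCoeff_smul, hf n hn, mul_zero]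

theorem exists_coeff_bound (M : ℕ) [NeZero M] :
    ∃ B : ℕ, ∀ f : CuspForm (Gamma0 M) 2, (∀ n < B, qCoeff ⇑f n = 0) → f = 0 := by
  haveI : FiniteDimensional ℂ (CuspForm (Gamma0 M) 2) :=
    Fermat.Agent.ProgramR.ES.finiteDimensional_cuspForm M
  let F : ℕ →o (Submodule ℂ (CuspForm (Gamma0 M) 2))ᵒᵈ :=
    { toFun := fun B => OrderDual.toDual (truncKer M B)
      monotone' := by
        intro B B' hBB'
        show truncKer M B' ≤ truncKer M B
        intro f hf n hn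
        exact hf n (lt_of_lt_of_le hn hBB') }
  obtain ⟨B, hB⟩ := IsArtinian.monotone_stabilizes F
  refine ⟨B, fun f hf => ?_⟩
  apply eq_zero_of_qCoeff_eq_zero
  intro n
  have h1 : truncKer M B = truncKer M (max B (n + 1)) :=
    congrArg OrderDual.ofDual (hB (max B (n + 1)) (le_max_left _ _))
  have h2 : f ∈ truncKer M (max B (n + 1)) := by
    rw [← h1]; exact hf
  exact h2 n (lt_of_lt_of_le (Nat.lt_succ_self n) (le_max_right _ _))

/-! ### the shift `V_p` on forms supported on multiples of `p`, and AL(p) -/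

/-- one step: for `f` of level `M` (`p ∤ M`) supported on multiples of `p` there is a form of level `M` with
`a_n = a_{n/p}(f)` (`p ∣ n`), `0` otherwise -/
theorem exists_shift [NeZero M] {p : ℕ} (hp : p.Prime) (hpM : ¬ p ∣ M) (f : CuspForm (Gamma0 M) 2)
    (hW : ∀ n, ¬ p ∣ n → qCoeff ⇑f n = 0) :
    ∃ f' : CuspForm (Gamma0 M) 2, ∀ n, qCoeff ⇑f' n = if p ∣ n then qCoeff ⇑f (n / p) else 0 := by
  have hper := apply_heckeMatrix_smul_eq hp.ne_zero f hW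
  have hp' : (p : ℂ) ≠ 0 := by exact_mod_cast hp.ne_zero
  refine ⟨(p : ℂ)⁻¹ • (CuspForm.heckeTLin 2 hp hpM f - upForm hp f hper), fun n => ?_⟩
  rw [qCoeff_smul, qCoeff_sub, qCoeff_heckeTLin, qCoeff_upForm, coeffHeckeT_apply]
  have h3 : ((p : ℂ)) ^ ((2 : ℤ) - 1) = (p : ℂ) := by norm_num
  rw [h3]
  by_cases h : p ∣ n
  · rw [if_pos h, if_pos h]
    field_simp
    ring
  · rw [if_neg h, if_neg h]
    ring

/-- iteration -/
theorem exists_shift_pow [NeZero M] {p : ℕ} (hp : p.Prime) (hpM : ¬ p ∣ M)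
    (f : CuspForm (Gamma0 M) 2) (hW : ∀ n, ¬ p ∣ n → qCoeff ⇑f n = 0) (k : ℕ) :
    ∃ f' : CuspForm (Gamma0 M) 2,
      ∀ n, qCoeff ⇑f' n = if p ^ k ∣ n then qCoeff ⇑f (n / p ^ k) else 0 := by
  induction k with
  | zero =>
    refine ⟨f, fun n => ?_⟩
    simp
  | succ k ih =>
    obtain ⟨fk, hfk⟩ := ih
    have hWk : ∀ n, ¬ p ∣ n → qCoeff ⇑fk n = 0 := by
      intro n hn
      rw [hfk]
      by_cases h : p ^ k ∣ n
      · rw [if_pos h]
        rcases Nat.eq_zero_or_pos k with rfl | hk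
        · simpa using hW n hn
        · exact absurd (dvd_trans (dvd_pow_self p hk.ne') h) hn
      · rw [if_neg h]
    obtain ⟨f', hf'⟩ := exists_shift hp hpM fk hWk
    refine ⟨f', fun n => ?_⟩
    rw [hf']
    by_cases h : p ∣ n
    · rw [if_pos h, hfk]
      obtain ⟨t, rfl⟩ := h
      rw [Nat.mul_div_cancel_left _ hp.pos]
      have e : p ^ (k + 1) ∣ p * t ↔ p ^ k ∣ t := by
        rw [pow_succ', Nat.mul_dvd_mul_iff_left hp.pos]
      by_cases h2 : p ^ k ∣ t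
      · rw [if_pos h2, if_pos (e.2 h2), pow_succ', ← Nat.div_div_eq_div_mul,
          Nat.mul_div_cancel_left _ hp.pos]
      · rw [if_neg h2, if_neg (fun h3 => h2 (e.1 h3))]
    · rw [if_neg h, if_neg]
      intro h3
      exact h (dvd_trans (dvd_pow_self p (Nat.succ_ne_zero k)) h3)

/-- **AL(p)** (Atkin–Lehner): a cusp form of level `M`, `p ∤ M`, whose `q`-expansion is supported on the multiples of
`p` vanishes. -/
theorem eq_zero_of_qCoeff_coprime [NeZero M] {p : ℕ} (hp : p.Prime) (hpM : ¬ p ∣ M)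
    (f : CuspForm (Gamma0 M) 2) (hW : ∀ n, ¬ p ∣ n → qCoeff ⇑f n = 0) : f = 0 := by
  obtain ⟨B, hB⟩ := exists_coeff_bound M
  obtain ⟨f', hf'⟩ := exists_shift_pow hp hpM f hW B
  have hlt : B < p ^ B := Nat.lt_pow_self hp.one_lt
  have hf'0 : f' = 0 := by
    apply hB
    intro n hn
    rw [hf']
    by_cases h : p ^ B ∣ n
    · have hn0 : n = 0 := Nat.eq_zero_of_dvd_of_lt h (lt_trans hn hlt)
      rw [if_pos h, hn0, Nat.zero_div]
      exact qCoeff_cusp_zero f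
    · rw [if_neg h]
  apply eq_zero_of_qCoeff_eq_zero
  intro m
  have h1 := hf' (m * p ^ B)
  rw [hf'0, qCoeff_zero', if_pos (Dvd.intro_left m rfl),
    Nat.mul_div_cancel _ (pow_pos hp.pos B)] at h1
  exact h1.symm

end Fermat.Agent.S59lib.SMO
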