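/-
S59lib / SMO / FieldIndep  (helper4)

**The dimension of a simultaneous eigenspace of INTEGER matrices does not depend on the field of
characteristic zero.**  For a family `A i` of `n × n` integer matrices and a bound `d` valid over
`ℂ` for ALL systems of eigenvalues, the same bound holds over every field `K` of characteristic
`0` and every system of eigenvalues `a : I → K`:

  `finrank_eig_le_of_complex`.

Proof: if the eigenspace is nonzero the `a i` are integral over `ℤ`; `E₀ = ℚ(a i)` is algebraic
over `ℚ`, so it embeds into `ℂ`; the solution space of a homogeneous linear system with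
coefficients in `E₀` has the same dimension over `E₀`, over `K ⊇ E₀` and over `ℂ ⊇ σ(E₀)`
(`finrank_sol_map`, from Mathlib's `linearIndependent_algebraMap_comp_iff`).
-/
import Mathlib

set_option autoImplicit false
set_option linter.style.haveILetI false
set_option linter.unusedSectionVars false

noncomputable section

namespace Fermat.Agent.S59lib.SMO

open Module Matrix

variable {n : Type*} [Fintype n]

/-! ### solution spaces of homogeneous systems -/

/-- the solution space of the homogeneous linear system with rows `ρ j` -/
def sol (F : Type*) [Field F] {J : Type*} (ρ : J → n → F) : Submodule F (n → F) where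
  carrier := {x | ∀ j, ρ j ⬝ᵥ x = 0}
  zero_mem' := fun j => dotProduct_zero _
  add_mem' := by
    intro x y hx hy j
    rw [dotProduct_add, hx j, hy j, add_zero]
  smul_mem' := by
    intro c x hx j
    rw [dotProduct_smul, hx j, smul_zero]

theorem mem_sol {F : Type*} [Field F] {J : Type*} {ρ : J → n → F} {x : n → F} :
    x ∈ sol F ρ ↔ ∀ j, ρ j ⬝ᵥ x = 0 := Iff.rfl

theorem mem_sol_iff_span {F : Type*} [Field F] {J : Type*} {ρ : J → n → F} {x : n → F} :
    x ∈ sol F ρ ↔ ∀ v ∈ Submodule.span F (Set.range ρ), v ⬝ᵥ x = 0 := by
  constructor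
  · intro hx v hv
    induction hv using Submodule.span_induction with
    | mem v hv =>
      obtain ⟨j, rfl⟩ := hv
      exact hx j
    | zero => exact zero_dotProduct _
    | add u v _ _ hu hv => rw [add_dotProduct, hu, hv, add_zero]
    | smul c v _ hv => rw [smul_dotProduct, hv, smul_zero]
  · intro h j
    exact h _ (Submodule.subset_span ⟨j, rfl⟩)

theorem sol_eq_of_span_eq {F : Type*} [Field F] {J J' : Type*} {ρ : J → n → F}
    {ρ' : J' → n → F}
    (h : Submodule.span F (Set.range ρ) = Submodule.span F (Set.range ρ')) :
    sol F ρ = sol F ρ' := by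
  ext x
  rw [mem_sol_iff_span, mem_sol_iff_span, h]

/-- rank–nullity for a system with independent rows -/
theorem finrank_sol_add_card {F : Type*} [Field F] {ι : Type*} [Fintype ι] {w : ι → n → F}
    (hw : LinearIndependent F w) : finrank F ↥(sol F w) + Fintype.card ι = Fintype.card n := by
  classical
  set Rm : Matrix ι n F := Matrix.of w with hR
  have hker : sol F w = LinearMap.ker Rm.mulVecLin := by
    ext x
    rw [mem_sol, LinearMap.mem_ker, Matrix.mulVecLin_apply]
    constructor
    · intro h
      funext j
      exact h j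
    · intro h j
      exact congrFun h j
  have hrank : Rm.rank = Fintype.card ι := LinearIndependent.rank_matrix (M := Rm) hw
  have h1 := LinearMap.finrank_range_add_finrank_ker Rm.mulVecLin
  rw [Module.finrank_fintype_fun_eq_card] at h1
  rw [hker, ← h1, ← hrank, Matrix.rank, add_comm]

/-- **the dimension of a solution space is invariant under field extension** -/
theorem finrank_sol_map {E L : Type*} [Field E] [Field L] [Algebra E L] {J : Type*}
    (ρ : J → n → E) :
    finrank L ↥(sol L (fun j => algebraMap E L ∘ ρ j)) = finrank E ↥(sol E ρ) := by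
  classical
  obtain ⟨b, hb1, hb2, hb3⟩ := exists_linearIndependent E (Set.range ρ)
  have hfin : b.Finite := hb3.setFinite
  haveI : Fintype ↥b := hfin.fintype
  set w : ↥b → n → E := fun v => (v : n → E) with hw
  have hwspan : Submodule.span E (Set.range w) = Submodule.span E (Set.range ρ) := by
    rw [hw, Subtype.range_coe, hb2]
  have h1 : sol E ρ = sol E w := sol_eq_of_span_eq hwspan.symm
  -- the extended systems have the same span
  let φ : (n → E) →ₗ[E] (n → L) :=
    { toFun := fun v => algebraMap E L ∘ v
      map_add' := fun u v => by funext k; simp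
      map_smul' := fun c v => by
        funext k
        simp [Algebra.smul_def] }
  have hφ : ∀ v, φ v = algebraMap E L ∘ v := fun v => rfl
  have h2 : sol L (fun j => algebraMap E L ∘ ρ j) = sol L (fun v => algebraMap E L ∘ w v) := by
    apply sol_eq_of_span_eq
    apply le_antisymm
    · rw [Submodule.span_le]
      rintro _ ⟨j, rfl⟩
      have hj : ρ j ∈ Submodule.span E (Set.range w) := by
        rw [hwspan]; exact Submodule.subset_span ⟨j, rfl⟩
      have : φ (ρ j) ∈ (Submodule.span L (Set.range fun v => algebraMap E L ∘ w v)).restrictScalars E := by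
        have h3 : Submodule.span E (Set.range w) ≤
            ((Submodule.span L (Set.range fun v => algebraMap E L ∘ w v)).restrictScalars E).comap φ := by
          rw [Submodule.span_le]
          rintro _ ⟨v, rfl⟩
          exact Submodule.subset_span ⟨v, rfl⟩
        exact h3 hj
      exact this
    · rw [Submodule.span_le]
      rintro _ ⟨v, rfl⟩
      obtain ⟨j, hj⟩ := hb1 v.2
      refine Submodule.subset_span ⟨j, ?_⟩
      show algebraMap E L ∘ ρ j = algebraMap E L ∘ w v
      rw [hj]
  have hwL : LinearIndependent L (fun v => algebraMap E L ∘ w v) :=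
    linearIndependent_algebraMap_comp_iff.mpr hb3
  have e1 := finrank_sol_add_card (F := E) (w := w) hb3
  have e2 := finrank_sol_add_card (F := L) hwL
  rw [h1, h2]
  omega

/-! ### simultaneous eigenspaces of integer matrices -/

variable [DecidableEq n] {I : Type*}

/-- the simultaneous eigenspace of the integer matrices `A i` over the field `F` -/
def eig (A : I → Matrix n n ℤ) (F : Type*) [Field F] (a : I → F) : Submodule F (n → F) where
  carrier := {x | ∀ i, ((A i).map (Int.cast : ℤ → F)) *ᵥ x = a i • x}
  zero_mem' := fun i => by rw [mulVec_zero, smul_zero]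
  add_mem' := by
    intro x y hx hy i
    rw [mulVec_add, hx i, hy i, smul_add]
  smul_mem' := by
    intro c x hx i
    rw [mulVec_smul, hx i, smul_comm]

theorem mem_eig {A : I → Matrix n n ℤ} {F : Type*} [Field F] {a : I → F} {x : n → F} :
    x ∈ eig A F a ↔ ∀ i, ((A i).map (Int.cast : ℤ → F)) *ᵥ x = a i • x := Iff.rfl

/-- the rows of the system `(A i - a i) x = 0` -/
def rows (A : I → Matrix n n ℤ) (F : Type*) [Field F] (a : I → F) : I × n → n → F :=
  fun p k => ((A p.1 p.2 k : ℤ) : F) - if p.2 = k then a p.1 else 0

theorem eig_eq_sol (A : I → Matrix n n ℤ) (F : Type*) [Field F] (a : I → F) :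
    eig A F a = sol F (rows A F a) := by
  ext x
  rw [mem_eig, mem_sol]
  constructor
  · rintro h ⟨i, j⟩
    have := congrFun (h i) j
    rw [mulVec, dotProduct, Pi.smul_apply, smul_eq_mul] at this
    rw [dotProduct]
    simp only [rows, sub_mul, Finset.sum_sub_distrib, ite_mul, zero_mul, Finset.sum_ite_eq,
      Finset.mem_univ, if_true]
    simp only [Matrix.map_apply] at this
    rw [this, sub_self]
  · intro h i
    funext j
    have := h (i, j)
    rw [dotProduct] at this
    simp only [rows, sub_mul, Finset.sum_sub_distrib, ite_mul, zero_mul, Finset.sum_ite_eq,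
      Finset.mem_univ, if_true] at this
    rw [mulVec, dotProduct, Pi.smul_apply, smul_eq_mul]
    simp only [Matrix.map_apply]
    exact sub_eq_zero.mp this

theorem rows_map (A : I → Matrix n n ℤ) {E L : Type*} [Field E] [Field L] [Algebra E L]
    (a : I → E) (p : I × n) :
    algebraMap E L ∘ rows A E a p = rows A L (fun i => algebraMap E L (a i)) p := by
  funext k
  simp only [Function.comp_apply, rows, map_sub, map_intCast]
  split_ifs <;> simp

/-- the dimension of the eigenspace is invariant under field extension -/
theorem finrank_eig_map (A : I → Matrix n n ℤ) {E L : Type*} [Field E] [Field L] [Algebra E L]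
    (a : I → E) :
    finrank L ↥(eig A L (fun i => algebraMap E L (a i))) = finrank E ↥(eig A E a) := by
  have h : (fun j => algebraMap E L ∘ rows A E a j) =
      rows A L (fun i => algebraMap E L (a i)) := funext (rows_map A a)
  rw [eig_eq_sol, eig_eq_sol, ← h]
  exact finrank_sol_map _

/-- an eigenvalue of an integer matrix (over a field) is integral over `ℤ` -/
theorem isIntegral_of_mulVec_eq {F : Type*} [Field F] (B : Matrix n n ℤ) {μ : F} {x : n → F}
    (hx : x ≠ 0) (h : (B.map (Int.cast : ℤ → F)) *ᵥ x = μ • x) : IsIntegral ℤ μ := by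
  set BF : Matrix n n F := B.map (Int.cast : ℤ → F) with hBF
  have hev : Module.End.HasEigenvector (Matrix.toLin' BF) μ x := by
    refine ⟨?_, hx⟩
    rw [Module.End.mem_eigenspace_iff, Matrix.toLin'_apply]
    exact h
  have h1 := Module.End.aeval_apply_of_hasEigenvector (p := BF.charpoly) hev
  have h2 : Polynomial.aeval (Matrix.toLin' BF) BF.charpoly = 0 := by
    have := Matrix.aeval_self_charpoly BF
    have h3 : Polynomial.aeval (Matrix.toLin' BF) BF.charpoly =
        Matrix.toLin' (Polynomial.aeval BF BF.charpoly) := by
      have := Polynomial.aeval_algHom_apply (Matrix.toLinAlgEquiv' : Matrix n n F ≃ₐ[F] _).toAlgHom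
        BF BF.charpoly
      exact this
    rw [h3, this, map_zero]
  rw [h2, LinearMap.zero_apply] at h1
  have h4 : BF.charpoly.eval μ = 0 := by
    rcases smul_eq_zero.mp h1.symm with h5 | h5
    · exact h5
    · exact absurd h5 hx
  refine ⟨B.charpoly, Matrix.charpoly_monic B, ?_⟩
  have h6 : BF.charpoly = B.charpoly.map (Int.castRingHom F) := by
    rw [hBF]
    exact (Matrix.charpoly_map B (Int.castRingHom F))
  rw [h6, Polynomial.eval_map] at h4
  exact h4

/-- **field independence of the dimension of simultaneous eigenspaces of integer matrices** -/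
theorem finrank_eig_le_of_complex (A : I → Matrix n n ℤ) (d : ℕ)
    (hC : ∀ a : I → ℂ, finrank ℂ ↥(eig A ℂ a) ≤ d) (K : Type*) [Field K] [CharZero K]
    (a : I → K) : finrank K ↥(eig A K a) ≤ d := by
  by_cases h0 : eig A K a = ⊥
  · rw [h0, finrank_bot]; exact Nat.zero_le d
  obtain ⟨x, hx, hx0⟩ := (Submodule.ne_bot_iff _).mp h0
  -- the eigenvalues are algebraic
  have hint : ∀ y ∈ Set.range a, IsIntegral ℚ y := by
    rintro _ ⟨i, rfl⟩
    exact (isIntegral_of_mulVec_eq (A i) hx0 (hx i)).tower_top
  set E₀ : IntermediateField ℚ K := IntermediateField.adjoin ℚ (Set.range a) with hE₀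
  haveI : Algebra.IsAlgebraic ℚ ↥E₀ := IntermediateField.isAlgebraic_adjoin hint
  let a₀ : I → ↥E₀ := fun i => ⟨a i, IntermediateField.subset_adjoin ℚ _ ⟨i, rfl⟩⟩
  have ha₀ : (fun i => algebraMap ↥E₀ K (a₀ i)) = a := rfl
  -- an embedding into `ℂ`
  let σ : ↥E₀ →ₐ[ℚ] ℂ := IsAlgClosed.lift
  letI : Algebra ↥E₀ ℂ := σ.toRingHom.toAlgebra
  have e1 := finrank_eig_map (L := K) A a₀
  have e2 := finrank_eig_map (L := ℂ) A a₀
  rw [ha₀] at e1
  rw [e1, ← e2]
  exact hC _

end Fermat.Agent.S59lib.SMO
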