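/-
S59lib / SMO / FieldIncl  (helper4)

**Field independence of inclusions `eigenspace ⊆ image of an integer matrix`.**

For integer matrices `A i` (`n × n`) and `B` (`n × m`), a field `F` of characteristic zero and `a : I → F`, the inclusion
`eig A F a ≤ range B_F` is invariant under field extensions (`eig_le_range_map_iff`): pick an integral generalised
inverse `C` of `B`, `B C B = d B`, `d ≠ 0` (`exists_genInv`); then `range B_F = ker (B C - d)_F` and the inclusion is the
equality of two eigenspace dimensions, to which `finrank_eig_map` applies.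

`exists_embedding` : a system of algebraic eigenvalues lives in a subfield `E₀ ⊆ K` which embeds into `ℂ`.
-/
import Mathlib
import Fermat.Agent.S59lib.SMO.FieldIndep

set_option autoImplicit false
set_option linter.style.haveILetI false
set_option linter.unusedSectionVars false
set_option linter.unusedVariables false

noncomputable section

namespace Fermat.Agent.S59lib.SMO

open Module Matrix

variable {n : Type*} [Fintype n] [DecidableEq n] {m : Type*} [Fintype m] [DecidableEq m]
  {I : Type*}

/-! ### integral generalised inverses -/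

/-- a linear map between vector spaces has a generalised inverse -/
theorem exists_linear_genInv {K V W : Type*} [Field K] [AddCommGroup V] [Module K V]
    [AddCommGroup W] [Module K W] (f : V →ₗ[K] W) : ∃ g : W →ₗ[K] V, f ∘ₗ g ∘ₗ f = f := by
  obtain ⟨p, hp⟩ := (LinearMap.range f).subtype.exists_leftInverse_of_injective
    (Submodule.ker_subtype _)
  obtain ⟨s, hs⟩ := f.rangeRestrict.exists_rightInverse_of_surjective
    (LinearMap.range_eq_top.mpr (LinearMap.surjective_rangeRestrict f))
  refine ⟨s ∘ₗ p, ?_⟩
  apply LinearMap.ext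
  intro v
  have h1 : p (f v) = f.rangeRestrict v := by
    have := LinearMap.congr_fun hp (f.rangeRestrict v)
    exact this
  have h2 : f.rangeRestrict (s (f.rangeRestrict v)) = f.rangeRestrict v :=
    LinearMap.congr_fun hs (f.rangeRestrict v)
  show f (s (p (f v))) = f v
  rw [h1]
  exact congrArg Subtype.val h2

/-- an integer matrix has an integral generalised inverse up to a non-zero integer -/
theorem exists_genInv (B : Matrix n m ℤ) :
    ∃ (C : Matrix m n ℤ) (d : ℤ), d ≠ 0 ∧ B * C * B = d • B := by
  classical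
  set BQ : Matrix n m ℚ := B.map (Int.cast : ℤ → ℚ) with hBQ
  obtain ⟨g, hg⟩ := exists_linear_genInv BQ.mulVecLin
  set G : Matrix m n ℚ := LinearMap.toMatrix' g with hG
  have hBGB : BQ * G * BQ = BQ := by
    have h1 : (BQ * G * BQ).mulVecLin = BQ.mulVecLin := by
      rw [Matrix.mulVecLin_mul, Matrix.mulVecLin_mul, hG]
      have : (LinearMap.toMatrix' g).mulVecLin = g := by
        rw [← Matrix.toLin'_apply', Matrix.toLin'_toMatrix']
      rw [this]
      rw [LinearMap.comp_assoc]
      exact hg
    rw [← Matrix.toLin'_apply', ← Matrix.toLin'_apply'] at h1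
    exact Matrix.toLin'.injective h1
  -- clear denominators
  obtain ⟨b, hb⟩ := IsLocalization.exist_integer_multiples_of_finite (nonZeroDivisors ℤ)
    (fun p : m × n => G p.1 p.2)
  choose c hc using hb
  refine ⟨Matrix.of fun i j => c (i, j), (b : ℤ), nonZeroDivisors.coe_ne_zero b, ?_⟩
  have hinj : Function.Injective (fun X : Matrix n m ℤ => X.map (Int.cast : ℤ → ℚ)) := by
    intro X Y hXY
    ext i j
    have := congrFun (congrFun hXY i) j
    simpa using this
  apply hinj
  show (B * (Matrix.of fun i j => c (i, j)) * B).map (Int.cast : ℤ → ℚ) =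
    (((b : ℤ)) • B).map (Int.cast : ℤ → ℚ)
  have hC : (Matrix.of fun i j => c (i, j)).map (Int.cast : ℤ → ℚ) = ((b : ℤ) : ℚ) • G := by
    ext i j
    have := hc (i, j)
    simp only [Matrix.map_apply, Matrix.of_apply, Matrix.smul_apply]
    rw [eq_intCast] at this
    rw [this, Algebra.smul_def, eq_intCast, smul_eq_mul]
  have h3 : (B * (Matrix.of fun i j => c (i, j)) * B).map (Int.cast : ℤ → ℚ) =
      BQ * ((Matrix.of fun i j => c (i, j)).map (Int.cast : ℤ → ℚ)) * BQ := by
    rw [hBQ]
    have := Matrix.map_mul (L := B * (Matrix.of fun i j => c (i, j))) (M := B)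
      (f := Int.castRingHom ℚ)
    have h4 := Matrix.map_mul (L := B) (M := (Matrix.of fun i j => c (i, j)))
      (f := Int.castRingHom ℚ)
    rw [h4] at this
    exact this
  rw [h3, hC, Matrix.mul_smul, Matrix.smul_mul, hBGB]
  ext i j
  simp [hBQ]

/-! ### the image of an integer matrix as a kernel -/

/-- the matrix `B C - d` whose kernel is the image of `B` -/
def kerMat (B : Matrix n m ℤ) (C : Matrix m n ℤ) (d : ℤ) : Matrix n n ℤ := B * C - d • 1

theorem range_eq_ker {B : Matrix n m ℤ} {C : Matrix m n ℤ} {d : ℤ} (hd : d ≠ 0)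
    (hBCB : B * C * B = d • B) (F : Type*) [Field F] [CharZero F] (x : n → F) :
    x ∈ LinearMap.range (B.map (Int.cast : ℤ → F)).mulVecLin ↔
      ((kerMat B C d).map (Int.cast : ℤ → F)) *ᵥ x = 0 := by
  have hdF : (d : F) ≠ 0 := by exact_mod_cast hd
  set BF := B.map (Int.cast : ℤ → F) with hBF
  set CF := C.map (Int.cast : ℤ → F) with hCF
  have hK : (kerMat B C d).map (Int.cast : ℤ → F) = BF * CF - (d : F) • 1 := by
    have h1 := Matrix.map_mul (L := B) (M := C) (f := Int.castRingHom F)
    ext i j
    have h2 := congrFun (congrFun h1 i) j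
    simp only [kerMat, Matrix.map_apply, Matrix.sub_apply, Matrix.smul_apply, Int.cast_sub]
    have h3 : (((B * C) i j : ℤ) : F) = (BF * CF) i j := by
      simpa using h2
    rw [h3]
    congr 1
    by_cases hij : i = j
    · subst hij; simp
    · simp [Matrix.one_apply_ne hij]
  have hBCBF : BF * CF * BF = (d : F) • BF := by
    have h1 := Matrix.map_mul (L := B * C) (M := B) (f := Int.castRingHom F)
    have h2 := Matrix.map_mul (L := B) (M := C) (f := Int.castRingHom F)
    rw [h2, hBCB] at h1
    rw [hBF, hCF]
    rw [show (B.map (Int.cast : ℤ → F)) = B.map (Int.castRingHom F) from rfl,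
      show (C.map (Int.cast : ℤ → F)) = C.map (Int.castRingHom F) from rfl, ← h1]
    ext i j
    simp
  rw [hK, Matrix.sub_mulVec, Matrix.smul_mulVec, Matrix.one_mulVec, sub_eq_zero]
  constructor
  · rintro ⟨y, rfl⟩
    rw [Matrix.mulVecLin_apply, Matrix.mulVec_mulVec, hBCBF, Matrix.smul_mulVec]
  · intro h
    refine ⟨(d : F)⁻¹ • (CF *ᵥ x), ?_⟩
    rw [Matrix.mulVecLin_apply, Matrix.mulVec_smul, Matrix.mulVec_mulVec, h, smul_smul,
      inv_mul_cancel₀ hdF, one_smul]

/-! ### the extended family -/

/-- the family `A` extended by one matrix -/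
def optMat (A : I → Matrix n n ℤ) (D : Matrix n n ℤ) : Option I → Matrix n n ℤ :=
  fun o => o.elim D A

/-- the system of eigenvalues extended by `0` -/
def optVal {F : Type*} [Zero F] (a : I → F) : Option I → F := fun o => o.elim 0 a

theorem mem_eig_opt {A : I → Matrix n n ℤ} {D : Matrix n n ℤ} {F : Type*} [Field F] {a : I → F}
    {x : n → F} :
    x ∈ eig (optMat A D) F (optVal a) ↔
      x ∈ eig A F a ∧ (D.map (Int.cast : ℤ → F)) *ᵥ x = 0 := by
  rw [mem_eig, mem_eig]
  constructor
  · intro h
    refine ⟨fun i => h (some i), ?_⟩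
    have := h none
    simpa [optMat, optVal] using this
  · rintro ⟨h1, h2⟩ o
    cases o with
    | none => simpa [optMat, optVal] using h2
    | some i => exact h1 i

theorem eig_opt_le (A : I → Matrix n n ℤ) (D : Matrix n n ℤ) (F : Type*) [Field F] (a : I → F) :
    eig (optMat A D) F (optVal a) ≤ eig A F a := fun _ hx => (mem_eig_opt.mp hx).1

/-- the inclusion as an equality of dimensions -/
theorem eig_le_range_iff {B : Matrix n m ℤ} {C : Matrix m n ℤ} {d : ℤ} (hd : d ≠ 0)
    (hBCB : B * C * B = d • B) (A : I → Matrix n n ℤ) (F : Type*) [Field F] [CharZero F]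
    (a : I → F) :
    eig A F a ≤ LinearMap.range (B.map (Int.cast : ℤ → F)).mulVecLin ↔
      finrank F ↥(eig (optMat A (kerMat B C d)) F (optVal a)) = finrank F ↥(eig A F a) := by
  constructor
  · intro h
    have h1 : eig (optMat A (kerMat B C d)) F (optVal a) = eig A F a := by
      apply le_antisymm (eig_opt_le A _ F a)
      intro x hx
      exact mem_eig_opt.mpr ⟨hx, (range_eq_ker hd hBCB F x).mp (h hx)⟩
    rw [h1]
  · intro h x hx
    have h1 : eig (optMat A (kerMat B C d)) F (optVal a) = eig A F a :=
      Submodule.eq_of_le_of_finrank_eq (eig_opt_le A _ F a) h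
    rw [← h1] at hx
    exact (range_eq_ker hd hBCB F x).mpr (mem_eig_opt.mp hx).2

/-- **the inclusion `eig ≤ range B` is invariant under extension of the field** -/
theorem eig_le_range_map_iff (A : I → Matrix n n ℤ) (B : Matrix n m ℤ) {E L : Type*} [Field E]
    [Field L] [Algebra E L] [CharZero E] [CharZero L] (a : I → E) :
    eig A L (fun i => algebraMap E L (a i)) ≤
        LinearMap.range (B.map (Int.cast : ℤ → L)).mulVecLin ↔
      eig A E a ≤ LinearMap.range (B.map (Int.cast : ℤ → E)).mulVecLin := by
  obtain ⟨C, d, hd, hBCB⟩ := exists_genInv B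
  rw [eig_le_range_iff hd hBCB A L, eig_le_range_iff hd hBCB A E, finrank_eig_map A a]
  have h1 : optVal (fun i => algebraMap E L (a i)) = fun o => algebraMap E L (optVal a o) := by
    funext o
    cases o with
    | none => simp [optVal]
    | some i => rfl
  rw [h1, finrank_eig_map (optMat A (kerMat B C d)) (optVal a)]

/-- `eig = ⊥` is invariant under extension of the field -/
theorem eig_eq_bot_map_iff (A : I → Matrix n n ℤ) {E L : Type*} [Field E] [Field L] [Algebra E L]
    (a : I → E) :
    eig A L (fun i => algebraMap E L (a i)) = ⊥ ↔ eig A E a = ⊥ := by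
  rw [← Submodule.finrank_eq_zero, ← Submodule.finrank_eq_zero, finrank_eig_map A a]

/-! ### a common subfield -/

/-- a system of algebraic numbers in `K` comes from a subfield which embeds into `ℂ` -/
theorem exists_embedding {K : Type*} [Field K] [CharZero K] (a : I → K)
    (hint : ∀ i, IsIntegral ℚ (a i)) :
    ∃ (E₀ : IntermediateField ℚ K) (σ : ↥E₀ →+* ℂ) (a₀ : I → ↥E₀), ∀ i, ((a₀ i : ↥E₀) : K) = a i := by
  set E₀ : IntermediateField ℚ K := IntermediateField.adjoin ℚ (Set.range a) with hE₀
  have hint' : ∀ y ∈ Set.range a, IsIntegral ℚ y := by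
    rintro _ ⟨i, rfl⟩
    exact hint i
  haveI : Algebra.IsAlgebraic ℚ ↥E₀ := IntermediateField.isAlgebraic_adjoin hint'
  let σ : ↥E₀ →ₐ[ℚ] ℂ := IsAlgClosed.lift
  exact ⟨E₀, σ.toRingHom, fun i => ⟨a i, IntermediateField.subset_adjoin ℚ _ ⟨i, rfl⟩⟩, fun i => rfl⟩

/-- the eigenvalues of a non-zero simultaneous eigenspace are algebraic -/
theorem isIntegral_of_eig_ne_bot {A : I → Matrix n n ℤ} {K : Type*} [Field K] [CharZero K]
    {a : I → K} (h : eig A K a ≠ ⊥) (i : I) : IsIntegral ℚ (a i) := by
  obtain ⟨x, hx, hx0⟩ := (Submodule.ne_bot_iff _).mp h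
  exact (isIntegral_of_mulVec_eq (A i) hx0 (hx i)).tower_top

end Fermat.Agent.S59lib.SMO
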