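/-
S59lib / SMO / CohC  (helper4)

**Strong multiplicity one for the FULL Hecke algebra, complex form.**
For a level `M` and ANY system of eigenvalues `a : ℕ → ℂ`:
* `finrank_eigS_le_one` : the simultaneous eigenspace in `S₂(Γ₀(M))` of all `T_ℓ` (`ℓ ∤ M`) and all
  `U_q` (`q ∣ M`) has dimension `≤ 1` (`a₁ = 0 ⇒ f = 0`, `q`-expansion);
* `finrank_eigH_le_two` : the simultaneous eigenspace in the parabolic cohomology
  `Hom_par(Γ₀(M), ℂ)` of the cohomological operators `tOp`, `uOp` has dimension `≤ 2`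
  (Eichler–Shimura `periodHomPair`, S21, and the bridges `heckeT_periodHomPair`,
  `periodHomPair_heckeU`).
-/
import Mathlib
import Fermat.Agent.S41lib.HC.BridgeMain
import Fermat.Agent.S43lib.B1.Level
import Fermat.Agent.Helper8.QCoeff
import Fermat.Agent.S21
import Fermat.Agent.S29lib.H.Eigen

set_option autoImplicit false
set_option linter.unusedSectionVars false
set_option linter.style.haveILetI false

noncomputable section

namespace Fermat.Agent.S59lib.SMO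

open CongruenceSubgroup ModularFormClass ModularCurve ModularCurve.Period Module
open Fermat.Agent.S41lib.HC Fermat.Agent.S43lib.B1 Fermat.Agent.Helper8
open Fermat.Agent.S16lib.LH
open scoped MatrixGroups

variable {M : ℕ} [NeZero M]

/-! ### the cohomological operators, uniformly in the prime -/

/-- `T_ℓ` on `Hom(Γ₀(M), A)` (no `Fact` argument) -/
def tOp (M : ℕ) {ℓ : ℕ} (hℓ : ℓ.Prime) (hℓM : ¬ ℓ ∣ M) (A : Type*) [AddCommGroup A] :
    H (Gamma0 M) A →+ H (Gamma0 M) A :=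
  haveI : Fact ℓ.Prime := ⟨hℓ⟩
  heckeT hℓM A

/-- `U_q` on `Hom(Γ₀(M), A)`, `q ∣ M` -/
def uOp (M : ℕ) {q : ℕ} (hq : q.Prime) (hqM : q ∣ M) (A : Type*) [AddCommGroup A] :
    H (Gamma0 M) A →+ H (Gamma0 M) A :=
  haveI : NeZero q := ⟨hq.ne_zero⟩
  (uData hqM).op A

theorem tOp_eq {ℓ : ℕ} [Fact ℓ.Prime] (hℓ : ℓ.Prime) (hℓM : ¬ ℓ ∣ M) (A : Type*)
    [AddCommGroup A] : tOp M hℓ hℓM A = heckeT hℓM A := rfl

theorem uOp_eq {q : ℕ} [NeZero q] (hq : q.Prime) (hqM : q ∣ M) (A : Type*) [AddCommGroup A] :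
    uOp M hq hqM A = (uData hqM).op A := rfl

theorem tOp_smul {ℓ : ℕ} (hℓ : ℓ.Prime) (hℓM : ¬ ℓ ∣ M) {R A : Type*} [Semiring R]
    [AddCommGroup A] [Module R A] (c : R) (φ : H (Gamma0 M) A) :
    tOp M hℓ hℓM A (c • φ) = c • tOp M hℓ hℓM A φ := by
  haveI : Fact ℓ.Prime := ⟨hℓ⟩
  exact ((tData hℓM).opₗ R A).map_smul c φ

theorem uOp_smul {q : ℕ} (hq : q.Prime) (hqM : q ∣ M) {R A : Type*} [Semiring R]
    [AddCommGroup A] [Module R A] (c : R) (φ : H (Gamma0 M) A) :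
    uOp M hq hqM A (c • φ) = c • uOp M hq hqM A φ := by
  haveI : NeZero q := ⟨hq.ne_zero⟩
  exact ((uData hqM).opₗ R A).map_smul c φ

theorem tOp_periodHomPair {ℓ : ℕ} (hℓ : ℓ.Prime) (hℓM : ¬ ℓ ∣ M)
    (f g : CuspForm (Gamma0 M) 2) :
    tOp M hℓ hℓM ℂ (periodHomPair M (f, g)) =
      periodHomPair M (CuspForm.heckeTLin 2 hℓ hℓM f, CuspForm.heckeTLin 2 hℓ hℓM g) := by
  haveI : Fact ℓ.Prime := ⟨hℓ⟩
  exact heckeT_periodHomPair hℓ hℓM f g

theorem uOp_periodHomPair {q : ℕ} (hq : q.Prime) (hqM : q ∣ M)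
    (f g : CuspForm (Gamma0 M) 2) :
    uOp M hq hqM ℂ (periodHomPair M (f, g)) =
      periodHomPair M (CuspForm.heckeULin 2 hqM f, CuspForm.heckeULin 2 hqM g) := by
  haveI : NeZero q := ⟨hq.ne_zero⟩
  ext γ
  show (uData hqM).op ℂ (periodHomPair M (f, g)) (Additive.ofMul γ) = _
  rw [CosetData.op_apply]
  exact (periodHomPair_heckeU hqM f g γ).symm

/-! ### cusp forms -/

/-- the simultaneous eigenspace of the full Hecke algebra on `S₂(Γ₀(M))` -/
def eigS (M : ℕ) [NeZero M] (a : ℕ → ℂ) : Submodule ℂ (CuspForm (Gamma0 M) 2) where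
  carrier := {f | (∀ (ℓ : ℕ) (hℓ : ℓ.Prime) (hℓM : ¬ ℓ ∣ M),
      CuspForm.heckeTLin 2 hℓ hℓM f = a ℓ • f) ∧
    ∀ (q : ℕ) (_ : q.Prime) (hqM : q ∣ M), CuspForm.heckeULin 2 hqM f = a q • f}
  zero_mem' := ⟨fun ℓ hℓ hℓM => by rw [map_zero, smul_zero],
    fun q _ hqM => by rw [map_zero, smul_zero]⟩
  add_mem' := by
    rintro f g ⟨hf1, hf2⟩ ⟨hg1, hg2⟩
    exact ⟨fun ℓ hℓ hℓM => by rw [map_add, hf1, hg1, smul_add],
      fun q hq hqM => by rw [map_add, hf2 q hq, hg2 q hq, smul_add]⟩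
  smul_mem' := by
    rintro c f ⟨hf1, hf2⟩
    exact ⟨fun ℓ hℓ hℓM => by rw [map_smul, hf1, smul_comm],
      fun q hq hqM => by rw [map_smul, hf2 q hq, smul_comm]⟩

theorem mem_eigS {a : ℕ → ℂ} {f : CuspForm (Gamma0 M) 2} :
    f ∈ eigS M a ↔ (∀ (ℓ : ℕ) (hℓ : ℓ.Prime) (hℓM : ¬ ℓ ∣ M),
      CuspForm.heckeTLin 2 hℓ hℓM f = a ℓ • f) ∧
    ∀ (q : ℕ) (_ : q.Prime) (hqM : q ∣ M), CuspForm.heckeULin 2 hqM f = a q • f := Iff.rfl

/-- the recursion of the `q`-coefficients of an eigenvector of the full Hecke algebra -/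
theorem qCoeff_rel {a : ℕ → ℂ} {f : CuspForm (Gamma0 M) 2} (hf : f ∈ eigS M a)
    {ℓ : ℕ} (hℓ : ℓ.Prime) (n : ℕ) :
    qCoeff ⇑f (n * ℓ) = a ℓ * qCoeff ⇑f n -
      (if ℓ ∣ M then 0 else if ℓ ∣ n then (ℓ : ℂ) * qCoeff ⇑f (n / ℓ) else 0) := by
  by_cases hM : ℓ ∣ M
  · rw [if_pos hM, sub_zero]
    have h2 := congrArg (fun v : CuspForm (Gamma0 M) 2 => qCoeff ⇑v n) (hf.2 ℓ hℓ hM)
    simp only [qCoeff_heckeULin hℓ, qCoeff_smul, ModularForm.coeffHeckeU_apply] at h2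
    exact h2
  · rw [if_neg hM]
    have h2 := congrArg (fun v : CuspForm (Gamma0 M) 2 => qCoeff ⇑v n) (hf.1 ℓ hℓ hM)
    simp only [qCoeff_heckeTLin, qCoeff_smul, ModularForm.coeffHeckeT_apply] at h2
    have h3 : ((ℓ : ℂ)) ^ ((2 : ℤ) - 1) = (ℓ : ℂ) := by norm_num
    rw [h3] at h2
    rw [← h2]
    ring

/-- **`a₁ = 0 ⇒ f = 0`** for an eigenvector of the full Hecke algebra -/
theorem eq_zero_of_qCoeff_one {a : ℕ → ℂ} {f : CuspForm (Gamma0 M) 2} (hf : f ∈ eigS M a)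
    (h1 : qCoeff ⇑f 1 = 0) : f = 0 := by
  apply eq_zero_of_qCoeff_eq_zero
  intro n
  induction n using Nat.strong_induction_on with
  | _ n ih =>
  rcases Nat.lt_or_ge n 2 with hn | hn
  · interval_cases n
    · exact qCoeff_cusp_zero f
    · exact h1
  · have hn1 : n ≠ 1 := by omega
    have hℓp : n.minFac.Prime := Nat.minFac_prime hn1
    obtain ⟨m, hm⟩ : n.minFac ∣ n := Nat.minFac_dvd n
    have hmpos : 0 < m := by
      rcases Nat.eq_zero_or_pos m with h0 | h0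
      · rw [h0, mul_zero] at hm; omega
      · exact h0
    have hmlt : m < n := by
      conv_rhs => rw [hm]
      exact lt_mul_of_one_lt_left hmpos hℓp.one_lt
    have hrel := qCoeff_rel hf hℓp m
    have hdiv : qCoeff ⇑f (m / n.minFac) = 0 := ih _ (lt_of_le_of_lt (Nat.div_le_self _ _) hmlt)
    rw [ih m hmlt, hdiv, mul_zero, mul_zero] at hrel
    have hnm : n = m * n.minFac := by rw [mul_comm]; exact hm
    rw [hnm, hrel]
    split_ifs <;> simp

/-- the first `q`-coefficient as a linear functional -/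
def coeffOne (M : ℕ) [NeZero M] : CuspForm (Gamma0 M) 2 →ₗ[ℂ] ℂ where
  toFun f := qCoeff ⇑f 1
  map_add' f g := qCoeff_add f g 1
  map_smul' c f := by rw [qCoeff_smul]; rfl

/-- **multiplicity one on cusp forms** -/
theorem finrank_eigS_le_one (a : ℕ → ℂ) : finrank ℂ ↥(eigS M a) ≤ 1 := by
  have hinj : Function.Injective ((coeffOne M).domRestrict (eigS M a)) := by
    rw [← LinearMap.ker_eq_bot, LinearMap.ker_eq_bot']
    rintro ⟨f, hf⟩ h
    exact Subtype.ext (eq_zero_of_qCoeff_one hf h)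
  have := LinearMap.finrank_le_finrank_of_injective hinj
  rwa [finrank_self] at this

/-! ### parabolic cohomology -/

/-- the simultaneous eigenspace of the full Hecke algebra on `Hom_par(Γ₀(M), ℂ)` -/
def eigH (M : ℕ) [NeZero M] (a : ℕ → ℂ) : Submodule ℂ (H (Gamma0 M) ℂ) where
  carrier := {φ | φ ∈ parabolicHoms ℂ (Gamma0 M) ℂ ∧
    (∀ (ℓ : ℕ) (hℓ : ℓ.Prime) (hℓM : ¬ ℓ ∣ M), tOp M hℓ hℓM ℂ φ = a ℓ • φ) ∧
    ∀ (q : ℕ) (hq : q.Prime) (hqM : q ∣ M), uOp M hq hqM ℂ φ = a q • φ}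
  zero_mem' := ⟨Submodule.zero_mem _, fun ℓ hℓ hℓM => by rw [map_zero, smul_zero],
    fun q hq hqM => by rw [map_zero, smul_zero]⟩
  add_mem' := by
    rintro φ ψ ⟨h0, h1, h2⟩ ⟨k0, k1, k2⟩
    exact ⟨Submodule.add_mem _ h0 k0, fun ℓ hℓ hℓM => by rw [map_add, h1, k1, smul_add],
      fun q hq hqM => by rw [map_add, h2, k2, smul_add]⟩
  smul_mem' := by
    rintro c φ ⟨h0, h1, h2⟩
    exact ⟨Submodule.smul_mem _ c h0, fun ℓ hℓ hℓM => by rw [tOp_smul, h1, smul_comm],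
      fun q hq hqM => by rw [uOp_smul, h2, smul_comm]⟩

theorem mem_eigH {a : ℕ → ℂ} {φ : H (Gamma0 M) ℂ} :
    φ ∈ eigH M a ↔ φ ∈ parabolicHoms ℂ (Gamma0 M) ℂ ∧
    (∀ (ℓ : ℕ) (hℓ : ℓ.Prime) (hℓM : ¬ ℓ ∣ M), tOp M hℓ hℓM ℂ φ = a ℓ • φ) ∧
    ∀ (q : ℕ) (hq : q.Prime) (hqM : q ∣ M), uOp M hq hqM ℂ φ = a q • φ := Iff.rfl

/-- the eigenspace in cohomology is the image of `eigS × eigS` under Eichler–Shimura -/
theorem eigH_le_map (a : ℕ → ℂ) :
    eigH M a ≤ ((eigS M a).prod (eigS M a)).map (periodHomPair M) := by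
  rintro φ ⟨h0, h1, h2⟩
  obtain ⟨⟨f, g⟩, rfl⟩ : φ ∈ LinearMap.range (periodHomPair M) := by
    rw [(Fermat.Agent.S21.result M).2]; exact h0
  have hinj := (Fermat.Agent.S21.result M).1
  have e : ∀ c : ℂ, c • periodHomPair M (f, g) = periodHomPair M (c • f, c • g) := by
    intro c; rw [← map_smul]; rfl
  refine ⟨(f, g), ⟨⟨fun ℓ hℓ hℓM => ?_, fun q hq hqM => ?_⟩,
    ⟨fun ℓ hℓ hℓM => ?_, fun q hq hqM => ?_⟩⟩, rfl⟩
  · have := h1 ℓ hℓ hℓM
    rw [tOp_periodHomPair, e] at this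
    exact congrArg Prod.fst (hinj this)
  · have := h2 q hq hqM
    rw [uOp_periodHomPair, e] at this
    exact congrArg Prod.fst (hinj this)
  · have := h1 ℓ hℓ hℓM
    rw [tOp_periodHomPair, e] at this
    exact congrArg Prod.snd (hinj this)
  · have := h2 q hq hqM
    rw [uOp_periodHomPair, e] at this
    exact congrArg Prod.snd (hinj this)

/-- **strong multiplicity one in parabolic cohomology, complex form** -/
theorem finrank_eigH_le_two (a : ℕ → ℂ) : finrank ℂ ↥(eigH M a) ≤ 2 := by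
  haveI : FiniteDimensional ℂ (CuspForm (Gamma0 M) 2) :=
    Fermat.Agent.ProgramR.ES.finiteDimensional_cuspForm M
  have h1 := Submodule.finrank_mono (eigH_le_map (M := M) a)
  have h2 := Submodule.finrank_map_le (periodHomPair M) ((eigS M a).prod (eigS M a))
  have h3 : finrank ℂ ↥((eigS M a).prod (eigS M a)) =
      finrank ℂ ↥(eigS M a) + finrank ℂ ↥(eigS M a) := by
    rw [← Module.finrank_prod]
    exact LinearEquiv.finrank_eq (Fermat.Agent.S29lib.H.prodSubEquiv _ _)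
  have h4 := finrank_eigS_le_one (M := M) a
  refine (h1.trans h2).trans ?_
  rw [h3]
  omega

end Fermat.Agent.S59lib.SMO
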