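/-
S59lib / SMO / CohK  (helper4)

**Strong multiplicity one for the FULL Hecke algebra in parabolic cohomology with coefficients in
an arbitrary field `K` of characteristic zero** (brick SC2 of the `Σ`-step):

  `finrank_eigHK_le_two : finrank K ↥(eigHK M K a) ≤ 2`

where `eigHK M K a` is the space of parabolic homomorphisms `φ : Γ₀(M) → K` with
`fullOp M hℓ K φ = a ℓ • φ` for ALL primes `ℓ` (`fullOp = U_ℓ` if `ℓ ∣ M`, `T_ℓ` otherwise), and
`a : ℕ → K` is an arbitrary system of eigenvalues.  Also the matrix form `finrank_eig_fullMat_le_two`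
on the lattice `L_M = VZ (Γ₀(M))` in any `ℤ`-basis.

Proof: coordinates `K^r ≅ Hom_par(Γ₀(M), K)` in a `ℤ`-basis of `L_M` (valid over every field of
characteristic `0`), integer matrices of the operators, the complex form `SMO/CohC` and the field
independence `SMO/FieldIndep`.
-/
import Mathlib
import Fermat.Agent.S59lib.SMO.CohC
import Fermat.Agent.S59lib.SMO.FieldIndep
import Fermat.Agent.S16lib.LG.Lift

set_option autoImplicit false
set_option linter.unusedSectionVars false
set_option linter.style.haveILetI false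

noncomputable section

namespace Fermat.Agent.S59lib.SMO

open CongruenceSubgroup ModularCurve ModularCurve.Period Module Matrix
open Fermat.Agent.S41lib.HC Fermat.Agent.S43lib.B1 Fermat.Agent.S16lib.LG
open Fermat.Agent.S16lib.LH
open scoped MatrixGroups

variable {M : ℕ} [NeZero M]

/-! ### the operator of the full Hecke algebra at a prime -/

/-- `U_ℓ` if `ℓ ∣ M`, `T_ℓ` otherwise -/
def fullOp (M : ℕ) [NeZero M] {ℓ : ℕ} (hℓ : ℓ.Prime) (A : Type*) [AddCommGroup A] :
    H (Gamma0 M) A →+ H (Gamma0 M) A :=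
  if h : ℓ ∣ M then uOp M hℓ h A else tOp M hℓ h A

theorem fullOp_of_dvd {ℓ : ℕ} (hℓ : ℓ.Prime) (h : ℓ ∣ M) (A : Type*) [AddCommGroup A] :
    fullOp M hℓ A = uOp M hℓ h A := by
  rw [fullOp, dif_pos h]

theorem fullOp_of_not_dvd {ℓ : ℕ} (hℓ : ℓ.Prime) (h : ¬ ℓ ∣ M) (A : Type*) [AddCommGroup A] :
    fullOp M hℓ A = tOp M hℓ h A := by
  rw [fullOp, dif_neg h]

theorem tOp_coeff {ℓ : ℕ} (hℓ : ℓ.Prime) (h : ¬ ℓ ∣ M) {A A' : Type*} [AddCommGroup A]
    [AddCommGroup A'] (j : A →+ A') (φ : H (Gamma0 M) A) :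
    tOp M hℓ h A' (coeff _ j φ) = coeff _ j (tOp M hℓ h A φ) := by
  haveI : Fact ℓ.Prime := ⟨hℓ⟩
  exact (tData h).op_coeff j φ

theorem uOp_coeff {ℓ : ℕ} (hℓ : ℓ.Prime) (h : ℓ ∣ M) {A A' : Type*} [AddCommGroup A]
    [AddCommGroup A'] (j : A →+ A') (φ : H (Gamma0 M) A) :
    uOp M hℓ h A' (coeff _ j φ) = coeff _ j (uOp M hℓ h A φ) := by
  haveI : NeZero ℓ := ⟨hℓ.ne_zero⟩
  exact (uData h).op_coeff j φ

theorem fullOp_coeff {ℓ : ℕ} (hℓ : ℓ.Prime) {A A' : Type*} [AddCommGroup A]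
    [AddCommGroup A'] (j : A →+ A') (φ : H (Gamma0 M) A) :
    fullOp M hℓ A' (coeff _ j φ) = coeff _ j (fullOp M hℓ A φ) := by
  by_cases h : ℓ ∣ M
  · rw [fullOp_of_dvd hℓ h, fullOp_of_dvd hℓ h, uOp_coeff]
  · rw [fullOp_of_not_dvd hℓ h, fullOp_of_not_dvd hℓ h, tOp_coeff]

theorem fullOp_smul {ℓ : ℕ} (hℓ : ℓ.Prime) {R A : Type*} [Semiring R] [AddCommGroup A]
    [Module R A] (c : R) (φ : H (Gamma0 M) A) :
    fullOp M hℓ A (c • φ) = c • fullOp M hℓ A φ := by
  by_cases h : ℓ ∣ M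
  · rw [fullOp_of_dvd hℓ h, uOp_smul]
  · rw [fullOp_of_not_dvd hℓ h, tOp_smul]

theorem tOp_isParabolicHom {ℓ : ℕ} (hℓ : ℓ.Prime) (h : ¬ ℓ ∣ M) {A : Type*} [AddCommGroup A]
    {φ : H (Gamma0 M) A} (hφ : IsParabolicHom (Gamma0 M) φ) :
    IsParabolicHom (Gamma0 M) (tOp M hℓ h A φ) := by
  haveI : Fact ℓ.Prime := ⟨hℓ⟩
  exact heckeT_isParabolicHom h hφ

theorem uOp_isParabolicHom {ℓ : ℕ} (hℓ : ℓ.Prime) (h : ℓ ∣ M) {A : Type*} [AddCommGroup A]
    {φ : H (Gamma0 M) A} (hφ : IsParabolicHom (Gamma0 M) φ) :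
    IsParabolicHom (Gamma0 M) (uOp M hℓ h A φ) := by
  haveI : NeZero ℓ := ⟨hℓ.ne_zero⟩
  exact (uData h).op_isParabolicHom (fun x : ZMod ℓ => ModularForm.heckeMatrix ℓ x.val)
    (fun γ x => uCoc_rel h γ x) hφ

theorem fullOp_isParabolicHom {ℓ : ℕ} (hℓ : ℓ.Prime) {A : Type*} [AddCommGroup A]
    {φ : H (Gamma0 M) A} (hφ : IsParabolicHom (Gamma0 M) φ) :
    IsParabolicHom (Gamma0 M) (fullOp M hℓ A φ) := by
  by_cases h : ℓ ∣ M
  · rw [fullOp_of_dvd hℓ h]; exact uOp_isParabolicHom hℓ h hφ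
  · rw [fullOp_of_not_dvd hℓ h]; exact tOp_isParabolicHom hℓ h hφ

/-! ### the lattice `L_M` and the integer matrices -/

/-- the operator of the full Hecke algebra on the lattice `L_M = VZ (Γ₀(M))` -/
def fullL (M : ℕ) [NeZero M] {ℓ : ℕ} (hℓ : ℓ.Prime) : Module.End ℤ ↥(VZ (Gamma0 M)) where
  toFun v := ⟨fullOp M hℓ ℤ v.1, fullOp_isParabolicHom hℓ v.2⟩
  map_add' u v := Subtype.ext (map_add (fullOp M hℓ ℤ) u.1 v.1)
  map_smul' c v := Subtype.ext (fullOp_smul hℓ c v.1)

@[simp] theorem fullL_coe {ℓ : ℕ} (hℓ : ℓ.Prime) (v : ↥(VZ (Gamma0 M))) :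
    ((fullL M hℓ v : ↥(VZ (Gamma0 M))) : H (Gamma0 M) ℤ) = fullOp M hℓ ℤ v.1 := rfl

variable {r : ℕ} (b : Basis (Fin r) ℤ ↥(VZ (Gamma0 M)))

/-- the integer matrix of the operator at `ℓ` in the basis `b` -/
def fullMat {ℓ : ℕ} (hℓ : ℓ.Prime) : Matrix (Fin r) (Fin r) ℤ :=
  LinearMap.toMatrix b b (fullL M hℓ)

/-! ### coordinates over a field of characteristic zero -/

variable (K : Type*) [Field K] [CharZero K]

/-- the `i`-th basis vector with coefficients in `K` -/
def bK (i : Fin r) : H (Gamma0 M) K :=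
  coeff (Gamma0 M) (Int.castAddHom K) ((b i : ↥(VZ (Gamma0 M))) : H (Gamma0 M) ℤ)

/-- the coordinate map `c ↦ ∑ c_i • b_i` -/
def coordK : (Fin r → K) →ₗ[K] H (Gamma0 M) K :=
  Fintype.linearCombination K (bK b K)

theorem coordK_apply (c : Fin r → K) : coordK b K c = ∑ i, c i • bK b K i :=
  Fintype.linearCombination_apply K _ c

theorem coordK_apply_apply (c : Fin r → K) (γ : Additive (Gamma0 M)) :
    coordK b K c γ =
      ∑ i, c i * ((((b i : ↥(VZ (Gamma0 M))) : H (Gamma0 M) ℤ) γ : ℤ) : K) := by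
  rw [coordK_apply, AddMonoidHom.finsetSum_apply]
  rfl

/-- the image of a lattice vector with coefficients in `K` is the combination of the `bK` with
its integer coordinates -/
theorem coeff_eq_coordK (v : ↥(VZ (Gamma0 M))) :
    coeff (Gamma0 M) (Int.castAddHom K) (v : H (Gamma0 M) ℤ) =
      coordK b K (fun i => ((b.repr v i : ℤ) : K)) := by
  have hv : (v : H (Gamma0 M) ℤ) =
      ∑ i, b.repr v i • ((b i : ↥(VZ (Gamma0 M))) : H (Gamma0 M) ℤ) := by
    have := congrArg (fun w : ↥(VZ (Gamma0 M)) => (w : H (Gamma0 M) ℤ)) (b.sum_repr v).symm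
    simpa only [Submodule.coe_sum, Submodule.coe_smul] using this
  rw [coordK_apply]
  conv_lhs => rw [hv]
  rw [map_sum]
  refine Finset.sum_congr rfl fun i _ => ?_
  rw [map_zsmul, ← Int.cast_smul_eq_zsmul K]
  rfl

theorem coordK_injective : Function.Injective (coordK b K) := by
  classical
  rw [← LinearMap.ker_eq_bot, LinearMap.ker_eq_bot']
  intro c hc
  obtain ⟨S, hS⟩ := (Group.FG.out : (⊤ : Subgroup ↥(Gamma0 M)).FG)
  -- the integer family of values on the generators
  set v : Fin r → ↥S → ℤ := fun i s =>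
    ((b i : ↥(VZ (Gamma0 M))) : H (Gamma0 M) ℤ) (Additive.ofMul s.1) with hv
  have hvind : LinearIndependent ℤ v := by
    rw [Fintype.linearIndependent_iff]
    intro m hm
    have h1 : ∑ i, m i • b i = 0 := by
      apply Subtype.ext
      apply evalAt_injective (A := ℤ) S hS
      funext s
      have := congrFun hm s
      rw [Submodule.coe_sum]
      simp only [Submodule.coe_smul, map_sum, map_zsmul]
      simpa [evalAt, hv] using this
    exact Fintype.linearIndependent_iff.mp b.linearIndependent m h1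
  have hK : LinearIndependent K (fun i => algebraMap ℤ K ∘ v i) :=
    linearIndependent_algebraMap_comp_iff.mpr hvind
  have h2 : ∑ i, c i • (algebraMap ℤ K ∘ v i) = 0 := by
    funext s
    have := congrArg (fun φ : H (Gamma0 M) K => φ (Additive.ofMul s.1)) hc
    simp only [coordK_apply_apply, AddMonoidHom.zero_apply] at this
    simpa [hv, Finset.sum_apply] using this
  exact funext (Fintype.linearIndependent_iff.mp hK c h2)

theorem coordK_mem (c : Fin r → K) : coordK b K c ∈ parabolicHoms K (Gamma0 M) K := by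
  rw [coordK_apply]
  refine Submodule.sum_mem _ fun i _ => Submodule.smul_mem _ _ ?_
  exact coeff_isParabolicHom _ _ (b i).2

/-- every parabolic homomorphism with values in `K` is a `K`-combination of integral ones -/
theorem parabolicHoms_le_range_coordK :
    parabolicHoms K (Gamma0 M) K ≤ LinearMap.range (coordK b K) := by
  intro φ hφ
  obtain ⟨S, hS⟩ := (Group.FG.out : (⊤ : Subgroup ↥(Gamma0 M)).FG)
  -- the (finitely generated, free) group of values
  set A : Submodule ℤ K := Submodule.span ℤ (Set.range (fun s : ↥S => φ (Additive.ofMul s.1)))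
    with hA
  have hAfg : A.FG := Submodule.fg_span (Set.finite_range _)
  have : Module.Finite ℤ ↥A := Module.Finite.of_fg hAfg
  have : Module.Free ℤ ↥A := Module.free_of_finite_type_torsion_free'
  let e := Module.Free.chooseBasis ℤ ↥A
  -- all values lie in `A`
  have hval : ∀ a : Additive ↥(Gamma0 M), φ a ∈ A := by
    let Ksub : Subgroup ↥(Gamma0 M) :=
      { carrier := {γ | φ (Additive.ofMul γ) ∈ A}
        mul_mem' := by
          intro a b ha hb
          show φ (Additive.ofMul (a * b)) ∈ A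
          rw [ofMul_mul, map_add]
          exact A.add_mem ha hb
        one_mem' := by
          show φ (Additive.ofMul 1) ∈ A
          rw [ofMul_one, map_zero]
          exact A.zero_mem
        inv_mem' := by
          intro a ha
          show φ (Additive.ofMul a⁻¹) ∈ A
          rw [ofMul_inv, map_neg]
          exact A.neg_mem ha }
    have hK : Subgroup.closure (S : Set ↥(Gamma0 M)) ≤ Ksub := by
      rw [Subgroup.closure_le]
      intro s hs
      exact Submodule.subset_span ⟨⟨s, hs⟩, rfl⟩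
    rw [hS] at hK
    intro a
    exact hK (Subgroup.mem_top (Additive.toMul a))
  -- `φ` with values in `A`
  let φA : Additive ↥(Gamma0 M) →+ ↥A :=
    { toFun := fun a => ⟨φ a, hval a⟩
      map_zero' := Subtype.ext (map_zero φ)
      map_add' := fun a b => Subtype.ext (map_add φ a b) }
  -- coordinates
  let φc : Module.Free.ChooseBasisIndex ℤ ↥A → H (Gamma0 M) ℤ :=
    fun j => (e.coord j).toAddMonoidHom.comp φA
  have hφc : ∀ j, φc j ∈ VZ (Gamma0 M) := by
    intro j γ hγ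
    have h0 : φ (Additive.ofMul γ) = 0 := hφ γ hγ
    have h1 : φA (Additive.ofMul γ) = 0 := Subtype.ext h0
    show e.coord j (φA (Additive.ofMul γ)) = 0
    rw [h1, map_zero]
  have hsum : φ = ∑ j, ((e j : ↥A) : K) • coeff (Gamma0 M) (Int.castAddHom K) (φc j) := by
    apply AddMonoidHom.ext
    intro a
    have h1 : φA a = ∑ j, e.repr (φA a) j • e j := (e.sum_repr (φA a)).symm
    have h2 : φ a = ∑ j, e.repr (φA a) j • ((e j : ↥A) : K) := by
      have := congrArg (fun w : ↥A => (w : K)) h1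
      simp only [Submodule.coe_sum, Submodule.coe_smul] at this
      exact this
    rw [AddMonoidHom.finsetSum_apply]
    conv_lhs => rw [h2]
    refine Finset.sum_congr rfl ?_
    intro j _
    rw [AddMonoidHom.smul_apply, coeff_apply]
    show _ = ((e j : ↥A) : K) • (((e.coord j) (φA a) : ℤ) : K)
    rw [zsmul_eq_mul, smul_eq_mul, mul_comm]
    rfl
  rw [hsum]
  refine Submodule.sum_mem _ fun j _ => Submodule.smul_mem _ _ ?_
  rw [coeff_eq_coordK b K ⟨φc j, hφc j⟩]
  exact ⟨_, rfl⟩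

theorem range_coordK : LinearMap.range (coordK b K) = parabolicHoms K (Gamma0 M) K := by
  apply le_antisymm
  · rintro _ ⟨c, rfl⟩
    exact coordK_mem b K c
  · exact parabolicHoms_le_range_coordK b K

/-- the coordinate map intertwines the integer matrix with the operator -/
theorem fullOp_coordK {ℓ : ℕ} (hℓ : ℓ.Prime) (c : Fin r → K) :
    fullOp M hℓ K (coordK b K c) =
      coordK b K (((fullMat b hℓ).map (Int.cast : ℤ → K)) *ᵥ c) := by
  -- expand `T b_j` in the basis
  have hT : ∀ j, fullOp M hℓ K (bK b K j) =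
      ∑ i, ((fullMat b hℓ i j : ℤ) : K) • bK b K i := by
    intro j
    rw [bK, fullOp_coeff, ← fullL_coe, coeff_eq_coordK b K, coordK_apply]
    refine Finset.sum_congr rfl fun i _ => ?_
    rw [fullMat, LinearMap.toMatrix_apply]
  rw [coordK_apply, coordK_apply, map_sum]
  simp_rw [fullOp_smul, hT, Finset.smul_sum, smul_smul]
  rw [Finset.sum_comm]
  refine Finset.sum_congr rfl fun i _ => ?_
  rw [← Finset.sum_smul]
  congr 1
  rw [Matrix.mulVec, dotProduct]
  refine Finset.sum_congr rfl fun j _ => ?_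
  rw [Matrix.map_apply, mul_comm]

/-! ### the eigenspaces -/

/-- the simultaneous eigenspace of the full Hecke algebra on `Hom_par(Γ₀(M), K)` -/
def eigHK (M : ℕ) [NeZero M] (K : Type*) [Field K] (a : ℕ → K) :
    Submodule K (H (Gamma0 M) K) where
  carrier := {φ | φ ∈ parabolicHoms K (Gamma0 M) K ∧
    ∀ (ℓ : ℕ) (hℓ : ℓ.Prime), fullOp M hℓ K φ = a ℓ • φ}
  zero_mem' := ⟨Submodule.zero_mem _, fun ℓ hℓ => by rw [map_zero, smul_zero]⟩
  add_mem' := by
    rintro φ ψ ⟨h0, h1⟩ ⟨k0, k1⟩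
    exact ⟨Submodule.add_mem _ h0 k0, fun ℓ hℓ => by rw [map_add, h1, k1, smul_add]⟩
  smul_mem' := by
    rintro c φ ⟨h0, h1⟩
    exact ⟨Submodule.smul_mem _ c h0, fun ℓ hℓ => by rw [fullOp_smul, h1, smul_comm]⟩

theorem mem_eigHK {a : ℕ → K} {φ : H (Gamma0 M) K} :
    φ ∈ eigHK M K a ↔ φ ∈ parabolicHoms K (Gamma0 M) K ∧
      ∀ (ℓ : ℕ) (hℓ : ℓ.Prime), fullOp M hℓ K φ = a ℓ • φ := Iff.rfl

/-- the index type of the full Hecke algebra -/
abbrev PrimeIdx : Type := {ℓ : ℕ // ℓ.Prime}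

/-- in coordinates the eigenspace is the eigenspace of the integer matrices -/
theorem eigHK_eq_map (a : ℕ → K) :
    eigHK M K a =
      (eig (fun ℓ : PrimeIdx => fullMat b ℓ.2) K (fun ℓ => a ℓ.1)).map (coordK b K) := by
  ext φ
  constructor
  · rintro ⟨h0, h1⟩
    rw [← range_coordK b K] at h0
    obtain ⟨c, rfl⟩ := h0
    refine ⟨c, ?_, rfl⟩
    intro ℓ
    apply coordK_injective b K
    rw [← fullOp_coordK, h1 ℓ.1 ℓ.2, map_smul]
  · rintro ⟨c, hc, rfl⟩
    refine ⟨coordK_mem b K c, fun ℓ hℓ => ?_⟩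
    rw [fullOp_coordK, hc ⟨ℓ, hℓ⟩, map_smul]

theorem finrank_eigHK_eq (a : ℕ → K) :
    finrank K ↥(eigHK M K a) =
      finrank K ↥(eig (fun ℓ : PrimeIdx => fullMat b ℓ.2) K (fun ℓ => a ℓ.1)) := by
  rw [eigHK_eq_map b K a]
  exact LinearEquiv.finrank_eq
    (Submodule.equivMapOfInjective (coordK b K) (coordK_injective b K) _).symm

/-- over `ℂ` the eigenspace is that of `SMO/CohC` -/
theorem eigHK_complex (a : ℕ → ℂ) : eigHK M ℂ a = eigH M a := by
  ext φ
  rw [mem_eigHK, mem_eigH]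
  constructor
  · rintro ⟨h0, h1⟩
    refine ⟨h0, fun ℓ hℓ hℓM => ?_, fun q hq hqM => ?_⟩
    · rw [← fullOp_of_not_dvd hℓ hℓM]; exact h1 ℓ hℓ
    · rw [← fullOp_of_dvd hq hqM]; exact h1 q hq
  · rintro ⟨h0, h1, h2⟩
    refine ⟨h0, fun ℓ hℓ => ?_⟩
    by_cases h : ℓ ∣ M
    · rw [fullOp_of_dvd hℓ h]; exact h2 ℓ hℓ h
    · rw [fullOp_of_not_dvd hℓ h]; exact h1 ℓ hℓ h

/-- **matrix form**: the simultaneous eigenspaces of the integer matrices of the full Hecke
algebra on the lattice `L_M` have dimension `≤ 2` over every field of characteristic `0` -/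
theorem finrank_eig_fullMat_le_two (a : PrimeIdx → K) :
    finrank K ↥(eig (fun ℓ : PrimeIdx => fullMat b ℓ.2) K a) ≤ 2 := by
  classical
  refine finrank_eig_le_of_complex _ 2 (fun a' => ?_) K a
  -- extend `a'` to a function on `ℕ`
  set a'' : ℕ → ℂ := fun ℓ => if h : ℓ.Prime then a' ⟨ℓ, h⟩ else 0 with ha''
  have h1 : (fun ℓ : PrimeIdx => a'' ℓ.1) = a' := by
    funext ℓ
    rw [ha'']
    simp only [dif_pos ℓ.2]
  rw [← h1, ← finrank_eigHK_eq b ℂ a'', eigHK_complex]
  exact finrank_eigH_le_two a''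

/-- **Strong multiplicity one (brick SC2).**  Over every field `K` of characteristic zero and for
every system of eigenvalues `a`, the simultaneous eigenspace of the FULL Hecke algebra (`T_ℓ` for
`ℓ ∤ M`, `U_ℓ` for `ℓ ∣ M`) in the parabolic cohomology `Hom_par(Γ₀(M), K)` has dimension `≤ 2`. -/
theorem finrank_eigHK_le_two (a : ℕ → K) : finrank K ↥(eigHK M K a) ≤ 2 := by
  set b := Module.finBasis ℤ ↥(VZ (Gamma0 M))
  rw [finrank_eigHK_eq b K a]
  exact finrank_eig_fullMat_le_two b K _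

end Fermat.Agent.S59lib.SMO
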