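/-
S59lib / SMO / Parity  (helper4)

Complement to `SMO/CohK`: the simultaneous eigenspace of the full Hecke algebra in
`Hom_par(Γ₀(M), K)` (`K` any field of characteristic zero) has dimension `0` or `2`, never `1`:

  `finrank_eigHK_eq_zero_or_two`,  `finrank_eigHK_eq_two` (if the eigenspace is non-zero).

Over `ℂ` the Eichler–Shimura map `periodHomPair = (1 + ι) P ⊕ (1 - ι) P` is Hecke-equivariant in
both variables, so `dim eigH a = 2 · dim eigS a`; the general case follows by field independence.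
-/
import Mathlib
import Fermat.Agent.S59lib.SMO.CohK

set_option autoImplicit false
set_option linter.unusedSectionVars false
set_option linter.style.haveILetI false

noncomputable section

namespace Fermat.Agent.S59lib.SMO

open CongruenceSubgroup ModularCurve ModularCurve.Period Module Matrix
open Fermat.Agent.S41lib.HC Fermat.Agent.S43lib.B1 Fermat.Agent.S16lib.LG
open Fermat.Agent.S16lib.LH
open scoped MatrixGroups

variable {M : ℕ} [NeZero M]

/-- the eigenspace in cohomology IS the image of `eigS × eigS` under Eichler–Shimura -/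
theorem eigH_eq_map (a : ℕ → ℂ) :
    eigH M a = ((eigS M a).prod (eigS M a)).map (periodHomPair M) := by
  apply le_antisymm (eigH_le_map a)
  rintro _ ⟨⟨f, g⟩, ⟨hf, hg⟩, rfl⟩
  have hf' : f ∈ eigS M a := hf
  have hg' : g ∈ eigS M a := hg
  have e : ∀ c : ℂ, c • periodHomPair M (f, g) = periodHomPair M (c • f, c • g) := by
    intro c; rw [← map_smul]; rfl
  refine ⟨?_, fun ℓ hℓ hℓM => ?_, fun q hq hqM => ?_⟩
  · rw [← (Fermat.Agent.S21.result M).2]
    exact ⟨_, rfl⟩
  · rw [tOp_periodHomPair, hf'.1 ℓ hℓ hℓM, hg'.1 ℓ hℓ hℓM, e]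
  · rw [uOp_periodHomPair, hf'.2 q hq hqM, hg'.2 q hq hqM, e]

/-- `dim eigH a = 2 · dim eigS a` -/
theorem finrank_eigH_eq (a : ℕ → ℂ) :
    finrank ℂ ↥(eigH M a) = 2 * finrank ℂ ↥(eigS M a) := by
  have hinj := (Fermat.Agent.S21.result M).1
  haveI : FiniteDimensional ℂ (CuspForm (Gamma0 M) 2) :=
    Fermat.Agent.ProgramR.ES.finiteDimensional_cuspForm M
  rw [eigH_eq_map a]
  have h1 : finrank ℂ ↥(((eigS M a).prod (eigS M a)).map (periodHomPair M)) =
      finrank ℂ ↥((eigS M a).prod (eigS M a)) :=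
    (LinearEquiv.finrank_eq
      (Submodule.equivMapOfInjective (periodHomPair M) hinj _)).symm
  have h3 : finrank ℂ ↥((eigS M a).prod (eigS M a)) =
      finrank ℂ ↥(eigS M a) + finrank ℂ ↥(eigS M a) := by
    rw [← Module.finrank_prod]
    exact LinearEquiv.finrank_eq (Fermat.Agent.S29lib.H.prodSubEquiv _ _)
  rw [h1, h3]
  ring

/-- over `ℂ` the dimension is `0` or `2` -/
theorem finrank_eigH_eq_zero_or_two (a : ℕ → ℂ) :
    finrank ℂ ↥(eigH M a) = 0 ∨ finrank ℂ ↥(eigH M a) = 2 := by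
  have h1 := finrank_eigH_eq (M := M) a
  have h2 := finrank_eigS_le_one (M := M) a
  omega

/-! ### transfer of a property of the dimension to every field of characteristic zero -/

section Transfer

variable {n : Type*} [Fintype n] [DecidableEq n] {I : Type*}

/-- a property of the dimension of the simultaneous eigenspaces of integer matrices that holds
over `ℂ` for all eigen-systems (and for `0`) holds over every field of characteristic zero -/
theorem finrank_eig_of_complex (A : I → Matrix n n ℤ) (P : ℕ → Prop) (hP0 : P 0)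
    (hC : ∀ a : I → ℂ, P (finrank ℂ ↥(eig A ℂ a))) (K : Type*) [Field K] [CharZero K]
    (a : I → K) : P (finrank K ↥(eig A K a)) := by
  by_cases h0 : eig A K a = ⊥
  · rw [h0, finrank_bot]; exact hP0
  obtain ⟨x, hx, hx0⟩ := (Submodule.ne_bot_iff _).mp h0
  have hint : ∀ y ∈ Set.range a, IsIntegral ℚ y := by
    rintro _ ⟨i, rfl⟩
    exact (isIntegral_of_mulVec_eq (A i) hx0 (hx i)).tower_top
  set E₀ : IntermediateField ℚ K := IntermediateField.adjoin ℚ (Set.range a) with hE₀
  haveI : Algebra.IsAlgebraic ℚ ↥E₀ := IntermediateField.isAlgebraic_adjoin hint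
  let a₀ : I → ↥E₀ := fun i => ⟨a i, IntermediateField.subset_adjoin ℚ _ ⟨i, rfl⟩⟩
  have ha₀ : (fun i => algebraMap ↥E₀ K (a₀ i)) = a := rfl
  let σ : ↥E₀ →ₐ[ℚ] ℂ := IsAlgClosed.lift
  letI : Algebra ↥E₀ ℂ := σ.toRingHom.toAlgebra
  have e1 := finrank_eig_map (L := K) A a₀
  have e2 := finrank_eig_map (L := ℂ) A a₀
  rw [ha₀] at e1
  rw [e1, ← e2]
  exact hC _

end Transfer

variable {r : ℕ} (b : Basis (Fin r) ℤ ↥(VZ (Gamma0 M)))
variable (K : Type*) [Field K] [CharZero K]

/-- matrix form of the parity -/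
theorem finrank_eig_fullMat_eq_zero_or_two (a : PrimeIdx → K) :
    finrank K ↥(eig (fun ℓ : PrimeIdx => fullMat b ℓ.2) K a) = 0 ∨
      finrank K ↥(eig (fun ℓ : PrimeIdx => fullMat b ℓ.2) K a) = 2 := by
  classical
  refine finrank_eig_of_complex _ (fun d => d = 0 ∨ d = 2) (Or.inl rfl) (fun a' => ?_) K a
  set a'' : ℕ → ℂ := fun ℓ => if h : ℓ.Prime then a' ⟨ℓ, h⟩ else 0 with ha''
  have h1 : (fun ℓ : PrimeIdx => a'' ℓ.1) = a' := by
    funext ℓ
    rw [ha'']
    simp only [dif_pos ℓ.2]
  show finrank ℂ ↥(eig (fun ℓ : PrimeIdx => fullMat b ℓ.2) ℂ a') = 0 ∨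
    finrank ℂ ↥(eig (fun ℓ : PrimeIdx => fullMat b ℓ.2) ℂ a') = 2
  rw [← h1, ← finrank_eigHK_eq b ℂ a'', eigHK_complex]
  exact finrank_eigH_eq_zero_or_two a''

/-- **Parity.**  Over every field of characteristic zero the simultaneous eigenspace of the full
Hecke algebra in `Hom_par(Γ₀(M), K)` has dimension `0` or `2`. -/
theorem finrank_eigHK_eq_zero_or_two (a : ℕ → K) :
    finrank K ↥(eigHK M K a) = 0 ∨ finrank K ↥(eigHK M K a) = 2 := by
  set b := Module.finBasis ℤ ↥(VZ (Gamma0 M))
  rw [finrank_eigHK_eq b K a]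
  exact finrank_eig_fullMat_eq_zero_or_two b K _

/-- a non-zero eigenspace has dimension exactly `2` -/
theorem finrank_eigHK_eq_two {a : ℕ → K} {φ : H (Gamma0 M) K} (hφ : φ ∈ eigHK M K a)
    (h0 : φ ≠ 0) : finrank K ↥(eigHK M K a) = 2 := by
  rcases finrank_eigHK_eq_zero_or_two (M := M) K a with h | h
  · exfalso
    haveI : Module.Finite K ↥(eigHK M K a) := by
      set b := Module.finBasis ℤ ↥(VZ (Gamma0 M))
      rw [eigHK_eq_map b K a]
      exact Module.Finite.of_surjective
        ((coordK b K).submoduleMap (eig (fun ℓ : PrimeIdx => fullMat b ℓ.2) K fun ℓ => a ℓ.1))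
        (LinearMap.submoduleMap_surjective _ _)
    have := (Module.finrank_zero_iff (R := K) (M := ↥(eigHK M K a))).mp h
    exact h0 (congrArg Subtype.val (Subsingleton.elim (⟨φ, hφ⟩ : ↥(eigHK M K a)) 0))
  · exact h

end Fermat.Agent.S59lib.SMO
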