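/-
S59lib / SMO / GenP  (helper4)

**Strong multiplicity one for a Hecke algebra MISSING some primes**: the eigenspaces of the operators `T_ℓ` (`ℓ ∤ M`),
`U_q` (`q ∣ M`) for the primes `ℓ, q` with `¬ P ℓ` (`P : ℕ → Prop` the excluded primes), in `S₂(Γ₀(M))`, in
`Hom_par(Γ₀(M), ℂ)` and in `Hom_par(Γ₀(M), K)` for every field `K` of characteristic zero.

* general `P`: `finrank_eigHP_eq : dim eigHP = 2 · dim eigSP`, coordinates `eigHKP_eq_map`, and the transfer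
  `finrank_eigHKP_of_complex` of any bound `dim eigSP ≤ 1`;
* **one missing prime `p ∤ M`** (`P = (· = p)`; the anemic algebra of the `Σ`-step in flat mode): by Atkin–Lehner's
  lemma `SMO/ALp`, `finrank_eigSx_le_one`, hence
  **`finrank_eigHKx_le_two`**, **`finrank_eigHKx_eq_zero_or_two`**, `finrank_eigHKx_eq_two`.
-/
import Mathlib
import Fermat.Agent.S59lib.SMO.Parity
import Fermat.Agent.S59lib.SMO.ALp

set_option autoImplicit false
set_option linter.unusedSectionVars false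
set_option linter.unusedVariables false
set_option linter.style.haveILetI false

noncomputable section

namespace Fermat.Agent.S59lib.SMO

open CongruenceSubgroup ModularCurve ModularCurve.Period Module Matrix ModularFormClass
open Fermat.Agent.S41lib.HC Fermat.Agent.S43lib.B1 Fermat.Agent.S16lib.LG
open Fermat.Agent.S16lib.LH Fermat.Agent.Helper8
open scoped MatrixGroups

variable {M : ℕ} [NeZero M] (P : ℕ → Prop)

/-! ### cusp forms -/

/-- the simultaneous eigenspace on `S₂(Γ₀(M))` of the operators at the primes `ℓ` with `¬ P ℓ` -/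
def eigSP (M : ℕ) [NeZero M] (P : ℕ → Prop) (a : ℕ → ℂ) :
    Submodule ℂ (CuspForm (Gamma0 M) 2) where
  carrier := {f | (∀ (ℓ : ℕ) (hℓ : ℓ.Prime) (hℓM : ¬ ℓ ∣ M), ¬ P ℓ →
      CuspForm.heckeTLin 2 hℓ hℓM f = a ℓ • f) ∧
    ∀ (q : ℕ) (_ : q.Prime) (hqM : q ∣ M), ¬ P q → CuspForm.heckeULin 2 hqM f = a q • f}
  zero_mem' := ⟨fun ℓ hℓ hℓM _ => by rw [map_zero, smul_zero],
    fun q _ hqM _ => by rw [map_zero, smul_zero]⟩
  add_mem' := by
    rintro f g ⟨hf1, hf2⟩ ⟨hg1, hg2⟩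
    exact ⟨fun ℓ hℓ hℓM hP => by rw [map_add, hf1 ℓ hℓ hℓM hP, hg1 ℓ hℓ hℓM hP, smul_add],
      fun q hq hqM hP => by rw [map_add, hf2 q hq hqM hP, hg2 q hq hqM hP, smul_add]⟩
  smul_mem' := by
    rintro c f ⟨hf1, hf2⟩
    exact ⟨fun ℓ hℓ hℓM hP => by rw [map_smul, hf1 ℓ hℓ hℓM hP, smul_comm],
      fun q hq hqM hP => by rw [map_smul, hf2 q hq hqM hP, smul_comm]⟩

variable {P}

theorem mem_eigSP {a : ℕ → ℂ} {f : CuspForm (Gamma0 M) 2} :
    f ∈ eigSP M P a ↔ (∀ (ℓ : ℕ) (hℓ : ℓ.Prime) (hℓM : ¬ ℓ ∣ M), ¬ P ℓ →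
      CuspForm.heckeTLin 2 hℓ hℓM f = a ℓ • f) ∧
    ∀ (q : ℕ) (_ : q.Prime) (hqM : q ∣ M), ¬ P q → CuspForm.heckeULin 2 hqM f = a q • f :=
  Iff.rfl

/-- the recursion of the `q`-coefficients at a prime `ℓ` with `¬ P ℓ` -/
theorem qCoeff_relP {a : ℕ → ℂ} {f : CuspForm (Gamma0 M) 2} (hf : f ∈ eigSP M P a)
    {ℓ : ℕ} (hℓ : ℓ.Prime) (hPℓ : ¬ P ℓ) (n : ℕ) :
    qCoeff ⇑f (n * ℓ) = a ℓ * qCoeff ⇑f n -
      (if ℓ ∣ M then 0 else if ℓ ∣ n then (ℓ : ℂ) * qCoeff ⇑f (n / ℓ) else 0) := by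
  by_cases hM : ℓ ∣ M
  · rw [if_pos hM, sub_zero]
    have h2 := congrArg (fun v : CuspForm (Gamma0 M) 2 => qCoeff ⇑v n) (hf.2 ℓ hℓ hM hPℓ)
    simp only [qCoeff_heckeULin hℓ, qCoeff_smul, ModularForm.coeffHeckeU_apply] at h2
    exact h2
  · rw [if_neg hM]
    have h2 := congrArg (fun v : CuspForm (Gamma0 M) 2 => qCoeff ⇑v n) (hf.1 ℓ hℓ hM hPℓ)
    simp only [qCoeff_heckeTLin, qCoeff_smul, ModularForm.coeffHeckeT_apply] at h2
    have h3 : ((ℓ : ℂ)) ^ ((2 : ℤ) - 1) = (ℓ : ℂ) := by norm_num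
    rw [h3] at h2
    rw [← h2]
    ring

/-- `a₁ = 0` ⇒ `a_n = 0` for every `n` all of whose prime factors are allowed -/
theorem qCoeff_eq_zero_of_one {a : ℕ → ℂ} {f : CuspForm (Gamma0 M) 2} (hf : f ∈ eigSP M P a)
    (h1 : qCoeff ⇑f 1 = 0) (n : ℕ) (hn : ∀ ℓ : ℕ, ℓ.Prime → ℓ ∣ n → ¬ P ℓ) :
    qCoeff ⇑f n = 0 := by
  induction n using Nat.strong_induction_on with
  | _ n ih =>
  rcases Nat.lt_or_ge n 2 with hn2 | hn2
  · interval_cases n
    · exact qCoeff_cusp_zero f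
    · exact h1
  · have hn1 : n ≠ 1 := by omega
    have hℓp : n.minFac.Prime := Nat.minFac_prime hn1
    have hℓn : n.minFac ∣ n := Nat.minFac_dvd n
    obtain ⟨m, hm⟩ := hℓn
    have hmpos : 0 < m := by
      rcases Nat.eq_zero_or_pos m with h0 | h0
      · rw [h0, mul_zero] at hm; omega
      · exact h0
    have hmlt : m < n := by
      conv_rhs => rw [hm]
      exact lt_mul_of_one_lt_left hmpos hℓp.one_lt
    have hmn : m ∣ n := ⟨n.minFac, by rw [mul_comm]; exact hm⟩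
    have hrel := qCoeff_relP hf hℓp (hn _ hℓp (Nat.minFac_dvd n)) m
    have hm0 : qCoeff ⇑f m = 0 := ih m hmlt fun ℓ hℓ hℓm => hn ℓ hℓ (hℓm.trans hmn)
    have hdiv : n.minFac ∣ m → qCoeff ⇑f (m / n.minFac) = 0 := by
      intro hd
      refine ih _ (lt_of_le_of_lt (Nat.div_le_self _ _) hmlt) fun ℓ hℓ hℓm => ?_
      exact hn ℓ hℓ ((hℓm.trans (Nat.div_dvd_of_dvd hd)).trans hmn)
    have hnm : n = m * n.minFac := by rw [mul_comm]; exact hm
    rw [hnm, hrel, hm0, mul_zero]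
    split_ifs with h2 h3
    · simp
    · rw [hdiv h3]; simp
    · simp

/-- multiplicity one on cusp forms from the vanishing criterion -/
theorem finrank_eigSP_le_one_of {a : ℕ → ℂ}
    (hkey : ∀ f ∈ eigSP M P a, qCoeff ⇑f 1 = 0 → f = 0) : finrank ℂ ↥(eigSP M P a) ≤ 1 := by
  have hinj : Function.Injective ((coeffOne M).domRestrict (eigSP M P a)) := by
    rw [← LinearMap.ker_eq_bot, LinearMap.ker_eq_bot']
    rintro ⟨f, hf⟩ h
    exact Subtype.ext (hkey f hf h)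
  have := LinearMap.finrank_le_finrank_of_injective hinj
  rwa [finrank_self] at this

/-- **multiplicity one with one missing prime `p ∤ M`** (Atkin–Lehner) -/
theorem finrank_eigSx_le_one {p : ℕ} (hp : p.Prime) (hpM : ¬ p ∣ M) (a : ℕ → ℂ) :
    finrank ℂ ↥(eigSP M (fun ℓ => ℓ = p) a) ≤ 1 := by
  refine finrank_eigSP_le_one_of fun f hf h1 => ?_
  refine eq_zero_of_qCoeff_coprime hp hpM f fun n hn => ?_
  refine qCoeff_eq_zero_of_one hf h1 n fun ℓ hℓ hℓn hℓp => ?_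
  exact hn (hℓp ▸ hℓn)

/-! ### parabolic cohomology over `ℂ` -/

variable (P)

/-- the simultaneous eigenspace on `Hom_par(Γ₀(M), ℂ)` -/
def eigHP (M : ℕ) [NeZero M] (P : ℕ → Prop) (a : ℕ → ℂ) : Submodule ℂ (H (Gamma0 M) ℂ) where
  carrier := {φ | φ ∈ parabolicHoms ℂ (Gamma0 M) ℂ ∧
    (∀ (ℓ : ℕ) (hℓ : ℓ.Prime) (hℓM : ¬ ℓ ∣ M), ¬ P ℓ → tOp M hℓ hℓM ℂ φ = a ℓ • φ) ∧
    ∀ (q : ℕ) (hq : q.Prime) (hqM : q ∣ M), ¬ P q → uOp M hq hqM ℂ φ = a q • φ}
  zero_mem' := ⟨Submodule.zero_mem _, fun ℓ hℓ hℓM _ => by rw [map_zero, smul_zero],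
    fun q hq hqM _ => by rw [map_zero, smul_zero]⟩
  add_mem' := by
    rintro φ ψ ⟨h0, h1, h2⟩ ⟨k0, k1, k2⟩
    exact ⟨Submodule.add_mem _ h0 k0,
      fun ℓ hℓ hℓM hP => by rw [map_add, h1 ℓ hℓ hℓM hP, k1 ℓ hℓ hℓM hP, smul_add],
      fun q hq hqM hP => by rw [map_add, h2 q hq hqM hP, k2 q hq hqM hP, smul_add]⟩
  smul_mem' := by
    rintro c φ ⟨h0, h1, h2⟩
    exact ⟨Submodule.smul_mem _ c h0,
      fun ℓ hℓ hℓM hP => by rw [tOp_smul, h1 ℓ hℓ hℓM hP, smul_comm],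
      fun q hq hqM hP => by rw [uOp_smul, h2 q hq hqM hP, smul_comm]⟩

variable {P}

theorem mem_eigHP {a : ℕ → ℂ} {φ : H (Gamma0 M) ℂ} :
    φ ∈ eigHP M P a ↔ φ ∈ parabolicHoms ℂ (Gamma0 M) ℂ ∧
    (∀ (ℓ : ℕ) (hℓ : ℓ.Prime) (hℓM : ¬ ℓ ∣ M), ¬ P ℓ → tOp M hℓ hℓM ℂ φ = a ℓ • φ) ∧
    ∀ (q : ℕ) (hq : q.Prime) (hqM : q ∣ M), ¬ P q → uOp M hq hqM ℂ φ = a q • φ := Iff.rfl

/-- the eigenspace in cohomology is the image of `eigSP × eigSP` under Eichler–Shimura -/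
theorem eigHP_eq_map (a : ℕ → ℂ) :
    eigHP M P a = ((eigSP M P a).prod (eigSP M P a)).map (periodHomPair M) := by
  have hinj := (Fermat.Agent.S21.result M).1
  have e : ∀ (c : ℂ) (f g : CuspForm (Gamma0 M) 2),
      c • periodHomPair M (f, g) = periodHomPair M (c • f, c • g) := by
    intro c f g; rw [← map_smul]; rfl
  apply le_antisymm
  · rintro φ ⟨h0, h1, h2⟩
    obtain ⟨⟨f, g⟩, rfl⟩ : φ ∈ LinearMap.range (periodHomPair M) := by
      rw [(Fermat.Agent.S21.result M).2]; exact h0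
    refine ⟨(f, g), ⟨⟨fun ℓ hℓ hℓM hP => ?_, fun q hq hqM hP => ?_⟩,
      ⟨fun ℓ hℓ hℓM hP => ?_, fun q hq hqM hP => ?_⟩⟩, rfl⟩
    · have := h1 ℓ hℓ hℓM hP
      rw [tOp_periodHomPair, e] at this
      exact congrArg Prod.fst (hinj this)
    · have := h2 q hq hqM hP
      rw [uOp_periodHomPair, e] at this
      exact congrArg Prod.fst (hinj this)
    · have := h1 ℓ hℓ hℓM hP
      rw [tOp_periodHomPair, e] at this
      exact congrArg Prod.snd (hinj this)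
    · have := h2 q hq hqM hP
      rw [uOp_periodHomPair, e] at this
      exact congrArg Prod.snd (hinj this)
  · rintro _ ⟨⟨f, g⟩, ⟨hf, hg⟩, rfl⟩
    have hf' : f ∈ eigSP M P a := hf
    have hg' : g ∈ eigSP M P a := hg
    refine ⟨?_, fun ℓ hℓ hℓM hP => ?_, fun q hq hqM hP => ?_⟩
    · rw [← (Fermat.Agent.S21.result M).2]
      exact ⟨_, rfl⟩
    · rw [tOp_periodHomPair, hf'.1 ℓ hℓ hℓM hP, hg'.1 ℓ hℓ hℓM hP, e]
    · rw [uOp_periodHomPair, hf'.2 q hq hqM hP, hg'.2 q hq hqM hP, e]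

/-- `dim eigHP a = 2 · dim eigSP a` -/
theorem finrank_eigHP_eq (a : ℕ → ℂ) :
    finrank ℂ ↥(eigHP M P a) = 2 * finrank ℂ ↥(eigSP M P a) := by
  have hinj := (Fermat.Agent.S21.result M).1
  haveI : FiniteDimensional ℂ (CuspForm (Gamma0 M) 2) :=
    Fermat.Agent.ProgramR.ES.finiteDimensional_cuspForm M
  rw [eigHP_eq_map a]
  have h1 : finrank ℂ ↥(((eigSP M P a).prod (eigSP M P a)).map (periodHomPair M)) =
      finrank ℂ ↥((eigSP M P a).prod (eigSP M P a)) :=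
    (LinearEquiv.finrank_eq
      (Submodule.equivMapOfInjective (periodHomPair M) hinj _)).symm
  have h3 : finrank ℂ ↥((eigSP M P a).prod (eigSP M P a)) =
      finrank ℂ ↥(eigSP M P a) + finrank ℂ ↥(eigSP M P a) := by
    rw [← Module.finrank_prod]
    exact LinearEquiv.finrank_eq (Fermat.Agent.S29lib.H.prodSubEquiv _ _)
  rw [h1, h3]
  ring

/-! ### parabolic cohomology over a field of characteristic zero -/

variable (P)

/-- the simultaneous eigenspace on `Hom_par(Γ₀(M), K)` of the operators at the primes `ℓ` with `¬ P ℓ` -/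
def eigHKP (M : ℕ) [NeZero M] (K : Type*) [Field K] (P : ℕ → Prop) (a : ℕ → K) :
    Submodule K (H (Gamma0 M) K) where
  carrier := {φ | φ ∈ parabolicHoms K (Gamma0 M) K ∧
    ∀ (ℓ : ℕ) (hℓ : ℓ.Prime), ¬ P ℓ → fullOp M hℓ K φ = a ℓ • φ}
  zero_mem' := ⟨Submodule.zero_mem _, fun ℓ hℓ _ => by rw [map_zero, smul_zero]⟩
  add_mem' := by
    rintro φ ψ ⟨h0, h1⟩ ⟨k0, k1⟩
    exact ⟨Submodule.add_mem _ h0 k0,
      fun ℓ hℓ hP => by rw [map_add, h1 ℓ hℓ hP, k1 ℓ hℓ hP, smul_add]⟩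
  smul_mem' := by
    rintro c φ ⟨h0, h1⟩
    exact ⟨Submodule.smul_mem _ c h0, fun ℓ hℓ hP => by rw [fullOp_smul, h1 ℓ hℓ hP, smul_comm]⟩

/-- the index type of the allowed primes -/
abbrev PrimeIdxP (P : ℕ → Prop) : Type := {ℓ : ℕ // ℓ.Prime ∧ ¬ P ℓ}

variable {P}

variable {r : ℕ} (b : Basis (Fin r) ℤ ↥(VZ (Gamma0 M)))
variable (K : Type*) [Field K] [CharZero K]

theorem mem_eigHKP {a : ℕ → K} {φ : H (Gamma0 M) K} :
    φ ∈ eigHKP M K P a ↔ φ ∈ parabolicHoms K (Gamma0 M) K ∧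
      ∀ (ℓ : ℕ) (hℓ : ℓ.Prime), ¬ P ℓ → fullOp M hℓ K φ = a ℓ • φ := Iff.rfl

/-- in coordinates the eigenspace is the eigenspace of the integer matrices -/
theorem eigHKP_eq_map (a : ℕ → K) :
    eigHKP M K P a =
      (eig (fun ℓ : PrimeIdxP P => fullMat b ℓ.2.1) K (fun ℓ => a ℓ.1)).map (coordK b K) := by
  ext φ
  constructor
  · rintro ⟨h0, h1⟩
    rw [← range_coordK b K] at h0
    obtain ⟨c, rfl⟩ := h0
    refine ⟨c, ?_, rfl⟩
    intro ℓ
    apply coordK_injective b K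
    rw [← fullOp_coordK, h1 ℓ.1 ℓ.2.1 ℓ.2.2, map_smul]
  · rintro ⟨c, hc, rfl⟩
    refine ⟨coordK_mem b K c, fun ℓ hℓ hP => ?_⟩
    rw [fullOp_coordK, hc ⟨ℓ, hℓ, hP⟩, map_smul]

theorem finrank_eigHKP_eq (a : ℕ → K) :
    finrank K ↥(eigHKP M K P a) =
      finrank K ↥(eig (fun ℓ : PrimeIdxP P => fullMat b ℓ.2.1) K (fun ℓ => a ℓ.1)) := by
  rw [eigHKP_eq_map b K a]
  exact LinearEquiv.finrank_eq
    (Submodule.equivMapOfInjective (coordK b K) (coordK_injective b K) _).symm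

/-- over `ℂ` the eigenspace is `eigHP` -/
theorem eigHKP_complex (a : ℕ → ℂ) : eigHKP M ℂ P a = eigHP M P a := by
  ext φ
  rw [mem_eigHKP, mem_eigHP]
  constructor
  · rintro ⟨h0, h1⟩
    refine ⟨h0, fun ℓ hℓ hℓM hP => ?_, fun q hq hqM hP => ?_⟩
    · rw [← fullOp_of_not_dvd hℓ hℓM]; exact h1 ℓ hℓ hP
    · rw [← fullOp_of_dvd hq hqM]; exact h1 q hq hP
  · rintro ⟨h0, h1, h2⟩
    refine ⟨h0, fun ℓ hℓ hP => ?_⟩
    by_cases h : ℓ ∣ M
    · rw [fullOp_of_dvd hℓ h]; exact h2 ℓ hℓ h hP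
    · rw [fullOp_of_not_dvd hℓ h]; exact h1 ℓ hℓ h hP

/-- **transfer**: a property of `2 · dim eigSP` over `ℂ` (for all eigen-systems) holds for the dimension of the
eigenspace over every field of characteristic zero -/
theorem finrank_eigHKP_of_complex (Q : ℕ → Prop) (hQ0 : Q 0)
    (hC : ∀ a : ℕ → ℂ, Q (2 * finrank ℂ ↥(eigSP M P a))) (a : ℕ → K) :
    Q (finrank K ↥(eigHKP M K P a)) := by
  classical
  set b := Module.finBasis ℤ ↥(VZ (Gamma0 M))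
  rw [finrank_eigHKP_eq b K a]
  refine finrank_eig_of_complex _ Q hQ0 (fun a' => ?_) K _
  set a'' : ℕ → ℂ := fun ℓ => if h : ℓ.Prime ∧ ¬ P ℓ then a' ⟨ℓ, h⟩ else 0 with ha''
  have h1 : (fun ℓ : PrimeIdxP P => a'' ℓ.1) = a' := by
    funext ℓ
    rw [ha'']
    simp only [dif_pos ℓ.2]
  rw [← h1, ← finrank_eigHKP_eq b ℂ a'', eigHKP_complex, finrank_eigHP_eq]
  exact hC a''

/-! ### one missing prime `p ∤ M` -/

section Missing

variable {p : ℕ}

/-- **Strong multiplicity one without the prime `p ∤ M`.**  Over every field `K` of characteristic zero and for every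
system of eigenvalues `a`, the simultaneous eigenspace in `Hom_par(Γ₀(M), K)` of the operators `T_ℓ` (`ℓ ∤ M`),
`U_q` (`q ∣ M`) at ALL PRIMES `≠ p` has dimension `≤ 2`. -/
theorem finrank_eigHKx_le_two (hp : p.Prime) (hpM : ¬ p ∣ M) (a : ℕ → K) :
    finrank K ↥(eigHKP M K (fun ℓ => ℓ = p) a) ≤ 2 := by
  refine finrank_eigHKP_of_complex K (fun d => d ≤ 2) (Nat.zero_le 2) (fun a' => ?_) a
  have := finrank_eigSx_le_one hp hpM a'
  omega

/-- parity: the dimension is `0` or `2` -/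
theorem finrank_eigHKx_eq_zero_or_two (hp : p.Prime) (hpM : ¬ p ∣ M) (a : ℕ → K) :
    finrank K ↥(eigHKP M K (fun ℓ => ℓ = p) a) = 0 ∨
      finrank K ↥(eigHKP M K (fun ℓ => ℓ = p) a) = 2 := by
  refine finrank_eigHKP_of_complex K (fun d => d = 0 ∨ d = 2) (Or.inl rfl) (fun a' => ?_) a
  have := finrank_eigSx_le_one hp hpM a'
  omega

/-- a non-zero eigenspace has dimension exactly `2` -/
theorem finrank_eigHKx_eq_two (hp : p.Prime) (hpM : ¬ p ∣ M) {a : ℕ → K} {φ : H (Gamma0 M) K}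
    (hφ : φ ∈ eigHKP M K (fun ℓ => ℓ = p) a) (h0 : φ ≠ 0) :
    finrank K ↥(eigHKP M K (fun ℓ => ℓ = p) a) = 2 := by
  rcases finrank_eigHKx_eq_zero_or_two K hp hpM a with h | h
  · exfalso
    haveI : Module.Finite K ↥(eigHKP M K (fun ℓ => ℓ = p) a) := by
      set b := Module.finBasis ℤ ↥(VZ (Gamma0 M))
      rw [eigHKP_eq_map b K a]
      exact Module.Finite.of_surjective
        ((coordK b K).submoduleMap _) (LinearMap.submoduleMap_surjective _ _)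
    have := (Module.finrank_zero_iff (R := K)
      (M := ↥(eigHKP M K (fun ℓ => ℓ = p) a))).mp h
    exact h0 (congrArg Subtype.val
      (Subsingleton.elim (⟨φ, hφ⟩ : ↥(eigHKP M K (fun ℓ => ℓ = p) a)) 0))
  · exact h

/-- the full eigenspace is contained in the eigenspace missing `p` -/
theorem eigHK_le_eigHKP (P : ℕ → Prop) (a : ℕ → K) : eigHK M K a ≤ eigHKP M K P a := by
  rintro φ ⟨h0, h1⟩
  exact ⟨h0, fun ℓ hℓ _ => h1 ℓ hℓ⟩

end Missing

end Fermat.Agent.S59lib.SMO
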