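/-
S59lib / SMO / ResDeg  (helper4)

**Eichler–Shimura compatibility of the two degeneracy maps** `res`, `deg2 : H(Γ₀(M)) → H(Γ₀(M q))` (any `M`, `q` prime,
`q ∣ M` allowed) with the inclusion `S₂(M) ⊆ S₂(M q)` and with `V_q : f ↦ f ∣[2] diag(q,1)` on cusp forms:

* `res_periodHomPair_of_coe`  : `⇑f' = ⇑f`, `⇑g' = ⇑g`  ⟹  `res (periodHomPair M (f, g)) = periodHomPair (M q) (f', g')`;
* `deg2_periodHomPair_of_coe` : `⇑f' = ⇑f ∣[2] δ_q`, `⇑g' = ⇑g ∣[2] δ_q`  ⟹
  `deg2 (periodHomPair M (f, g)) = periodHomPair (M q) (f', g')`;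
* `res_periodHomPair`, `deg2_periodHomPair` : the same with helper1's operators `ALD.incl`, `ALD.vOp`.

Both are instances of main's general bridge `S41lib.HC.periodHomPair_op`.
-/
import Mathlib
import Fermat.Agent.S59lib.N3.Cdel
import Fermat.Agent.S59lib.R7b.ALD.SlashOp
import Fermat.Agent.S41lib.HC.Bridge

set_option autoImplicit false
set_option linter.unusedSectionVars false
set_option linter.unusedVariables false
set_option linter.style.haveILetI false

noncomputable section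

namespace Fermat.Agent.S59lib.SMO

open UpperHalfPlane CongruenceSubgroup ModularCurve ModularCurve.Period Matrix ModularForm
  Matrix.SpecialLinearGroup
open Fermat.Agent.S41lib.HC Fermat.Agent.S16lib.LH Fermat.Agent.S31lib.PET
open scoped MatrixGroups ModularForm

variable {M q : ℕ} [NeZero M] [Fact q.Prime] [NeZero (M * q)]

/-- `res` corresponds to the inclusion of cusp forms -/
theorem res_periodHomPair_of_coe (f g : CuspForm (Gamma0 M) 2) (f' g' : CuspForm (Gamma0 (M * q)) 2)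
    (hf : ⇑f' = ⇑f) (hg : ⇑g' = ⇑g) :
    res M q ℂ (periodHomPair M (f, g)) = periodHomPair (M * q) (f', g') := by
  have h1 : ∀ F : ℍ → ℂ, (∑ _x : Unit, F ∣[(2 : ℤ)] (1 : GL (Fin 2) ℝ)) = F := by
    intro F
    rw [Finset.univ_unique, Finset.sum_singleton, SlashAction.slash_one]
  refine periodHomPair_op (CosetData.ofHom (inclMul M q)) (fun _ => 1) (fun _ => 1) ?_ ?_ ?_ ?_
    f g f' g' ?_ ?_ ?_ ?_
  · intro γ x
    rw [one_mul, mul_one]
    rfl
  · intro x
    simp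
  · intro x
    simp
  · intro x
    rw [one_mul, mul_one]
  · rw [h1]; exact hf
  · rw [h1]; exact hf
  · rw [h1]; exact hg
  · rw [h1]; exact hg

theorem heckeDiagMatrix_mul_J (q : ℕ) [NeZero q] :
    (heckeDiagMatrix q : GL (Fin 2) ℝ) * UpperHalfPlane.J = UpperHalfPlane.J * heckeDiagMatrix q := by
  apply Units.ext
  rw [Units.val_mul, Units.val_mul, val_heckeDiagMatrix (NeZero.ne q)]
  show _ * (UpperHalfPlane.J : GL (Fin 2) ℝ).val = (UpperHalfPlane.J : GL (Fin 2) ℝ).val * _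
  rw [UpperHalfPlane.val_J]
  ext i j
  fin_cases i <;> fin_cases j <;> simp [Matrix.mul_apply, Fin.sum_univ_two]

/-- `deg2` corresponds to `V_q : f ↦ f ∣[2] diag(q, 1)` on cusp forms -/
theorem deg2_periodHomPair_of_coe (f g : CuspForm (Gamma0 M) 2) (f' g' : CuspForm (Gamma0 (M * q)) 2)
    (hf : ⇑f' = ⇑f ∣[(2 : ℤ)] (heckeDiagMatrix q : GL (Fin 2) ℝ))
    (hg : ⇑g' = ⇑g ∣[(2 : ℤ)] (heckeDiagMatrix q : GL (Fin 2) ℝ)) :
    N3.deg2 M q ℂ (periodHomPair M (f, g)) = periodHomPair (M * q) (f', g') := by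
  have h1 : ∀ F : ℍ → ℂ, (∑ _x : Unit, F ∣[(2 : ℤ)] (heckeDiagMatrix q : GL (Fin 2) ℝ)) =
      F ∣[(2 : ℤ)] (heckeDiagMatrix q : GL (Fin 2) ℝ) := by
    intro F
    rw [Finset.univ_unique, Finset.sum_singleton]
  refine periodHomPair_op (CosetData.ofHom (N3.cdel M q)) (fun _ => heckeDiagMatrix q)
    (fun _ => heckeDiagMatrix q) ?_ ?_ ?_ ?_ f g f' g' ?_ ?_ ?_ ?_
  · intro γ x
    exact N3.cdel_rel M q γ
  · intro x
    exact det_heckeDiagMatrix_pos q
  · intro x
    exact det_heckeDiagMatrix_pos q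
  · intro x
    exact heckeDiagMatrix_mul_J q
  · rw [h1]; exact hf
  · rw [h1]; exact hf
  · rw [h1]; exact hg
  · rw [h1]; exact hg

/-- `res` and helper1's `ALD.incl` -/
theorem res_periodHomPair (f g : CuspForm (Gamma0 M) 2) :
    res M q ℂ (periodHomPair M (f, g)) =
      periodHomPair (M * q) (R7b.ALD.incl (dvd_mul_right M q) 2 f, R7b.ALD.incl (dvd_mul_right M q) 2 g) :=
  res_periodHomPair_of_coe f g _ _ (R7b.ALD.coe_incl _ 2 f) (R7b.ALD.coe_incl _ 2 g)

/-- `deg2` and helper1's `ALD.vOp` -/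
theorem deg2_periodHomPair (f g : CuspForm (Gamma0 M) 2) :
    N3.deg2 M q ℂ (periodHomPair M (f, g)) =
      periodHomPair (M * q) (R7b.ALD.vOp M q 2 f, R7b.ALD.vOp M q 2 g) :=
  deg2_periodHomPair_of_coe f g _ _ (R7b.ALD.coe_vOp M q 2 f) (R7b.ALD.coe_vOp M q 2 g)

end Fermat.Agent.S59lib.SMO
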