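/-
S59lib / SMO / Transport  (helper4)

**Transport of statements on anemic eigenspaces from `ℂ` (cusp forms) to parabolic cohomology over an arbitrary field
`K` of characteristic zero — ALL LEVELS AT ONCE.**

For a system `a : ℕ → K` which occurs at SOME level (`eigHKP M₁ K P a ≠ ⊥`) there is a system `a' : ℕ → ℂ` such that
for every level `N`

* `finrank K (eigHKP N K P a) = finrank ℂ (eigHKP N ℂ P a') = 2 * finrank ℂ (eigSP N P a')`, and
* `eigHKP (N q) K P a ≤ oldK N q K  ↔  eigHKP (N q) ℂ P a' ≤ oldK N q ℂ`,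

where `oldK N q F = res (H_par(Γ₀(N), F)) + deg2 (H_par(Γ₀(N), F))` is the `q`-old subspace (`exists_complex_system`).
Over `ℂ` the `q`-oldness of the eigenspace follows from the `q`-oldness of the eigen-FORMS through Eichler–Shimura
(`eigHKP_le_oldK_of_forms`, by `SMO/ResDeg`).
-/
import Mathlib
import Fermat.Agent.S59lib.SMO.GenP
import Fermat.Agent.S59lib.SMO.FieldIncl
import Fermat.Agent.S59lib.SMO.ResDeg
import Fermat.Agent.S59lib.N3.Lat2

set_option autoImplicit false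
set_option linter.unusedSectionVars false
set_option linter.unusedVariables false
set_option linter.style.haveILetI false

noncomputable section

namespace Fermat.Agent.S59lib.SMO

open CongruenceSubgroup ModularCurve ModularCurve.Period Module Matrix ModularFormClass
open Fermat.Agent.S41lib.HC Fermat.Agent.S43lib.B1 Fermat.Agent.S16lib.LG
open Fermat.Agent.S16lib.LH Fermat.Agent.S31lib.PET
open scoped MatrixGroups ModularForm

/-! ### natural maps in coordinates -/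

section Natural

variable {M M' : ℕ} [NeZero M] [NeZero M'] {r r' : ℕ}
  (b : Basis (Fin r) ℤ ↥(VZ (Gamma0 M))) (b' : Basis (Fin r') ℤ ↥(VZ (Gamma0 M')))
  (K : Type*) [Field K] [CharZero K]

/-- a `K`-linear map of cohomology groups which is compatible with a `ℤ`-linear map of the lattices is given in
coordinates by the integer matrix of the latter -/
theorem coordK_natural (jL : ↥(VZ (Gamma0 M)) →ₗ[ℤ] ↥(VZ (Gamma0 M')))
    (jK : H (Gamma0 M) K →ₗ[K] H (Gamma0 M') K)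
    (hj : ∀ v : ↥(VZ (Gamma0 M)), jK (coeff (Gamma0 M) (Int.castAddHom K) (v : H (Gamma0 M) ℤ)) =
      coeff (Gamma0 M') (Int.castAddHom K) ((jL v : ↥(VZ (Gamma0 M'))) : H (Gamma0 M') ℤ))
    (c : Fin r → K) :
    jK (coordK b K c) =
      coordK b' K (((LinearMap.toMatrix b b' jL).map (Int.cast : ℤ → K)) *ᵥ c) := by
  have hT : ∀ j, jK (bK b K j) = ∑ i, ((LinearMap.toMatrix b b' jL i j : ℤ) : K) • bK b' K i := by
    intro j
    rw [bK, hj, coeff_eq_coordK b' K, coordK_apply]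
    refine Finset.sum_congr rfl fun i _ => ?_
    rw [LinearMap.toMatrix_apply]
  rw [coordK_apply, coordK_apply, map_sum]
  simp_rw [map_smul, hT, Finset.smul_sum, smul_smul]
  rw [Finset.sum_comm]
  refine Finset.sum_congr rfl fun i _ => ?_
  rw [← Finset.sum_smul]
  congr 1
  rw [Matrix.mulVec, dotProduct]
  refine Finset.sum_congr rfl fun j _ => ?_
  rw [Matrix.map_apply, mul_comm]

end Natural

/-! ### the two degeneracy maps over a field -/

section Old

variable (N q : ℕ) [NeZero N] [Fact q.Prime] (F : Type*) [Field F]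

/-- `res` as a linear map -/
def resK : H (Gamma0 N) F →ₗ[F] H (Gamma0 (N * q)) F :=
  (CosetData.ofHom (inclMul N q)).opₗ F F

/-- `deg2` as a linear map -/
def deg2K : H (Gamma0 N) F →ₗ[F] H (Gamma0 (N * q)) F :=
  (CosetData.ofHom (N3.cdel N q)).opₗ F F

@[simp] theorem resK_apply (φ : H (Gamma0 N) F) : resK N q F φ = res N q F φ := rfl

@[simp] theorem deg2K_apply (φ : H (Gamma0 N) F) : deg2K N q F φ = N3.deg2 N q F φ := rfl

/-- **the `q`-old subspace** of `H(Γ₀(N q), F)` : `res (H_par(Γ₀(N))) + deg2 (H_par(Γ₀(N)))` -/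
def oldK : Submodule F (H (Gamma0 (N * q)) F) :=
  (parabolicHoms F (Gamma0 N) F).map (resK N q F) ⊔ (parabolicHoms F (Gamma0 N) F).map (deg2K N q F)

theorem mem_oldK {φ : H (Gamma0 (N * q)) F} :
    φ ∈ oldK N q F ↔ ∃ φ₁ ∈ parabolicHoms F (Gamma0 N) F, ∃ φ₂ ∈ parabolicHoms F (Gamma0 N) F,
      φ = res N q F φ₁ + N3.deg2 N q F φ₂ := by
  rw [oldK, Submodule.mem_sup]
  constructor
  · rintro ⟨_, ⟨φ₁, h1, rfl⟩, _, ⟨φ₂, h2, rfl⟩, rfl⟩
    exact ⟨φ₁, h1, φ₂, h2, rfl⟩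
  · rintro ⟨φ₁, h1, φ₂, h2, rfl⟩
    exact ⟨_, ⟨φ₁, h1, rfl⟩, _, ⟨φ₂, h2, rfl⟩, rfl⟩

variable [CharZero F] {r r' : ℕ} (b : Basis (Fin r) ℤ ↥(VZ (Gamma0 N)))
  (b' : Basis (Fin r') ℤ ↥(VZ (Gamma0 (N * q)))) [NeZero (N * q)]

/-- the integer matrix of `(res, deg2) : L_N ⊕ L_N → L_{N q}` -/
def oldMat : Matrix (Fin r') (Fin r ⊕ Fin r) ℤ :=
  Matrix.fromCols (LinearMap.toMatrix b b' (Fermat.Agent.S41lib.BR.resL N q))
    (LinearMap.toMatrix b b' (N3.deg2L N q))

theorem resK_coordK (c : Fin r → F) :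
    resK N q F (coordK b F c) = coordK b' F
      (((LinearMap.toMatrix b b' (Fermat.Agent.S41lib.BR.resL N q)).map (Int.cast : ℤ → F)) *ᵥ c) := by
  refine coordK_natural b b' F _ (resK N q F) (fun v => ?_) c
  rw [resK_apply, Fermat.Agent.S41lib.BR.resL_coe]
  exact res_coeff _ _

theorem deg2K_coordK (c : Fin r → F) :
    deg2K N q F (coordK b F c) = coordK b' F
      (((LinearMap.toMatrix b b' (N3.deg2L N q)).map (Int.cast : ℤ → F)) *ᵥ c) := by
  refine coordK_natural b b' F _ (deg2K N q F) (fun v => ?_) c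
  rw [deg2K_apply, N3.deg2L_coe]
  exact (CosetData.ofHom (N3.cdel N q)).op_coeff _ _

/-- the `q`-old subspace in coordinates -/
theorem oldK_eq_map :
    oldK N q F =
      (LinearMap.range ((oldMat N q b b').map (Int.cast : ℤ → F)).mulVecLin).map (coordK b' F) := by
  have hmap : (oldMat N q b b').map (Int.cast : ℤ → F) =
      Matrix.fromCols ((LinearMap.toMatrix b b' (Fermat.Agent.S41lib.BR.resL N q)).map (Int.cast : ℤ → F))
        ((LinearMap.toMatrix b b' (N3.deg2L N q)).map (Int.cast : ℤ → F)) := by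
    ext i j
    cases j <;> rfl
  apply le_antisymm
  · rw [oldK]
    apply sup_le
    · rintro _ ⟨φ, hφ, rfl⟩
      rw [← range_coordK b F] at hφ
      obtain ⟨c, rfl⟩ := hφ
      refine ⟨_, ⟨Sum.elim c 0, rfl⟩, ?_⟩
      rw [resK_coordK N q F b b', hmap, Matrix.mulVecLin_apply, Matrix.fromCols_mulVec]
      simp
    · rintro _ ⟨φ, hφ, rfl⟩
      rw [← range_coordK b F] at hφ
      obtain ⟨c, rfl⟩ := hφ
      refine ⟨_, ⟨Sum.elim 0 c, rfl⟩, ?_⟩
      rw [deg2K_coordK N q F b b', hmap, Matrix.mulVecLin_apply, Matrix.fromCols_mulVec]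
      simp
  · rintro _ ⟨_, ⟨c, rfl⟩, rfl⟩
    rw [mem_oldK]
    refine ⟨coordK b F (c ∘ Sum.inl), coordK_mem b F _, coordK b F (c ∘ Sum.inr), coordK_mem b F _, ?_⟩
    rw [← resK_apply, ← deg2K_apply, resK_coordK N q F b b', deg2K_coordK N q F b b', ← map_add,
      hmap, Matrix.mulVecLin_apply, Matrix.fromCols_mulVec]

/-- the inclusion `eigenspace ≤ q-old subspace` in coordinates -/
theorem eigHKP_le_oldK_iff (P : ℕ → Prop) (a : ℕ → F) :
    eigHKP (N * q) F P a ≤ oldK N q F ↔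
      eig (fun ℓ : PrimeIdxP P => fullMat b' ℓ.2.1) F (fun ℓ => a ℓ.1) ≤
        LinearMap.range ((oldMat N q b b').map (Int.cast : ℤ → F)).mulVecLin := by
  rw [eigHKP_eq_map b' F a, oldK_eq_map N q F b b']
  exact Submodule.map_le_map_iff_of_injective (coordK_injective b' F) _ _

end Old

/-! ### the transport -/

section Transport

variable (K : Type*) [Field K] [CharZero K] (P : ℕ → Prop)

/-- **Transport, all levels at once** (with the embedding exposed).  A system of eigenvalues `a : ℕ → K` which occurs at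
some level has a complex companion `a' = σ ∘ a` (`σ : E₀ → ℂ` an embedding of a subfield `E₀ ⊆ K` containing the `a ℓ`) with
the same eigenspace dimensions at all levels and the same `q`-oldness statements. -/
theorem exists_complex_system' (a : ℕ → K) {M₁ : ℕ} [NeZero M₁] (h : eigHKP M₁ K P a ≠ ⊥) :
    ∃ (E₀ : IntermediateField ℚ K) (σ : ↥E₀ →+* ℂ) (a' : ℕ → ℂ),
      (∀ ℓ : ℕ, ℓ.Prime → ¬ P ℓ → ∃ x : ↥E₀, (x : K) = a ℓ ∧ σ x = a' ℓ) ∧
      (∀ (N : ℕ) [NeZero N], finrank K ↥(eigHKP N K P a) = finrank ℂ ↥(eigHKP N ℂ P a')) ∧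
      (∀ (N q : ℕ) [NeZero N] [Fact q.Prime] [NeZero (N * q)],
        eigHKP (N * q) K P a ≤ oldK N q K ↔ eigHKP (N * q) ℂ P a' ≤ oldK N q ℂ) := by
  classical
  -- the eigenvalues are algebraic
  have h1 : eig (fun ℓ : PrimeIdxP P => fullMat (Module.finBasis ℤ ↥(VZ (Gamma0 M₁))) ℓ.2.1) K
      (fun ℓ => a ℓ.1) ≠ ⊥ := by
    intro h0
    apply h
    rw [eigHKP_eq_map (Module.finBasis ℤ ↥(VZ (Gamma0 M₁))) K a, h0, Submodule.map_bot]
  obtain ⟨E₀, σ, a₀, ha₀⟩ := exists_embedding (fun ℓ : PrimeIdxP P => a ℓ.1)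
    (fun ℓ => isIntegral_of_eig_ne_bot h1 ℓ)
  letI : Algebra ↥E₀ ℂ := σ.toAlgebra
  set a' : ℕ → ℂ := fun ℓ => if hℓ : ℓ.Prime ∧ ¬ P ℓ then σ (a₀ ⟨ℓ, hℓ⟩) else 0 with ha'
  have hK : (fun ℓ : PrimeIdxP P => a ℓ.1) = fun ℓ => algebraMap ↥E₀ K (a₀ ℓ) := by
    funext ℓ
    exact (ha₀ ℓ).symm
  have hC : (fun ℓ : PrimeIdxP P => a' ℓ.1) = fun ℓ => algebraMap ↥E₀ ℂ (a₀ ℓ) := by
    funext ℓ
    rw [ha']
    simp only [dif_pos ℓ.2]
    rfl
  refine ⟨E₀, σ, a', ?_, ?_, ?_⟩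
  · intro ℓ hℓ hPℓ
    refine ⟨a₀ ⟨ℓ, hℓ, hPℓ⟩, ha₀ ⟨ℓ, hℓ, hPℓ⟩, ?_⟩
    rw [ha']
    simp only [dif_pos (And.intro hℓ hPℓ)]
  · intro N _
    rw [finrank_eigHKP_eq (Module.finBasis ℤ ↥(VZ (Gamma0 N))) K a,
      finrank_eigHKP_eq (Module.finBasis ℤ ↥(VZ (Gamma0 N))) ℂ a', hK, hC,
      finrank_eig_map, finrank_eig_map]
  · intro N q _ _ _
    rw [eigHKP_le_oldK_iff N q K (Module.finBasis ℤ ↥(VZ (Gamma0 N)))
        (Module.finBasis ℤ ↥(VZ (Gamma0 (N * q)))) P a,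
      eigHKP_le_oldK_iff N q ℂ (Module.finBasis ℤ ↥(VZ (Gamma0 N)))
        (Module.finBasis ℤ ↥(VZ (Gamma0 (N * q)))) P a', hK, hC,
      eig_le_range_map_iff, eig_le_range_map_iff]

/-- **Transport, all levels at once.**  A system of eigenvalues `a : ℕ → K` which occurs at some level has a complex
companion `a'` with the same eigenspace dimensions at all levels and the same `q`-oldness statements. -/
theorem exists_complex_system (a : ℕ → K) {M₁ : ℕ} [NeZero M₁] (h : eigHKP M₁ K P a ≠ ⊥) :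
    ∃ a' : ℕ → ℂ,
      (∀ (N : ℕ) [NeZero N], finrank K ↥(eigHKP N K P a) = finrank ℂ ↥(eigHKP N ℂ P a')) ∧
      (∀ (N q : ℕ) [NeZero N] [Fact q.Prime] [NeZero (N * q)],
        eigHKP (N * q) K P a ≤ oldK N q K ↔ eigHKP (N * q) ℂ P a' ≤ oldK N q ℂ) := by
  obtain ⟨-, -, a', -, h1, h2⟩ := exists_complex_system' K P a h
  exact ⟨a', h1, h2⟩

omit [CharZero K] in
/-- ring homomorphisms commute with the evaluation of integral polynomials -/
theorem map_aeval_int {ι A B : Type*} [CommRing A] [CommRing B] (φ : A →+* B) (x : ι → A)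
    (Q : MvPolynomial ι ℤ) :
    φ (MvPolynomial.aeval x Q) = MvPolynomial.aeval (fun i => φ (x i)) Q := by
  rw [MvPolynomial.aeval_def, MvPolynomial.aeval_def, MvPolynomial.eval₂_comp_left φ]
  have h : φ.comp (algebraMap ℤ A) = algebraMap ℤ B := RingHom.ext_int _ _
  rw [h]
  rfl

/-- integral polynomial relations between the eigenvalues of the complex companion hold for the original system -/
theorem aeval_eq_zero_of_companion {a : ℕ → K} {a' : ℕ → ℂ} {E₀ : IntermediateField ℚ K} {σ : ↥E₀ →+* ℂ}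
    (hrel : ∀ ℓ : ℕ, ℓ.Prime → ¬ P ℓ → ∃ x : ↥E₀, (x : K) = a ℓ ∧ σ x = a' ℓ)
    (Q : MvPolynomial (PrimeIdxP P) ℤ) (hQ : MvPolynomial.aeval (fun ℓ : PrimeIdxP P => a' ℓ.1) Q = 0) :
    MvPolynomial.aeval (fun ℓ : PrimeIdxP P => a ℓ.1) Q = 0 := by
  choose x hx1 hx2 using fun ℓ : PrimeIdxP P => hrel ℓ.1 ℓ.2.1 ℓ.2.2
  have h1 : MvPolynomial.aeval (fun ℓ : PrimeIdxP P => a' ℓ.1) Q = σ (MvPolynomial.aeval x Q) := by
    rw [map_aeval_int]
    have : (fun ℓ : PrimeIdxP P => a' ℓ.1) = fun i => σ (x i) := funext fun ℓ => (hx2 ℓ).symm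
    rw [this]
  have h2 : MvPolynomial.aeval (fun ℓ : PrimeIdxP P => a ℓ.1) Q =
      (algebraMap ↥E₀ K) (MvPolynomial.aeval x Q) := by
    rw [map_aeval_int]
    have : (fun ℓ : PrimeIdxP P => a ℓ.1) = fun i => (algebraMap ↥E₀ K) (x i) :=
      funext fun ℓ => (hx1 ℓ).symm
    rw [this]
  rw [h1] at hQ
  have h3 : MvPolynomial.aeval x Q = 0 := σ.injective (by rw [hQ, map_zero])
  rw [h2, h3, map_zero]

/-- **Transport, all levels at once, with the transfer of integral relations.** -/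
theorem exists_complex_system_rel (a : ℕ → K) {M₁ : ℕ} [NeZero M₁] (h : eigHKP M₁ K P a ≠ ⊥) :
    ∃ a' : ℕ → ℂ,
      (∀ Q : MvPolynomial (PrimeIdxP P) ℤ, MvPolynomial.aeval (fun ℓ : PrimeIdxP P => a' ℓ.1) Q = 0 →
        MvPolynomial.aeval (fun ℓ : PrimeIdxP P => a ℓ.1) Q = 0) ∧
      (∀ (N : ℕ) [NeZero N], finrank K ↥(eigHKP N K P a) = finrank ℂ ↥(eigHKP N ℂ P a')) ∧
      (∀ (N q : ℕ) [NeZero N] [Fact q.Prime] [NeZero (N * q)],
        eigHKP (N * q) K P a ≤ oldK N q K ↔ eigHKP (N * q) ℂ P a' ≤ oldK N q ℂ) := by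
  obtain ⟨E₀, σ, a', hrel, h1, h2⟩ := exists_complex_system' K P a h
  exact ⟨a', aeval_eq_zero_of_companion K P hrel, h1, h2⟩

end Transport

/-! ### the complex side: oldness of eigenforms gives oldness of eigenclasses -/

section Complex

variable (N q : ℕ) [NeZero N] [Fact q.Prime] [NeZero (N * q)] (P : ℕ → Prop)

/-- over `ℂ`, if every eigenform of level `N q` is `q`-old then so is every eigenclass -/
theorem eigHKP_le_oldK_of_forms (a' : ℕ → ℂ)
    (h : ∀ f ∈ eigSP (N * q) P a', ∃ f₁ f₂ : CuspForm (Gamma0 N) 2,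
      ⇑f = ⇑f₁ + ⇑f₂ ∣[(2 : ℤ)] (ModularForm.heckeDiagMatrix q : GL (Fin 2) ℝ)) :
    eigHKP (N * q) ℂ P a' ≤ oldK N q ℂ := by
  rw [eigHKP_complex, eigHP_eq_map]
  rintro _ ⟨⟨f, g⟩, ⟨hf, hg⟩, rfl⟩
  obtain ⟨f₁, f₂, hf12⟩ := h f hf
  obtain ⟨g₁, g₂, hg12⟩ := h g hg
  have hf' : f = R7b.ALD.incl (dvd_mul_right N q) 2 f₁ + R7b.ALD.vOp N q 2 f₂ := by
    apply DFunLike.coe_injective
    rw [FunLike.coe_add, R7b.ALD.coe_incl, R7b.ALD.coe_vOp]
    exact hf12
  have hg' : g = R7b.ALD.incl (dvd_mul_right N q) 2 g₁ + R7b.ALD.vOp N q 2 g₂ := by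
    apply DFunLike.coe_injective
    rw [FunLike.coe_add, R7b.ALD.coe_incl, R7b.ALD.coe_vOp]
    exact hg12
  have hpar : ∀ u v : CuspForm (Gamma0 N) 2,
      periodHomPair N (u, v) ∈ parabolicHoms ℂ (Gamma0 N) ℂ := by
    intro u v
    rw [← (Fermat.Agent.S21.result N).2]
    exact ⟨_, rfl⟩
  rw [mem_oldK]
  refine ⟨periodHomPair N (f₁, g₁), hpar _ _, periodHomPair N (f₂, g₂), hpar _ _, ?_⟩
  rw [res_periodHomPair, deg2_periodHomPair, ← map_add, hf', hg']
  rfl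

end Complex

/-! ### the final form -/

section Final

variable (K : Type*) [Field K] [CharZero K] (P : ℕ → Prop)

/-- the dimension dictionary over `ℂ` -/
theorem finrank_eigHKP_complex (L : ℕ) [NeZero L] (a' : ℕ → ℂ) :
    finrank ℂ ↥(eigHKP L ℂ P a') = 2 * finrank ℂ ↥(eigSP L P a') := by
  rw [eigHKP_complex, finrank_eigHP_eq]

/-- **(D3)-transport.**  To prove that the anemic eigenspace of `a : ℕ → K` at level `N q` in parabolic cohomology over
`K` is `q`-old, it suffices to prove that the eigenforms of level `N q` of every complex system `a'` WITH THE SAME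
DIMENSIONS AT ALL LEVELS (`dim_K H_par(Γ₀(L), K)[a] = 2 dim_ℂ S₂(Γ₀(L))[a']`) are `q`-old. -/
theorem eigHKP_le_oldK_of_complex (N q : ℕ) [NeZero N] [Fact q.Prime] [NeZero (N * q)] (a : ℕ → K)
    (hC : ∀ a' : ℕ → ℂ,
      (∀ (L : ℕ) [NeZero L], finrank K ↥(eigHKP L K P a) = 2 * finrank ℂ ↥(eigSP L P a')) →
      ∀ f ∈ eigSP (N * q) P a', ∃ f₁ f₂ : CuspForm (Gamma0 N) 2,
        ⇑f = ⇑f₁ + ⇑f₂ ∣[(2 : ℤ)] (ModularForm.heckeDiagMatrix q : GL (Fin 2) ℝ)) :
    eigHKP (N * q) K P a ≤ oldK N q K := by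
  by_cases h0 : eigHKP (N * q) K P a = ⊥
  · rw [h0]; exact bot_le
  obtain ⟨a', h1, h2⟩ := exists_complex_system K P a h0
  rw [h2 N q]
  refine eigHKP_le_oldK_of_forms N q P a' (hC a' fun L _ => ?_)
  rw [h1 L, finrank_eigHKP_complex]

/-- a dimension statement relating finitely many levels transports as well: a property of the family of dimensions
`L ↦ 2 dim_ℂ S₂(Γ₀(L))[a']` valid for all complex systems holds for `L ↦ dim_K H_par(Γ₀(L), K)[a]`, as soon as `a`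
occurs at some level. -/
theorem finrank_family_of_complex (a : ℕ → K) {M₁ : ℕ} [NeZero M₁] (h : eigHKP M₁ K P a ≠ ⊥)
    (Q : (∀ (L : ℕ) [NeZero L], ℕ) → Prop)
    (hC : ∀ a' : ℕ → ℂ, Q (fun L _ => 2 * finrank ℂ ↥(eigSP L P a'))) :
    Q (fun L _ => finrank K ↥(eigHKP L K P a)) := by
  obtain ⟨a', h1, -⟩ := exists_complex_system K P a h
  have h3 : (fun (L : ℕ) (_ : NeZero L) => finrank K ↥(eigHKP L K P a)) =
      fun (L : ℕ) (_ : NeZero L) => 2 * finrank ℂ ↥(eigSP L P a') := by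
    funext L _
    rw [h1 L, finrank_eigHKP_complex]
  rw [h3]
  exact hC a'

end Final

end Fermat.Agent.S59lib.SMO
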