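/-
S59lib / SMO / OldP  (helper4)

**An anemic system occurring at level `M` is `p`-old at level `M p`** (`p ∤ M`; the rank input of (HS-p)).

`D` a finite set of primes not dividing `M`, `p ∈ D`, `P := (· ∈ D)` the dropped primes.  If the system `a` occurs at
level `M` (`eig… M … a ≠ ⊥`) then the whole eigenspace of `a` at level `M p` is `p`-old:

* `exists_old_of_occurs` (forms): `f ∈ eigSP (M p) P a'` ⟹ `f = f₁ + V_p f₂`, `f₁, f₂ ∈ S₂(Γ₀(M))`;
* **`eigHKP_le_oldK_of_occurs`** (parabolic cohomology over any field `K` of characteristic zero):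
  `eigHKP (M p) K P a ≤ oldK M p K = res H_par(Γ₀(M), K) + deg2 H_par(Γ₀(M), K)`.

Proof: `g ≠ 0` of level `M` in the eigenspace has `a₁(g) ≠ 0` (Atkin–Lehner for `D`, `R7b/ALD/Base`), so
`F = f - (a₁(f)/a₁(g)) g` vanishes at all `n` prime to `D`; by helper1's (D1) (`ALD.coe_mem_oldSub`) `F` is `D`-old at level
`M p`, i.e. `p`-old as `p` is the only prime of `D` dividing `M p`; then `SMO/Transport`.
-/
import Mathlib
import Fermat.Agent.S59lib.SMO.Transport
import Fermat.Agent.S59lib.SMO.AL2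
import Fermat.Agent.S59lib.R7b.ALD.Main

set_option autoImplicit false
set_option linter.unusedSectionVars false
set_option linter.unusedVariables false
set_option linter.style.haveILetI false

noncomputable section

namespace Fermat.Agent.S59lib.SMO

open CongruenceSubgroup ModularCurve ModularCurve.Period Module Matrix ModularFormClass UpperHalfPlane
open Fermat.Agent.S41lib.HC Fermat.Agent.S43lib.B1 Fermat.Agent.S16lib.LG
open Fermat.Agent.S16lib.LH Fermat.Agent.Helper8 Fermat.Agent.S59lib.R7b.ALD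
open scoped MatrixGroups ModularForm

variable {M p : ℕ} [NeZero M] [NeZero (M * p)] {P : ℕ → Prop}

/-- an eigenform of level `M` is an eigenform of level `M p` for the operators away from `p` -/
theorem incl_mem_eigSP (hp : p.Prime) (hPp : P p) {a : ℕ → ℂ} {g : CuspForm (Gamma0 M) 2} (hg : g ∈ eigSP M P a) :
    incl (dvd_mul_right M p) 2 g ∈ eigSP (M * p) P a := by
  refine ⟨fun ℓ hℓ hℓMp hPℓ => ?_, fun q hq hqMp hPq => ?_⟩
  · have hℓM : ¬ ℓ ∣ M := fun h => hℓMp (h.trans (dvd_mul_right M p))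
    have h1 := hg.1 ℓ hℓ hℓM hPℓ
    have h2 : ∀ n, qCoeff ⇑(CuspForm.heckeTLin 2 hℓ hℓMp (incl (dvd_mul_right M p) 2 g) -
        a ℓ • incl (dvd_mul_right M p) 2 g) n = 0 := by
      intro n
      have h3 := congrArg (fun v : CuspForm (Gamma0 M) 2 => qCoeff ⇑v n) h1
      simp only [qCoeff_heckeTLin, qCoeff_smul] at h3
      rw [qCoeff_sub, qCoeff_smul, qCoeff_heckeTLin, qCoeff_incl]
      have h4 : (qCoeff ⇑(incl (dvd_mul_right M p) 2 g)) = qCoeff ⇑g := rfl
      rw [h4, h3, sub_self]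
    exact sub_eq_zero.mp (eq_zero_of_qCoeff_eq_zero _ h2)
  · have hqp : q ≠ p := fun h => hPq (h ▸ hPp)
    have hqM : q ∣ M := by
      rcases (Nat.Prime.dvd_mul hq).mp hqMp with h | h
      · exact h
      · exact absurd ((Nat.prime_dvd_prime_iff_eq hq hp).mp h) hqp
    have h1 := hg.2 q hq hqM hPq
    have h2 : ∀ n, qCoeff ⇑(CuspForm.heckeULin 2 hqMp (incl (dvd_mul_right M p) 2 g) -
        a q • incl (dvd_mul_right M p) 2 g) n = 0 := by
      intro n
      have h3 := congrArg (fun v : CuspForm (Gamma0 M) 2 => qCoeff ⇑v n) h1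
      simp only [qCoeff_heckeULin hq, qCoeff_smul] at h3
      rw [qCoeff_sub, qCoeff_smul, qCoeff_heckeULin hq, qCoeff_incl]
      have h4 : (qCoeff ⇑(incl (dvd_mul_right M p) 2 g)) = qCoeff ⇑g := rfl
      rw [h4, h3, sub_self]
    exact sub_eq_zero.mp (eq_zero_of_qCoeff_eq_zero _ h2)

variable (D : Finset ℕ) (hD : ∀ q ∈ D, q.Prime ∧ ¬ q ∣ M) (hpD : p ∈ D)

include hD hpD

/-- the `D`-old subspace at level `M p` is the `p`-old subspace -/
theorem oldSub_le_oldAt : oldSub D (M * p) ≤ oldAt p (M * p) := by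
  have hp : p.Prime := (hD p hpD).1
  rw [oldSub]
  refine iSup₂_le fun r hr => ?_
  rw [Finset.mem_filter] at hr
  obtain ⟨hrD, hrMp⟩ := hr
  obtain ⟨hr1, hr2⟩ := hD r hrD
  have hrp : r = p := by
    rcases (Nat.Prime.dvd_mul hr1).mp hrMp with h | h
    · exact absurd h hr2
    · exact (Nat.prime_dvd_prime_iff_eq hr1 hp).mp h
  rw [hrp]

/-- **forms**: an eigenform of level `M p` of a system occurring at level `M` is `p`-old -/
theorem exists_old_of_occurs {a' : ℕ → ℂ} (hne : eigSP M (fun ℓ => ℓ ∈ D) a' ≠ ⊥)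
    {f : CuspForm (Gamma0 (M * p)) 2} (hf : f ∈ eigSP (M * p) (fun ℓ => ℓ ∈ D) a') :
    ∃ f₁ f₂ : CuspForm (Gamma0 M) 2,
      ⇑f = ⇑f₁ + ⇑f₂ ∣[(2 : ℤ)] (ModularForm.heckeDiagMatrix p : GL (Fin 2) ℝ) := by
  have hp : p.Prime := (hD p hpD).1
  obtain ⟨g, hg, hg0⟩ := (Submodule.ne_bot_iff _).mp hne
  -- `a₁(g) ≠ 0`
  have hg1 : qCoeff ⇑g 1 ≠ 0 := by
    intro h1
    exact hg0 (alHyp_of_finset D hD g fun n hn => qCoeff_eq_zero_of_one hg h1 n hn)
  set c : ℂ := qCoeff ⇑f 1 / qCoeff ⇑g 1 with hc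
  set F : CuspForm (Gamma0 (M * p)) 2 := f - c • incl (dvd_mul_right M p) 2 g with hF
  have hFmem : F ∈ eigSP (M * p) (fun ℓ => ℓ ∈ D) a' :=
    Submodule.sub_mem _ hf (Submodule.smul_mem _ c (incl_mem_eigSP hp hpD hg))
  have hF1 : qCoeff ⇑F 1 = 0 := by
    rw [hF, qCoeff_sub, qCoeff_smul, qCoeff_incl, hc]
    field_simp
    ring
  have hW : ∀ m, (∀ q ∈ D, ¬ q ∣ m) → qCoeff ⇑F m = 0 := fun m hm =>
    qCoeff_eq_zero_of_one hFmem hF1 m fun ℓ hℓ hℓm hPℓ => hm ℓ hPℓ hℓm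
  have hold : ⇑F ∈ oldAt p (M * p) :=
    oldSub_le_oldAt D hD hpD (coe_mem_oldSub D (fun q hq => (hD q hq).1) (M * p) F hW)
  obtain ⟨G, H, hGH⟩ := exists_of_mem_oldAt hold
  have hdiv : M * p / p = M := Nat.mul_div_cancel M hp.pos
  have hdvd : M * p / p ∣ M := by rw [hdiv]
  refine ⟨incl hdvd 2 G + c • g, incl hdvd 2 H, ?_⟩
  have h1 : ⇑f = ⇑F + c • ⇑g := by
    rw [hF]
    funext z
    simp [coe_incl]
  rw [h1, hGH, FunLike.coe_add, coe_incl, coe_incl]
  funext z
  simp only [Pi.add_apply, FunLike.coe_smul, Pi.smul_apply]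
  ring

omit hD hpD in
/-- finite dimensionality of the eigenspaces -/
theorem finite_eigHKP (L : ℕ) [NeZero L] (K : Type*) [Field K] [CharZero K] (Q : ℕ → Prop) (a : ℕ → K) :
    Module.Finite K ↥(eigHKP L K Q a) := by
  rw [eigHKP_eq_map (Module.finBasis ℤ ↥(VZ (Gamma0 L))) K a]
  infer_instance

/-- **cohomology over `K`**: the eigenspace at level `M p` of a system occurring at level `M` is `p`-old -/
theorem eigHKP_le_oldK_of_occurs (K : Type*) [Field K] [CharZero K] [Fact p.Prime] (a : ℕ → K)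
    (hne : eigHKP M K (fun ℓ => ℓ ∈ D) a ≠ ⊥) :
    eigHKP (M * p) K (fun ℓ => ℓ ∈ D) a ≤ oldK M p K := by
  refine eigHKP_le_oldK_of_complex K _ M p a fun a' hdim f hf => ?_
  have h1 : eigSP M (fun ℓ => ℓ ∈ D) a' ≠ ⊥ := by
    intro h0
    have h2 := hdim M
    rw [h0, finrank_bot, mul_zero] at h2
    haveI := finite_eigHKP M K (fun ℓ => ℓ ∈ D) a
    exact hne (Submodule.finrank_eq_zero.mp h2)
  exact exists_old_of_occurs D hD hpD h1 hf

/-- the same for any predicate `P` describing the set `D` of dropped primes -/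
theorem eigHKP_le_oldK_of_occurs' (K : Type*) [Field K] [CharZero K] [Fact p.Prime] {P : ℕ → Prop}
    (hP : ∀ ℓ, P ℓ ↔ ℓ ∈ D) (a : ℕ → K) (hne : eigHKP M K P a ≠ ⊥) :
    eigHKP (M * p) K P a ≤ oldK M p K := by
  have h : P = fun ℓ => ℓ ∈ D := funext fun ℓ => propext (hP ℓ)
  subst h
  exact eigHKP_le_oldK_of_occurs D hD hpD K a hne

omit hD hpD in
/-- **one dropped prime `p ∤ M`** : the eigenspace at level `M p` for the Hecke algebra missing `p` of a system occurring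
at level `M` is `p`-old -/
theorem eigHKP_le_oldK_single (K : Type*) [Field K] [CharZero K] [Fact p.Prime] (hpM : ¬ p ∣ M)
    (a : ℕ → K) (hne : eigHKP M K (fun ℓ => ℓ = p) a ≠ ⊥) :
    eigHKP (M * p) K (fun ℓ => ℓ = p) a ≤ oldK M p K := by
  classical
  refine eigHKP_le_oldK_of_occurs' {p} (fun q hq => ?_) (Finset.mem_singleton_self p) K
    (fun ℓ => Finset.mem_singleton.symm) a hne
  rw [Finset.mem_singleton] at hq
  subst hq
  exact ⟨Fact.out, hpM⟩

end Fermat.Agent.S59lib.SMO
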