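/-
S59lib / SMO / D3  (helper4)

**(D3) of R7b/ALD : `2`-oldness of anemic eigenclasses in parabolic cohomology over a field `K` of characteristic zero.**

`D` a finite set of primes containing the primes of `2 L` (`2 ∣ L`), `a : ℕ → K` a system of eigenvalues for the `T_ℓ`,
`ℓ ∉ D`.  Hypothesis (H), in `K`-cohomology: no level `M ∣ 2 L` with `4 ∣ M` is MINIMAL for `a` (`IsMinLevelK` : `a` occurs
in `H_par(Γ₀(M), K)` and at no level `M / r`, `r ∣ M` prime).  Then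

  `eigHKP (L * 2) K (· ∈ D) a ≤ oldK L 2 K = res H_par(Γ₀(L), K) + deg2 H_par(Γ₀(L), K)`   (`eigHKP_le_oldK_two`).

Proof: helper1's (D2″) `ALD.eigD_le_two_old` on forms + the transport `SMO/Transport` (all levels at once, so that (H)
over `K` becomes (H) over `ℂ`).
-/
import Mathlib
import Fermat.Agent.S59lib.SMO.OldP
import Fermat.Agent.S59lib.R7b.ALD.Newform

set_option autoImplicit false
set_option linter.unusedSectionVars false
set_option linter.unusedVariables false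
set_option linter.style.haveILetI false

noncomputable section

namespace Fermat.Agent.S59lib.SMO

open CongruenceSubgroup ModularCurve ModularCurve.Period Module Matrix ModularFormClass UpperHalfPlane
open Fermat.Agent.S41lib.HC Fermat.Agent.S43lib.B1 Fermat.Agent.S16lib.LG
open Fermat.Agent.S16lib.LH Fermat.Agent.Helper8 Fermat.Agent.S59lib.R7b.ALD
open scoped MatrixGroups ModularForm

/-! ### the dictionary `eigSP ↔ ALD.eigD` -/

section Dict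

variable {M : ℕ} [NeZero M] (D : Finset ℕ) (hDM : ∀ q : ℕ, q.Prime → q ∣ M → q ∈ D)

include hDM

theorem mem_eigSP_iff_coe_mem_eigD {ψ : ℕ → ℂ} {f : CuspForm (Gamma0 M) 2} :
    f ∈ eigSP M (fun ℓ => ℓ ∈ D) ψ ↔ ⇑f ∈ eigD D ψ M := by
  rw [mem_eigSP, mem_eigD]
  constructor
  · rintro ⟨h1, -⟩
    refine ⟨coe_mem_cf f, fun ℓ hℓ hℓD => ?_⟩
    have hℓM : ¬ ℓ ∣ M := fun h => hℓD (hDM ℓ hℓ h)
    have := congrArg (fun v : CuspForm (Gamma0 M) 2 => (⇑v : ℍ → ℂ)) (h1 ℓ hℓ hℓM hℓD)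
    simpa [CuspForm.coe_heckeTLin_apply] using this
  · rintro ⟨-, h2⟩
    refine ⟨fun ℓ hℓ hℓM hℓD => ?_, fun q hq hqM hqD => absurd (hDM q hq hqM) hqD⟩
    apply DFunLike.coe_injective
    rw [CuspForm.coe_heckeTLin_apply, h2 ℓ hℓ hℓD]
    rfl

theorem eigD_ne_bot_iff {ψ : ℕ → ℂ} :
    eigD D ψ M ≠ ⊥ ↔ eigSP M (fun ℓ => ℓ ∈ D) ψ ≠ ⊥ := by
  constructor
  · intro h
    obtain ⟨u, hu, hu0⟩ := Submodule.exists_mem_ne_zero_of_ne_bot h
    obtain ⟨F, rfl⟩ := mem_cf.mp (eigD_le_cf D ψ M hu)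
    refine (Submodule.ne_bot_iff _).mpr ⟨F, (mem_eigSP_iff_coe_mem_eigD D hDM).mpr hu, ?_⟩
    rintro rfl
    exact hu0 rfl
  · intro h
    obtain ⟨F, hF, hF0⟩ := (Submodule.ne_bot_iff _).mp h
    refine (Submodule.ne_bot_iff _).mpr ⟨⇑F, (mem_eigSP_iff_coe_mem_eigD D hDM).mp hF, ?_⟩
    intro h0
    apply hF0
    apply DFunLike.coe_injective
    rw [h0]
    rfl

theorem eigD_eq_map (ψ : ℕ → ℂ) :
    eigD D ψ M = (eigSP M (fun ℓ => ℓ ∈ D) ψ).map (coeHom M) := by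
  ext u
  constructor
  · intro hu
    obtain ⟨F, rfl⟩ := mem_cf.mp (eigD_le_cf D ψ M hu)
    exact ⟨F, (mem_eigSP_iff_coe_mem_eigD D hDM).mpr hu, rfl⟩
  · rintro ⟨F, hF, rfl⟩
    exact (mem_eigSP_iff_coe_mem_eigD D hDM).mp hF

theorem finrank_eigD_eq (ψ : ℕ → ℂ) :
    finrank ℂ ↥(eigD D ψ M) = finrank ℂ ↥(eigSP M (fun ℓ => ℓ ∈ D) ψ) := by
  rw [eigD_eq_map D hDM ψ]
  have hinj : Function.Injective (coeHom M) := fun F G h => DFunLike.coe_injective h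
  exact (LinearEquiv.finrank_eq (Submodule.equivMapOfInjective (coeHom M) hinj _)).symm

end Dict

/-! ### minimal levels in `K`-cohomology -/

section MinK

variable (K : Type*) [Field K] [CharZero K] (D : Finset ℕ)

/-- the system `a` occurs in `H_par(Γ₀(M), K)` -/
def OccK (a : ℕ → K) (M : ℕ) : Prop :=
  ∃ h : M ≠ 0, @eigHKP M ⟨h⟩ K _ (fun ℓ => ℓ ∈ D) a ≠ ⊥

theorem occK_iff (a : ℕ → K) (M : ℕ) [hM : NeZero M] :
    OccK K D a M ↔ eigHKP M K (fun ℓ => ℓ ∈ D) a ≠ ⊥ :=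
  ⟨fun ⟨_, h⟩ => h, fun h => ⟨hM.out, h⟩⟩

/-- `M` is a minimal level for the system `a` in `K`-cohomology -/
def IsMinLevelK (a : ℕ → K) (M : ℕ) : Prop :=
  OccK K D a M ∧ ∀ r : ℕ, r.Prime → r ∣ M → ¬ OccK K D a (M / r)

end MinK

/-! ### (D3) -/

section Main

variable (K : Type*) [Field K] [CharZero K] (D : Finset ℕ)

/-- occurrence over `K` and over `ℂ` for companion systems -/
theorem occK_iff_of_dim {a : ℕ → K} {a' : ℕ → ℂ}
    (hdim : ∀ (L : ℕ) [NeZero L], finrank K ↥(eigHKP L K (fun ℓ => ℓ ∈ D) a) =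
      2 * finrank ℂ ↥(eigSP L (fun ℓ => ℓ ∈ D) a'))
    (M : ℕ) [NeZero M] :
    OccK K D a M ↔ eigSP M (fun ℓ => ℓ ∈ D) a' ≠ ⊥ := by
  haveI := finite_eigHKP M K (fun ℓ => ℓ ∈ D) a
  haveI : FiniteDimensional ℂ (CuspForm (Gamma0 M) 2) :=
    Fermat.Agent.ProgramR.ES.finiteDimensional_cuspForm M
  rw [occK_iff, ← not_iff_not, not_not, not_not, ← Submodule.finrank_eq_zero,
    ← Submodule.finrank_eq_zero (S := eigSP M (fun ℓ => ℓ ∈ D) a'), hdim M]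
  omega

/-- a minimal level in `K`-cohomology is a minimal level for the complex companion system `a' = σ ∘ a` -/
theorem exists_isMinLevel_complex {a : ℕ → K} {M : ℕ}
    (hDM : ∀ q : ℕ, q.Prime → q ∣ M → q ∈ D) (hmin : IsMinLevelK K D a M) :
    ∃ (E₀ : IntermediateField ℚ K) (σ : ↥E₀ →+* ℂ) (a' : ℕ → ℂ),
      (∀ ℓ : ℕ, ℓ.Prime → ℓ ∉ D → ∃ x : ↥E₀, (x : K) = a ℓ ∧ σ x = a' ℓ) ∧ IsMinLevel D a' M := by
  obtain ⟨⟨hM0, hocc⟩, hmin2⟩ := hmin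
  haveI : NeZero M := ⟨hM0⟩
  obtain ⟨E₀, σ, a', hrel, h1, -⟩ := exists_complex_system' K (fun ℓ => ℓ ∈ D) a hocc
  have hdim : ∀ (N : ℕ) [NeZero N], finrank K ↥(eigHKP N K (fun ℓ => ℓ ∈ D) a) =
      2 * finrank ℂ ↥(eigSP N (fun ℓ => ℓ ∈ D) a') := fun N _ => by
    rw [h1 N, finrank_eigHKP_complex]
  refine ⟨E₀, σ, a', hrel, ?_, fun r hr hrM => ?_⟩
  · rw [eigD_ne_bot_iff D hDM, ← occK_iff_of_dim K D hdim M]
    exact ⟨hM0, hocc⟩
  · have h0 : M / r ≠ 0 := by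
      intro h0
      have := Nat.div_mul_cancel hrM
      rw [h0, zero_mul] at this
      exact hM0 this.symm
    haveI : NeZero (M / r) := ⟨h0⟩
    have hDMr : ∀ q : ℕ, q.Prime → q ∣ M / r → q ∈ D :=
      fun q hq h => hDM q hq (h.trans (Nat.div_dvd_of_dvd hrM))
    by_contra hne
    rw [← ne_eq, eigD_ne_bot_iff D hDMr, ← occK_iff_of_dim K D hdim (M / r)] at hne
    exact hmin2 r hr hrM hne

/-- **a minimal level in `K`-cohomology carries a newform** whose eigenvalues are the `σ (a ℓ)` (`ℓ ∉ D`) for an embedding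
`σ : E₀ → ℂ` of a subfield `E₀ ⊆ K` containing the `a ℓ` -/
theorem exists_isNewform_of_isMinLevelK {a : ℕ → K} {M : ℕ}
    (hDM : ∀ q : ℕ, q.Prime → q ∣ M → q ∈ D) (hmin : IsMinLevelK K D a M) :
    ∃ (hM : NeZero M) (E₀ : IntermediateField ℚ K) (σ : ↥E₀ →+* ℂ) (g : CuspForm (Gamma0 M) 2),
      g.IsNewform ∧ ∀ ℓ : ℕ, ℓ.Prime → ℓ ∉ D → ∃ x : ↥E₀, (x : K) = a ℓ ∧ σ x = qCoeff ⇑g ℓ := by
  obtain ⟨E₀, σ, a', hrel, hminC⟩ := exists_isMinLevel_complex K D hDM hmin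
  haveI hM : NeZero M := ⟨hmin.1.1⟩
  obtain ⟨g, hg, hga⟩ := exists_isNewform_of_isMinLevel D a' M hDM hminC
  refine ⟨hM, E₀, σ, g, hg, fun ℓ hℓ hℓD => ?_⟩
  obtain ⟨x, hx1, hx2⟩ := hrel ℓ hℓ hℓD
  exact ⟨x, hx1, by rw [hx2, hga ℓ hℓ hℓD]⟩

/-- **a minimal level in `K`-cohomology carries a newform, relation form**: every integral polynomial relation between the
Fourier coefficients `a_ℓ(g)` (`ℓ ∉ D`) of the newform holds for the `a ℓ`. -/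
theorem exists_isNewform_of_isMinLevelK_rel {a : ℕ → K} {M : ℕ}
    (hDM : ∀ q : ℕ, q.Prime → q ∣ M → q ∈ D) (hmin : IsMinLevelK K D a M) :
    ∃ (hM : NeZero M) (g : CuspForm (Gamma0 M) 2),
      g.IsNewform ∧ ∀ Q : MvPolynomial (PrimeIdxP (fun ℓ => ℓ ∈ D)) ℤ,
        MvPolynomial.aeval (fun ℓ : PrimeIdxP (fun ℓ => ℓ ∈ D) => qCoeff ⇑g ℓ.1) Q = 0 →
        MvPolynomial.aeval (fun ℓ : PrimeIdxP (fun ℓ => ℓ ∈ D) => a ℓ.1) Q = 0 := by
  obtain ⟨hM, E₀, σ, g, hg, hrel⟩ := exists_isNewform_of_isMinLevelK K D hDM hmin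
  exact ⟨hM, g, hg, fun Q hQ =>
    aeval_eq_zero_of_companion (a' := fun ℓ => qCoeff ⇑g ℓ) K (fun ℓ => ℓ ∈ D) hrel Q hQ⟩

/-- **(D3).**  If no level `M ∣ 2 L` with `4 ∣ M` is minimal for `a` (in `K`-cohomology), every anemic `a`-eigenclass of
level `2 L` (`2 ∣ L`) is `2`-old. -/
theorem eigHKP_le_oldK_two (hD : ∀ q ∈ D, q.Prime) (L : ℕ) [NeZero L] [NeZero (L * 2)]
    (hDL : ∀ q : ℕ, q.Prime → q ∣ L * 2 → q ∈ D) (h2L : 2 ∣ L) (a : ℕ → K)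
    (hH : ∀ M : ℕ, M ∣ L * 2 → 4 ∣ M → ¬ IsMinLevelK K D a M) :
    eigHKP (L * 2) K (fun ℓ => ℓ ∈ D) a ≤ oldK L 2 K := by
  haveI : Fact (Nat.Prime 2) := ⟨Nat.prime_two⟩
  refine eigHKP_le_oldK_of_complex K _ L 2 a fun a' hdim f hf => ?_
  have hL2 : L * 2 ≠ 0 := NeZero.ne (L * 2)
  have h4 : 4 ∣ L * 2 := by
    obtain ⟨c, rfl⟩ := h2L
    exact ⟨c, by ring⟩
  -- (H) over `ℂ`
  have hH' : ∀ M : ℕ, M ∣ L * 2 → 4 ∣ M → ¬ IsMinLevel D a' M := by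
    intro M hM h4M hmin
    have hM0 : M ≠ 0 := fun h => hL2 (by rw [h] at hM; exact Nat.eq_zero_of_zero_dvd hM)
    haveI : NeZero M := ⟨hM0⟩
    have hDM : ∀ q : ℕ, q.Prime → q ∣ M → q ∈ D := fun q hq h => hDL q hq (h.trans hM)
    refine hH M hM h4M ⟨?_, fun r hr hrM hocc => ?_⟩
    · rw [occK_iff_of_dim K D hdim M, ← eigD_ne_bot_iff D hDM]
      exact hmin.1
    · have h0 : M / r ≠ 0 := by
        intro h0
        have := Nat.div_mul_cancel hrM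
        rw [h0, zero_mul] at this
        exact hM0 this.symm
      haveI : NeZero (M / r) := ⟨h0⟩
      have hDMr : ∀ q : ℕ, q.Prime → q ∣ M / r → q ∈ D :=
        fun q hq h => hDM q hq (h.trans (Nat.div_dvd_of_dvd hrM))
      rw [occK_iff_of_dim K D hdim (M / r), ← eigD_ne_bot_iff D hDMr] at hocc
      exact hocc (hmin.2 r hr hrM)
  have h1 := eigD_le_two_old D hD a' (L * 2) hL2 hDL h4 hH'
    ((mem_eigSP_iff_coe_mem_eigD D hDL).mp hf)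
  rw [Nat.mul_div_cancel L (by norm_num : 0 < 2)] at h1
  obtain ⟨u, hu, w, hw, huw⟩ := Submodule.mem_sup.mp h1
  obtain ⟨v, hv, rfl⟩ := Submodule.mem_map.mp hw
  obtain ⟨f₁, rfl⟩ := mem_cf.mp (eigD_le_cf D a' L hu)
  obtain ⟨f₂, rfl⟩ := mem_cf.mp (eigD_le_cf D a' L hv)
  exact ⟨f₁, f₂, huw.symm⟩

/-- **(D3), dimension form**: under (H), `dim H_par(Γ₀(2L), K)[a] ≤ 2 dim H_par(Γ₀(L), K)[a]`. -/
theorem finrank_eigHKP_two_le (hD : ∀ q ∈ D, q.Prime) (L : ℕ) [NeZero L] [NeZero (L * 2)]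
    (hDL : ∀ q : ℕ, q.Prime → q ∣ L * 2 → q ∈ D) (h2L : 2 ∣ L) (a : ℕ → K)
    (hH : ∀ M : ℕ, M ∣ L * 2 → 4 ∣ M → ¬ IsMinLevelK K D a M) :
    finrank K ↥(eigHKP (L * 2) K (fun ℓ => ℓ ∈ D) a) ≤
      2 * finrank K ↥(eigHKP L K (fun ℓ => ℓ ∈ D) a) := by
  by_cases h0 : eigHKP (L * 2) K (fun ℓ => ℓ ∈ D) a = ⊥
  · rw [h0, finrank_bot]; exact Nat.zero_le _
  obtain ⟨a', h1, -⟩ := exists_complex_system K (fun ℓ => ℓ ∈ D) a h0
  have hdim : ∀ (N : ℕ) [NeZero N], finrank K ↥(eigHKP N K (fun ℓ => ℓ ∈ D) a) =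
      2 * finrank ℂ ↥(eigSP N (fun ℓ => ℓ ∈ D) a') := fun N _ => by
    rw [h1 N, finrank_eigHKP_complex]
  have hL2 : L * 2 ≠ 0 := NeZero.ne (L * 2)
  have h4 : 4 ∣ L * 2 := by
    obtain ⟨c, rfl⟩ := h2L
    exact ⟨c, by ring⟩
  have hDL' : ∀ q : ℕ, q.Prime → q ∣ L → q ∈ D := fun q hq h => hDL q hq (h.trans (dvd_mul_right L 2))
  have hH' : ∀ M : ℕ, M ∣ L * 2 → 4 ∣ M → ¬ IsMinLevel D a' M := by
    intro M hM h4M hmin
    have hM0 : M ≠ 0 := fun h => hL2 (by rw [h] at hM; exact Nat.eq_zero_of_zero_dvd hM)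
    haveI : NeZero M := ⟨hM0⟩
    have hDM : ∀ q : ℕ, q.Prime → q ∣ M → q ∈ D := fun q hq h => hDL q hq (h.trans hM)
    refine hH M hM h4M ⟨?_, fun r hr hrM hocc => ?_⟩
    · rw [occK_iff_of_dim K D hdim M, ← eigD_ne_bot_iff D hDM]
      exact hmin.1
    · have h0 : M / r ≠ 0 := by
        intro h0
        have := Nat.div_mul_cancel hrM
        rw [h0, zero_mul] at this
        exact hM0 this.symm
      haveI : NeZero (M / r) := ⟨h0⟩
      have hDMr : ∀ q : ℕ, q.Prime → q ∣ M / r → q ∈ D :=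
        fun q hq h => hDM q hq (h.trans (Nat.div_dvd_of_dvd hrM))
      rw [occK_iff_of_dim K D hdim (M / r), ← eigD_ne_bot_iff D hDMr] at hocc
      exact hocc (hmin.2 r hr hrM)
  have h2 := eigD_le_two_old D hD a' (L * 2) hL2 hDL h4 hH'
  rw [Nat.mul_div_cancel L (by norm_num : 0 < 2)] at h2
  haveI : FiniteDimensional ℂ (CuspForm (Gamma0 L) 2) :=
    Fermat.Agent.ProgramR.ES.finiteDimensional_cuspForm L
  haveI : FiniteDimensional ℂ ↥(eigD D a' L) := by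
    rw [eigD_eq_map D hDL' a']
    infer_instance
  haveI : FiniteDimensional ℂ ↥((eigD D a' L).map (vF 2)) := inferInstance
  have h3 : finrank ℂ ↥(eigD D a' (L * 2)) ≤
      finrank ℂ ↥(eigD D a' L ⊔ (eigD D a' L).map (vF 2)) := Submodule.finrank_mono h2
  have h4' : finrank ℂ ↥(eigD D a' L ⊔ (eigD D a' L).map (vF 2)) ≤
      finrank ℂ ↥(eigD D a' L) + finrank ℂ ↥((eigD D a' L).map (vF 2)) :=
    Submodule.finrank_add_le_finrank_add_finrank _ _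
  have h5 : finrank ℂ ↥((eigD D a' L).map (vF 2)) ≤ finrank ℂ ↥(eigD D a' L) :=
    Submodule.finrank_map_le (vF 2) _
  rw [hdim (L * 2), hdim L, ← finrank_eigD_eq D hDL a', ← finrank_eigD_eq D hDL' a']
  omega

end Main

end Fermat.Agent.S59lib.SMO
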