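/-
S59lib / SMO / Tensor  (helper4)

**Strong multiplicity one in the tensor model `𝒪 ⊗[ℤ] L_M`** (`L_M = VZ (Γ₀(M))`, `𝒪` any domain of
characteristic zero, operators `(·).baseChange 𝒪`): every `𝒪`-submodule of `𝒪 ⊗ L_M` on which the operators
`T_ℓ` (`ℓ ∤ M`), `U_q` (`q ∣ M`) at all primes `≠ p` (`p ∤ M` a fixed prime) — or at all primes — act through a system
of eigenvalues `a : ℕ → 𝒪` has rank `≤ 2`:

  `finrank_le_two_of_eigen`, `finrank_le_two_of_eigen_full`, and the split forms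
  `finrank_le_two_of_eigen_TU`, `finrank_le_two_of_eigen_full_TU` in the vocabulary `tL` (main, `S41lib.BR`), `uLat`.

Proof: coordinates in the fraction field `K = Frac 𝒪` in a `ℤ`-basis of `L_M`, then `SMO/GenP` (`SMO/CohK`) over `K`.
-/
import Mathlib
import Fermat.Agent.S59lib.SMO.GenP
import Fermat.Agent.S41lib.BR.Lattice

set_option autoImplicit false
set_option linter.unusedSectionVars false
set_option linter.unusedVariables false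
set_option linter.style.haveILetI false

noncomputable section

namespace Fermat.Agent.S59lib.SMO

open CongruenceSubgroup ModularCurve ModularCurve.Period Module Matrix TensorProduct
open Fermat.Agent.S41lib.HC Fermat.Agent.S43lib.B1 Fermat.Agent.S16lib.LG
open Fermat.Agent.S16lib.LH
open scoped MatrixGroups

/-! ### generic part: a free `ℤ`-lattice with a family of endomorphisms -/

section Generic

variable {L : Type*} [AddCommGroup L] {r : ℕ} (b : Basis (Fin r) ℤ L)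
variable (𝒪 : Type*) [CommRing 𝒪] [IsDomain 𝒪] [CharZero 𝒪]

/-- the coordinates of `𝒪 ⊗ L` in the fraction field of `𝒪` -/
def fracCoord : 𝒪 ⊗[ℤ] L →ₗ[𝒪] (Fin r → FractionRing 𝒪) :=
  ((Algebra.linearMap 𝒪 (FractionRing 𝒪)).compLeft (Fin r)) ∘ₗ
    (Algebra.TensorProduct.basis 𝒪 b).equivFun.toLinearMap

theorem fracCoord_apply (x : 𝒪 ⊗[ℤ] L) (i : Fin r) :
    fracCoord b 𝒪 x i = algebraMap 𝒪 (FractionRing 𝒪) ((Algebra.TensorProduct.basis 𝒪 b).repr x i) :=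
  rfl

theorem fracCoord_injective : Function.Injective (fracCoord b 𝒪) := by
  intro x y hxy
  apply (Algebra.TensorProduct.basis 𝒪 b).repr.injective
  ext i
  have := congrFun hxy i
  rw [fracCoord_apply, fracCoord_apply] at this
  exact IsFractionRing.injective 𝒪 (FractionRing 𝒪) this

/-- the coordinates intertwine `f.baseChange 𝒪` with the integer matrix of `f` -/
theorem fracCoord_baseChange (f : Module.End ℤ L) (x : 𝒪 ⊗[ℤ] L) :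
    fracCoord b 𝒪 (f.baseChange 𝒪 x) =
      ((LinearMap.toMatrix b b f).map (Int.cast : ℤ → FractionRing 𝒪)) *ᵥ fracCoord b 𝒪 x := by
  classical
  have h1 := LinearMap.toMatrix_mulVec_repr (Algebra.TensorProduct.basis 𝒪 b)
    (Algebra.TensorProduct.basis 𝒪 b) (f.baseChange 𝒪) x
  rw [LinearMap.toMatrix_baseChange] at h1
  funext i
  have h2 := congrArg (algebraMap 𝒪 (FractionRing 𝒪)) (congrFun h1 i)
  simp only [Matrix.mulVec, dotProduct, Matrix.map_apply, map_sum, map_mul, fracCoord_apply] at h2 ⊢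
  rw [← h2]
  refine Finset.sum_congr rfl fun j _ => ?_
  congr 1
  rw [eq_intCast, map_intCast]

theorem fracCoord_smul (c : 𝒪) (x : 𝒪 ⊗[ℤ] L) :
    fracCoord b 𝒪 (c • x) = algebraMap 𝒪 (FractionRing 𝒪) c • fracCoord b 𝒪 x := by
  rw [map_smul, algebraMap_smul]

/-- an eigen-equation in `𝒪 ⊗ L` is the eigen-equation of the integer matrix in the coordinates -/
theorem fracCoord_eigen_iff (f : Module.End ℤ L) (c : 𝒪) (x : 𝒪 ⊗[ℤ] L) :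
    f.baseChange 𝒪 x = c • x ↔
    ((LinearMap.toMatrix b b f).map (Int.cast : ℤ → FractionRing 𝒪)) *ᵥ fracCoord b 𝒪 x =
      algebraMap 𝒪 (FractionRing 𝒪) c • fracCoord b 𝒪 x := by
  rw [← fracCoord_baseChange, ← fracCoord_smul]
  exact (fracCoord_injective b 𝒪).eq_iff.symm

theorem fracCoord_eigen (f : Module.End ℤ L) (c : 𝒪) {x : 𝒪 ⊗[ℤ] L}
    (hx : f.baseChange 𝒪 x = c • x) :
    ((LinearMap.toMatrix b b f).map (Int.cast : ℤ → FractionRing 𝒪)) *ᵥ fracCoord b 𝒪 x =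
      algebraMap 𝒪 (FractionRing 𝒪) c • fracCoord b 𝒪 x :=
  (fracCoord_eigen_iff b 𝒪 f c x).mp hx

/-- clearing denominators: finitely many vectors of `K^r` have a common non-zero multiple in the image of `𝒪 ⊗ L` -/
theorem exists_fracCoord_eq {n : ℕ} (e : Fin n → Fin r → FractionRing 𝒪) :
    ∃ (d : 𝒪) (_ : d ≠ 0) (y : Fin n → 𝒪 ⊗[ℤ] L), ∀ j,
      fracCoord b 𝒪 (y j) = algebraMap 𝒪 (FractionRing 𝒪) d • e j := by
  classical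
  obtain ⟨d, hd⟩ := IsLocalization.exist_integer_multiples (nonZeroDivisors 𝒪)
    (Finset.univ : Finset (Fin n × Fin r)) (fun ji => e ji.1 ji.2)
  choose c hc using fun ji => hd ji (Finset.mem_univ ji)
  refine ⟨d, nonZeroDivisors.ne_zero d.2,
    fun j => (Algebra.TensorProduct.basis 𝒪 b).equivFun.symm (fun i => c (j, i)), fun j => ?_⟩
  funext i
  rw [fracCoord_apply, ← Basis.equivFun_apply, LinearEquiv.apply_symm_apply, hc (j, i),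
    Pi.smul_apply, Algebra.smul_def, smul_eq_mul]

variable {I : Type*} (T : I → Module.End ℤ L)

/-- **transfer of a dimension bound** from the fraction field to `𝒪 ⊗ L` (cardinal form) -/
theorem rank_le_of_eig_le (a : I → 𝒪) (d : ℕ)
    (hd : finrank (FractionRing 𝒪)
      ↥(eig (fun i => LinearMap.toMatrix b b (T i)) (FractionRing 𝒪)
        (fun i => algebraMap 𝒪 (FractionRing 𝒪) (a i))) ≤ d)
    (Λ : Submodule 𝒪 (𝒪 ⊗[ℤ] L))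
    (h : ∀ x ∈ Λ, ∀ i, (T i).baseChange 𝒪 x = a i • x) : Module.rank 𝒪 ↥Λ ≤ (d : Cardinal) := by
  classical
  set K := FractionRing 𝒪
  set E := eig (fun i => LinearMap.toMatrix b b (T i)) K (fun i => algebraMap 𝒪 K (a i)) with hE
  have hmem : ∀ x : ↥Λ, fracCoord b 𝒪 x.1 ∈ E := fun x i => fracCoord_eigen b 𝒪 (T i) (a i) (h x.1 x.2 i)
  let Θ : ↥Λ →ₗ[𝒪] ↥E :=
    { toFun := fun x => ⟨fracCoord b 𝒪 x.1, hmem x⟩
      map_add' := fun x y => Subtype.ext (map_add (fracCoord b 𝒪) x.1 y.1)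
      map_smul' := fun c x => Subtype.ext (map_smul (fracCoord b 𝒪) c x.1) }
  have hΘ : Function.Injective Θ := by
    intro x y hxy
    exact Subtype.ext (fracCoord_injective b 𝒪 (congrArg Subtype.val hxy))
  have h1 := LinearMap.lift_rank_le_of_injective Θ hΘ
  have h2 : Module.rank 𝒪 ↥E = Module.rank K ↥E := (IsFractionRing.rank_right_eq 𝒪 K ↥E).symm
  have h3 : Module.rank K ↥E ≤ (d : Cardinal) := by
    rw [← Module.finrank_eq_rank K ↥E]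
    exact_mod_cast hd
  rw [h2] at h1
  have h4 := h1.trans (Cardinal.lift_le.mpr h3)
  rwa [Cardinal.lift_natCast, Cardinal.lift_le_nat_iff] at h4

/-- **transfer of a dimension bound** from the fraction field to `𝒪 ⊗ L` -/
theorem finrank_le_of_eig_le (a : I → 𝒪) (d : ℕ)
    (hd : finrank (FractionRing 𝒪)
      ↥(eig (fun i => LinearMap.toMatrix b b (T i)) (FractionRing 𝒪)
        (fun i => algebraMap 𝒪 (FractionRing 𝒪) (a i))) ≤ d)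
    (Λ : Submodule 𝒪 (𝒪 ⊗[ℤ] L))
    (h : ∀ x ∈ Λ, ∀ i, (T i).baseChange 𝒪 x = a i • x) : finrank 𝒪 ↥Λ ≤ d :=
  Module.finrank_le_of_rank_le (rank_le_of_eig_le b 𝒪 T a d hd Λ h)

/-- the **full** eigen-submodule of `𝒪 ⊗ L` has the same rank as the eigenspace over the fraction field -/
theorem finrank_eq_of_eig (a : I → 𝒪) (Λ : Submodule 𝒪 (𝒪 ⊗[ℤ] L))
    (h : ∀ x, x ∈ Λ ↔ ∀ i, (T i).baseChange 𝒪 x = a i • x) :
    finrank 𝒪 ↥Λ = finrank (FractionRing 𝒪)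
      ↥(eig (fun i => LinearMap.toMatrix b b (T i)) (FractionRing 𝒪)
        (fun i => algebraMap 𝒪 (FractionRing 𝒪) (a i))) := by
  classical
  set K := FractionRing 𝒪
  set E := eig (fun i => LinearMap.toMatrix b b (T i)) K (fun i => algebraMap 𝒪 K (a i)) with hE
  refine le_antisymm (finrank_le_of_eig_le b 𝒪 T a _ le_rfl Λ fun x hx => (h x).mp hx) ?_
  -- a basis of `E`, cleared of denominators
  set n := finrank K ↥E with hn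
  let e : Basis (Fin n) K ↥E := Module.finBasis K ↥E
  obtain ⟨d, hd0, y, hy⟩ := exists_fracCoord_eq b 𝒪 (fun j => (e j : Fin r → K))
  have hdK : algebraMap 𝒪 K d ≠ 0 := fun h0 =>
    hd0 (IsFractionRing.injective 𝒪 K (h0.trans (map_zero _).symm))
  have hyΛ : ∀ j, y j ∈ Λ := by
    intro j
    rw [h]
    intro i
    rw [fracCoord_eigen_iff b 𝒪, hy j, Matrix.mulVec_smul, (e j).2 i, smul_comm]
  -- independence
  have h1 : LinearIndependent K (fun j => (e j : Fin r → K)) :=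
    e.linearIndependent.map' E.subtype (Submodule.ker_subtype E)
  have h2 : LinearIndependent K (fun j => algebraMap 𝒪 K d • (e j : Fin r → K)) :=
    h1.units_smul (fun _ => Units.mk0 _ hdK)
  have h3 : LinearIndependent 𝒪 (fun j => algebraMap 𝒪 K d • (e j : Fin r → K)) :=
    h2.restrict_scalars' 𝒪
  have h4 : LinearIndependent 𝒪 (fun j => (⟨y j, hyΛ j⟩ : ↥Λ)) := by
    have h5 : LinearIndependent 𝒪 (fun j => fracCoord b 𝒪 (y j)) := by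
      have : (fun j => fracCoord b 𝒪 (y j)) = fun j => algebraMap 𝒪 K d • (e j : Fin r → K) :=
        funext hy
      rw [this]; exact h3
    exact LinearIndependent.of_comp ((fracCoord b 𝒪) ∘ₗ Λ.subtype) h5
  have h6 : (n : Cardinal) ≤ Module.rank 𝒪 ↥Λ := by
    simpa using h4.cardinal_lift_le_rank
  -- the rank of `Λ` is finite
  have h7 : Module.rank 𝒪 ↥Λ < Cardinal.aleph0 :=
    lt_of_le_of_lt (rank_le_of_eig_le b 𝒪 T a n le_rfl Λ fun x hx => (h x).mp hx)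
      (Cardinal.natCast_lt_aleph0)
  have h9 := Cardinal.toNat_le_toNat h6 h7
  rwa [Cardinal.toNat_natCast] at h9

/-- a non-zero eigen-submodule of `𝒪 ⊗ L` gives a non-zero eigenspace over the fraction field -/
theorem finrank_eig_pos_of_ne_bot (a : I → 𝒪) (Λ : Submodule 𝒪 (𝒪 ⊗[ℤ] L))
    (h : ∀ x ∈ Λ, ∀ i, (T i).baseChange 𝒪 x = a i • x) (hne : Λ ≠ ⊥) :
    0 < finrank (FractionRing 𝒪)
      ↥(eig (fun i => LinearMap.toMatrix b b (T i)) (FractionRing 𝒪)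
        (fun i => algebraMap 𝒪 (FractionRing 𝒪) (a i))) := by
  classical
  obtain ⟨x, hx, hx0⟩ := (Submodule.ne_bot_iff Λ).mp hne
  set K := FractionRing 𝒪
  set E := eig (fun i => LinearMap.toMatrix b b (T i)) K (fun i => algebraMap 𝒪 K (a i)) with hE
  have hmem : fracCoord b 𝒪 x ∈ E := fun i => fracCoord_eigen b 𝒪 (T i) (a i) (h x hx i)
  rw [Module.finrank_pos_iff_exists_ne_zero]
  refine ⟨⟨fracCoord b 𝒪 x, hmem⟩, fun h0 => hx0 ?_⟩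
  apply fracCoord_injective b 𝒪
  rw [map_zero]
  exact congrArg Subtype.val h0

end Generic

/-! ### the lattice `L_M` -/

section Special

variable {M : ℕ} [NeZero M]
variable (𝒪 : Type*) [CommRing 𝒪] [IsDomain 𝒪] [CharZero 𝒪]

/-- general form: a bound for the eigenspaces over the fraction field (for the primes `ℓ` with `¬ P ℓ`) gives the
bound for the rank of every submodule of `𝒪 ⊗ L_M` on which these operators act through `a` -/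
theorem finrank_le_of_eigenP (P : ℕ → Prop) (d : ℕ)
    (hd : ∀ a : ℕ → FractionRing 𝒪, finrank (FractionRing 𝒪) ↥(eigHKP M (FractionRing 𝒪) P a) ≤ d)
    (a : ℕ → 𝒪) (Λ : Submodule 𝒪 (𝒪 ⊗[ℤ] ↥(VZ (Gamma0 M))))
    (h : ∀ x ∈ Λ, ∀ (ℓ : ℕ) (hℓ : ℓ.Prime), ¬ P ℓ → (fullL M hℓ).baseChange 𝒪 x = a ℓ • x) :
    finrank 𝒪 ↥Λ ≤ d := by
  set b := Module.finBasis ℤ ↥(VZ (Gamma0 M))
  refine finrank_le_of_eig_le b 𝒪 (fun ℓ : PrimeIdxP P => fullL M ℓ.2.1) (fun ℓ => a ℓ.1) d ?_ Λ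
    (fun x hx ℓ => h x hx ℓ.1 ℓ.2.1 ℓ.2.2)
  have h1 := finrank_eigHKP_eq (P := P) b (FractionRing 𝒪)
    (fun n => algebraMap 𝒪 (FractionRing 𝒪) (a n))
  exact h1 ▸ hd _

/-- **Strong multiplicity one in `𝒪 ⊗ L_M`, one missing prime `p ∤ M`.** -/
theorem finrank_le_two_of_eigen {p : ℕ} (hp : p.Prime) (hpM : ¬ p ∣ M)
    (a : ℕ → 𝒪) (Λ : Submodule 𝒪 (𝒪 ⊗[ℤ] ↥(VZ (Gamma0 M))))
    (h : ∀ x ∈ Λ, ∀ (ℓ : ℕ) (hℓ : ℓ.Prime), ℓ ≠ p → (fullL M hℓ).baseChange 𝒪 x = a ℓ • x) :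
    finrank 𝒪 ↥Λ ≤ 2 :=
  finrank_le_of_eigenP 𝒪 (fun ℓ => ℓ = p) 2
    (fun a' => finrank_eigHKx_le_two (FractionRing 𝒪) hp hpM a') a Λ h

/-- **Strong multiplicity one in `𝒪 ⊗ L_M`, full Hecke algebra.** -/
theorem finrank_le_two_of_eigen_full
    (a : ℕ → 𝒪) (Λ : Submodule 𝒪 (𝒪 ⊗[ℤ] ↥(VZ (Gamma0 M))))
    (h : ∀ x ∈ Λ, ∀ (ℓ : ℕ) (hℓ : ℓ.Prime), (fullL M hℓ).baseChange 𝒪 x = a ℓ • x) :
    finrank 𝒪 ↥Λ ≤ 2 := by
  set b := Module.finBasis ℤ ↥(VZ (Gamma0 M))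
  exact finrank_le_of_eig_le b 𝒪 (fun ℓ : PrimeIdx => fullL M ℓ.2) (fun ℓ => a ℓ.1) 2
    (finrank_eig_fullMat_le_two b (FractionRing 𝒪) _) Λ (fun x hx ℓ => h x hx ℓ.1 ℓ.2)

/-- the FULL eigen-submodule of `𝒪 ⊗ L_M` (primes `ℓ` with `¬ P ℓ`) has the rank of the eigenspace over `Frac 𝒪` -/
theorem finrank_eigenP_eq (P : ℕ → Prop) (a : ℕ → 𝒪) (Λ : Submodule 𝒪 (𝒪 ⊗[ℤ] ↥(VZ (Gamma0 M))))
    (h : ∀ x, x ∈ Λ ↔ ∀ (ℓ : ℕ) (hℓ : ℓ.Prime), ¬ P ℓ → (fullL M hℓ).baseChange 𝒪 x = a ℓ • x) :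
    finrank 𝒪 ↥Λ = finrank (FractionRing 𝒪)
      ↥(eigHKP M (FractionRing 𝒪) P (fun n => algebraMap 𝒪 (FractionRing 𝒪) (a n))) := by
  set b := Module.finBasis ℤ ↥(VZ (Gamma0 M))
  have h1 := finrank_eigHKP_eq (P := P) b (FractionRing 𝒪)
    (fun n => algebraMap 𝒪 (FractionRing 𝒪) (a n))
  rw [h1]
  exact finrank_eq_of_eig b 𝒪 (fun ℓ : PrimeIdxP P => fullL M ℓ.2.1) (fun ℓ => a ℓ.1) Λ
    (fun x => (h x).trans ⟨fun h' ℓ => h' ℓ.1 ℓ.2.1 ℓ.2.2, fun h' ℓ hℓ hP => h' ⟨ℓ, hℓ, hP⟩⟩)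

/-- parity: the full eigen-submodule missing one prime `p ∤ M` has rank `0` or `2` -/
theorem finrank_eigen_eq_zero_or_two {p : ℕ} (hp : p.Prime) (hpM : ¬ p ∣ M)
    (a : ℕ → 𝒪) (Λ : Submodule 𝒪 (𝒪 ⊗[ℤ] ↥(VZ (Gamma0 M))))
    (h : ∀ x, x ∈ Λ ↔ ∀ (ℓ : ℕ) (hℓ : ℓ.Prime), ℓ ≠ p → (fullL M hℓ).baseChange 𝒪 x = a ℓ • x) :
    finrank 𝒪 ↥Λ = 0 ∨ finrank 𝒪 ↥Λ = 2 := by
  rw [finrank_eigenP_eq 𝒪 (fun ℓ => ℓ = p) a Λ h]
  exact finrank_eigHKx_eq_zero_or_two (FractionRing 𝒪) hp hpM _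

/-- **a non-zero full eigen-submodule missing one prime `p ∤ M` has rank exactly `2`** -/
theorem finrank_eigen_eq_two {p : ℕ} (hp : p.Prime) (hpM : ¬ p ∣ M)
    (a : ℕ → 𝒪) (Λ : Submodule 𝒪 (𝒪 ⊗[ℤ] ↥(VZ (Gamma0 M))))
    (h : ∀ x, x ∈ Λ ↔ ∀ (ℓ : ℕ) (hℓ : ℓ.Prime), ℓ ≠ p → (fullL M hℓ).baseChange 𝒪 x = a ℓ • x)
    (hne : Λ ≠ ⊥) : finrank 𝒪 ↥Λ = 2 := by
  rcases finrank_eigen_eq_zero_or_two 𝒪 hp hpM a Λ h with h0 | h2
  · exfalso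
    set b := Module.finBasis ℤ ↥(VZ (Gamma0 M))
    have h1 := finrank_eig_pos_of_ne_bot b 𝒪 (fun ℓ : PrimeIdxP (fun ℓ => ℓ = p) => fullL M ℓ.2.1)
      (fun ℓ => a ℓ.1) Λ (fun x hx ℓ => (h x).mp hx ℓ.1 ℓ.2.1 ℓ.2.2) hne
    have h3 := finrank_eq_of_eig b 𝒪 (fun ℓ : PrimeIdxP (fun ℓ => ℓ = p) => fullL M ℓ.2.1)
      (fun ℓ => a ℓ.1) Λ
      (fun x => (h x).trans ⟨fun h' ℓ => h' ℓ.1 ℓ.2.1 ℓ.2.2, fun h' ℓ hℓ hP => h' ⟨ℓ, hℓ, hP⟩⟩)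
    omega
  · exact h2

/-- the same for the full Hecke algebra -/
theorem finrank_eigen_full_eq_two
    (a : ℕ → 𝒪) (Λ : Submodule 𝒪 (𝒪 ⊗[ℤ] ↥(VZ (Gamma0 M))))
    (h : ∀ x, x ∈ Λ ↔ ∀ (ℓ : ℕ) (hℓ : ℓ.Prime), (fullL M hℓ).baseChange 𝒪 x = a ℓ • x)
    (hne : Λ ≠ ⊥) : finrank 𝒪 ↥Λ = 2 := by
  set b := Module.finBasis ℤ ↥(VZ (Gamma0 M))
  have h1 := finrank_eig_pos_of_ne_bot b 𝒪 (fun ℓ : PrimeIdx => fullL M ℓ.2)
    (fun ℓ => a ℓ.1) Λ (fun x hx ℓ => (h x).mp hx ℓ.1 ℓ.2) hne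
  have h3 := finrank_eq_of_eig b 𝒪 (fun ℓ : PrimeIdx => fullL M ℓ.2)
    (fun ℓ => a ℓ.1) Λ
    (fun x => (h x).trans ⟨fun h' ℓ => h' ℓ.1 ℓ.2, fun h' ℓ hℓ => h' ⟨ℓ, hℓ⟩⟩)
  have h4 := finrank_eigHK_eq b (FractionRing 𝒪) (fun n => algebraMap 𝒪 (FractionRing 𝒪) (a n))
  have h5 := finrank_eigHK_eq_zero_or_two (M := M) (FractionRing 𝒪)
    (fun n => algebraMap 𝒪 (FractionRing 𝒪) (a n))
  rw [h4] at h5
  rcases h5 with h5 | h5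
  · exact (Nat.lt_irrefl 0 (lt_of_lt_of_eq h1 h5)).elim
  · exact h3.trans h5

/-! ### comparison with `tL` (main, `S41lib.BR`) and the `U`-operator on the lattice -/

theorem fullL_eq_tL {ℓ : ℕ} (hℓ : ℓ.Prime) (hℓM : ¬ ℓ ∣ M) :
    fullL M hℓ = S41lib.BR.tL hℓ hℓM := by
  haveI : Fact ℓ.Prime := ⟨hℓ⟩
  refine LinearMap.ext fun v => Subtype.ext ?_
  rw [fullL_coe, S41lib.BR.tL_coe, fullOp_of_not_dvd hℓ hℓM, tOp_eq]

/-- `U_q` on the lattice `L_M` (`q ∣ M`), without instance arguments -/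
def uLat (M : ℕ) [NeZero M] {q : ℕ} (hq : q.Prime) (hqM : q ∣ M) :
    Module.End ℤ ↥(VZ (Gamma0 M)) where
  toFun v := ⟨uOp M hq hqM ℤ v.1, uOp_isParabolicHom hq hqM v.2⟩
  map_add' u v := Subtype.ext (map_add (uOp M hq hqM ℤ) u.1 v.1)
  map_smul' c v := Subtype.ext (uOp_smul hq hqM c v.1)

theorem uLat_coe {q : ℕ} [NeZero q] (hq : q.Prime) (hqM : q ∣ M) (v : ↥(VZ (Gamma0 M))) :
    ((uLat M hq hqM v : ↥(VZ (Gamma0 M))) : H (Gamma0 M) ℤ) = (uData hqM).op ℤ v.1 := rfl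

theorem fullL_eq_uLat {q : ℕ} (hq : q.Prime) (hqM : q ∣ M) : fullL M hq = uLat M hq hqM := by
  refine LinearMap.ext fun v => Subtype.ext ?_
  rw [fullL_coe, fullOp_of_dvd hq hqM]
  rfl

/-- split form, one missing prime `p ∤ M` -/
theorem finrank_le_two_of_eigen_TU {p : ℕ} (hp : p.Prime) (hpM : ¬ p ∣ M)
    (a : ℕ → 𝒪) (Λ : Submodule 𝒪 (𝒪 ⊗[ℤ] ↥(VZ (Gamma0 M))))
    (hT : ∀ x ∈ Λ, ∀ (ℓ : ℕ) (hℓ : ℓ.Prime) (hℓM : ¬ ℓ ∣ M), ℓ ≠ p →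
      (S41lib.BR.tL hℓ hℓM).baseChange 𝒪 x = a ℓ • x)
    (hU : ∀ x ∈ Λ, ∀ (q : ℕ) (hq : q.Prime) (hqM : q ∣ M),
      (uLat M hq hqM).baseChange 𝒪 x = a q • x) :
    finrank 𝒪 ↥Λ ≤ 2 := by
  refine finrank_le_two_of_eigen 𝒪 hp hpM a Λ fun x hx ℓ hℓ hℓp => ?_
  by_cases hℓM : ℓ ∣ M
  · rw [fullL_eq_uLat hℓ hℓM]; exact hU x hx ℓ hℓ hℓM
  · rw [fullL_eq_tL hℓ hℓM]; exact hT x hx ℓ hℓ hℓM hℓp

/-- split form, full Hecke algebra -/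
theorem finrank_le_two_of_eigen_full_TU
    (a : ℕ → 𝒪) (Λ : Submodule 𝒪 (𝒪 ⊗[ℤ] ↥(VZ (Gamma0 M))))
    (hT : ∀ x ∈ Λ, ∀ (ℓ : ℕ) (hℓ : ℓ.Prime) (hℓM : ¬ ℓ ∣ M),
      (S41lib.BR.tL hℓ hℓM).baseChange 𝒪 x = a ℓ • x)
    (hU : ∀ x ∈ Λ, ∀ (q : ℕ) (hq : q.Prime) (hqM : q ∣ M),
      (uLat M hq hqM).baseChange 𝒪 x = a q • x) :
    finrank 𝒪 ↥Λ ≤ 2 := by
  refine finrank_le_two_of_eigen_full 𝒪 a Λ fun x hx ℓ hℓ => ?_
  by_cases hℓM : ℓ ∣ M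
  · rw [fullL_eq_uLat hℓ hℓM]; exact hU x hx ℓ hℓ hℓM
  · rw [fullL_eq_tL hℓ hℓM]; exact hT x hx ℓ hℓ hℓM

/-! ### the eigen-submodule as a definition -/

/-- the eigen-submodule of `𝒪 ⊗ L_M` for the operators at the primes `ℓ` with `¬ P ℓ` -/
def eigO (M : ℕ) [NeZero M] (𝒪 : Type*) [CommRing 𝒪] (P : ℕ → Prop) (a : ℕ → 𝒪) :
    Submodule 𝒪 (𝒪 ⊗[ℤ] ↥(VZ (Gamma0 M))) where
  carrier := {x | ∀ (ℓ : ℕ) (hℓ : ℓ.Prime), ¬ P ℓ → (fullL M hℓ).baseChange 𝒪 x = a ℓ • x}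
  zero_mem' := fun ℓ hℓ _ => by rw [map_zero, smul_zero]
  add_mem' := by
    intro x y hx hy ℓ hℓ hP
    rw [map_add, hx ℓ hℓ hP, hy ℓ hℓ hP, smul_add]
  smul_mem' := by
    intro c x hx ℓ hℓ hP
    rw [map_smul, hx ℓ hℓ hP, smul_comm]

variable {𝒪}

theorem mem_eigO {P : ℕ → Prop} {a : ℕ → 𝒪} {x : 𝒪 ⊗[ℤ] ↥(VZ (Gamma0 M))} :
    x ∈ eigO M 𝒪 P a ↔
      ∀ (ℓ : ℕ) (hℓ : ℓ.Prime), ¬ P ℓ → (fullL M hℓ).baseChange 𝒪 x = a ℓ • x := Iff.rfl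

/-- membership in the vocabulary `tL`, `uLat` -/
theorem mem_eigO_iff_TU {P : ℕ → Prop} {a : ℕ → 𝒪} {x : 𝒪 ⊗[ℤ] ↥(VZ (Gamma0 M))} :
    x ∈ eigO M 𝒪 P a ↔
      (∀ (ℓ : ℕ) (hℓ : ℓ.Prime) (hℓM : ¬ ℓ ∣ M), ¬ P ℓ →
        (S41lib.BR.tL hℓ hℓM).baseChange 𝒪 x = a ℓ • x) ∧
      ∀ (q : ℕ) (hq : q.Prime) (hqM : q ∣ M), ¬ P q → (uLat M hq hqM).baseChange 𝒪 x = a q • x := by
  rw [mem_eigO]
  constructor
  · intro h
    refine ⟨fun ℓ hℓ hℓM hP => ?_, fun q hq hqM hP => ?_⟩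
    · rw [← fullL_eq_tL hℓ hℓM]; exact h ℓ hℓ hP
    · rw [← fullL_eq_uLat hq hqM]; exact h q hq hP
  · rintro ⟨hT, hU⟩ ℓ hℓ hP
    by_cases hℓM : ℓ ∣ M
    · rw [fullL_eq_uLat hℓ hℓM]; exact hU ℓ hℓ hℓM hP
    · rw [fullL_eq_tL hℓ hℓM]; exact hT ℓ hℓ hℓM hP

/-- the eigen-submodule is saturated -/
theorem eigO_saturated (P : ℕ → Prop) (a : ℕ → 𝒪) {c : 𝒪} (hc : c ≠ 0)
    {x : 𝒪 ⊗[ℤ] ↥(VZ (Gamma0 M))} (hx : c • x ∈ eigO M 𝒪 P a) : x ∈ eigO M 𝒪 P a := by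
  set b := Module.finBasis ℤ ↥(VZ (Gamma0 M))
  intro ℓ hℓ hP
  have h1 := (fracCoord_eigen_iff b 𝒪 (fullL M hℓ) (a ℓ) (c • x)).mp (hx ℓ hℓ hP)
  rw [fracCoord_eigen_iff b 𝒪]
  rw [fracCoord_smul, Matrix.mulVec_smul, smul_comm] at h1
  have hcK : algebraMap 𝒪 (FractionRing 𝒪) c ≠ 0 := fun h0 =>
    hc (IsFractionRing.injective 𝒪 (FractionRing 𝒪) (h0.trans (map_zero _).symm))
  exact smul_right_injective _ hcK h1

variable (𝒪)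

theorem finrank_eigO_le_two {p : ℕ} (hp : p.Prime) (hpM : ¬ p ∣ M) (a : ℕ → 𝒪) :
    finrank 𝒪 ↥(eigO M 𝒪 (fun ℓ => ℓ = p) a) ≤ 2 :=
  finrank_le_two_of_eigen 𝒪 hp hpM a _ fun _ hx => hx

theorem finrank_eigO_eq_two {p : ℕ} (hp : p.Prime) (hpM : ¬ p ∣ M) (a : ℕ → 𝒪)
    (hne : eigO M 𝒪 (fun ℓ => ℓ = p) a ≠ ⊥) :
    finrank 𝒪 ↥(eigO M 𝒪 (fun ℓ => ℓ = p) a) = 2 :=
  finrank_eigen_eq_two 𝒪 hp hpM a _ (fun _ => Iff.rfl) hne

theorem finrank_eigO_full_le_two (a : ℕ → 𝒪) :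
    finrank 𝒪 ↥(eigO M 𝒪 (fun _ => False) a) ≤ 2 :=
  finrank_le_two_of_eigen_full 𝒪 a _ fun _ hx ℓ hℓ => hx ℓ hℓ not_false

theorem finrank_eigO_full_eq_two (a : ℕ → 𝒪) (hne : eigO M 𝒪 (fun _ => False) a ≠ ⊥) :
    finrank 𝒪 ↥(eigO M 𝒪 (fun _ => False) a) = 2 :=
  finrank_eigen_full_eq_two 𝒪 a _
    (fun _ => ⟨fun hx ℓ hℓ => hx ℓ hℓ not_false, fun hx ℓ hℓ _ => hx ℓ hℓ⟩) hne

end Special

end Fermat.Agent.S59lib.SMO
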