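/-
S59lib / SMO / TensorN3  (helper4)

Strong multiplicity one for helper2's eigenspaces `N3.eigO 𝒪 M P a ⊆ MO 𝒪 M = 𝒪 ⊗ L_M` (`S59lib/N3/Step`), i.e. in the
vocabulary `tO`, `uO`:

* `n3EigO_eq` : `N3.eigO 𝒪 M P a = SMO.eigO M 𝒪 P a`;
* `finrank_n3EigO_le_two`, `finrank_n3EigO_eq_two` (one missing prime `p ∤ M`) and the `_full` twins (`P = fun _ => False`);
* `hrk_step`, `hrk_step_full` : the hypothesis `hrk` of `N3.eigO_step_eq` / `N3.length_cong_eigO_step`.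
-/
import Mathlib
import Fermat.Agent.S59lib.SMO.Tensor
import Fermat.Agent.S59lib.N3.Step

set_option autoImplicit false
set_option linter.unusedSectionVars false
set_option linter.unusedVariables false
set_option linter.style.haveILetI false

noncomputable section

namespace Fermat.Agent.S59lib.SMO

open CongruenceSubgroup ModularCurve ModularCurve.Period Module TensorProduct
open Fermat.Agent.S16lib.LG
open scoped MatrixGroups

variable {M : ℕ} [NeZero M]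

/-- `uLat` is helper2's `uL` -/
theorem uLat_eq_uL {q : ℕ} [Fact q.Prime] (hq : q.Prime) (hqM : q ∣ M) :
    uLat M hq hqM = N3.uL hqM :=
  LinearMap.ext fun v => Subtype.ext rfl

variable (𝒪 : Type*) [CommRing 𝒪] [IsDomain 𝒪] [CharZero 𝒪]

/-- helper2's eigenspace is the eigen-submodule of `SMO/Tensor` -/
theorem n3EigO_eq (P : ℕ → Prop) (a : ℕ → 𝒪) : N3.eigO 𝒪 M P a = eigO M 𝒪 P a := by
  ext x
  rw [N3.mem_eigO, mem_eigO_iff_TU]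
  constructor
  · rintro ⟨hT, hU⟩
    refine ⟨fun ℓ hℓ hℓM hP => hT ℓ hℓ hℓM hP, fun q hq hqM hP => ?_⟩
    haveI : Fact q.Prime := ⟨hq⟩
    rw [uLat_eq_uL hq hqM]
    exact hU q hq hqM hP
  · rintro ⟨hT, hU⟩
    refine ⟨fun ℓ hℓ hℓM hP => hT ℓ hℓ hℓM hP, fun q hq hqM hP => ?_⟩
    haveI : Fact q.Prime := ⟨hq⟩
    have := hU q hq hqM hP
    rw [uLat_eq_uL hq hqM] at this
    exact this

/-- **strong multiplicity one, one missing prime `p ∤ M`** -/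
theorem finrank_n3EigO_le_two {p : ℕ} (hp : p.Prime) (hpM : ¬ p ∣ M) (a : ℕ → 𝒪) :
    finrank 𝒪 ↥(N3.eigO 𝒪 M (fun ℓ => ℓ = p) a) ≤ 2 := by
  rw [n3EigO_eq]
  exact finrank_eigO_le_two 𝒪 hp hpM a

theorem finrank_n3EigO_eq_two {p : ℕ} (hp : p.Prime) (hpM : ¬ p ∣ M) (a : ℕ → 𝒪)
    (hne : N3.eigO 𝒪 M (fun ℓ => ℓ = p) a ≠ ⊥) :
    finrank 𝒪 ↥(N3.eigO 𝒪 M (fun ℓ => ℓ = p) a) = 2 := by
  rw [n3EigO_eq] at hne ⊢
  exact finrank_eigO_eq_two 𝒪 hp hpM a hne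

/-- **strong multiplicity one, full Hecke algebra** -/
theorem finrank_n3EigO_full_le_two (a : ℕ → 𝒪) :
    finrank 𝒪 ↥(N3.eigO 𝒪 M (fun _ => False) a) ≤ 2 := by
  rw [n3EigO_eq]
  exact finrank_eigO_full_le_two 𝒪 a

theorem finrank_n3EigO_full_eq_two (a : ℕ → 𝒪)
    (hne : N3.eigO 𝒪 M (fun _ => False) a ≠ ⊥) :
    finrank 𝒪 ↥(N3.eigO 𝒪 M (fun _ => False) a) = 2 := by
  rw [n3EigO_eq] at hne ⊢
  exact finrank_eigO_full_eq_two 𝒪 a hne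

/-- the hypothesis `hrk` of `N3.eigO_step_eq` (one missing prime `p ∤ N`, `q ≠ p`) -/
theorem hrk_step {N q p : ℕ} [NeZero N] [Fact q.Prime] [NeZero (N * q * q)] (hp : p.Prime)
    (hpN : ¬ p ∣ N) (hqp : q ≠ p) (a a' : ℕ → 𝒪)
    (hne : N3.eigO 𝒪 N (fun ℓ => ℓ = p) a ≠ ⊥) :
    finrank 𝒪 ↥(N3.eigO 𝒪 (N * q * q) (fun ℓ => ℓ = p) a') ≤
      finrank 𝒪 ↥(N3.eigO 𝒪 N (fun ℓ => ℓ = p) a) := by
  rw [finrank_n3EigO_eq_two 𝒪 hp hpN a hne]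
  refine finrank_n3EigO_le_two 𝒪 hp (fun h => ?_) a'
  have hpq : ¬ p ∣ q := fun h' =>
    hqp ((Nat.prime_dvd_prime_iff_eq hp (Fact.out : q.Prime)).mp h').symm
  rcases hp.dvd_mul.mp h with h1 | h1
  · rcases hp.dvd_mul.mp h1 with h2 | h2
    · exact hpN h2
    · exact hpq h2
  · exact hpq h1

/-- the hypothesis `hrk` of `N3.eigO_step_eq` (full Hecke algebra) -/
theorem hrk_step_full {N q : ℕ} [NeZero N] [NeZero (N * q * q)] (a a' : ℕ → 𝒪)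
    (hne : N3.eigO 𝒪 N (fun _ => False) a ≠ ⊥) :
    finrank 𝒪 ↥(N3.eigO 𝒪 (N * q * q) (fun _ => False) a') ≤
      finrank 𝒪 ↥(N3.eigO 𝒪 N (fun _ => False) a) := by
  rw [finrank_n3EigO_full_eq_two 𝒪 a hne]
  exact finrank_n3EigO_full_le_two 𝒪 a'

end Fermat.Agent.S59lib.SMO
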