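/-
S59lib / SMO / ALgen  (helper4)

**Strong multiplicity one for a Hecke algebra missing an ARBITRARY set `P` of primes, from the Atkin–Lehner vanishing
statement for `P`** (`ALHyp M P` : a cusp form of level `M` whose `q`-expansion is supported on the integers divisible by
some prime of `P` vanishes).  `alHyp_single` is `SMO/ALp` (one prime `p ∤ M`); the case `P = {p, r}` (AL₂) is the special
case `D = {p, r}` of the weak Atkin–Lehner theorem (D1) of `R7b/ALD`.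

* `finrank_eigSP_le_one_of_AL`, `finrank_eigHKP_le_two_of_AL`, `finrank_eigHKP_eq_zero_or_two_of_AL`;
* `finrank_eigO_le_two_of_AL`, `finrank_eigO_eq_two_of_AL`, and the same for helper2's `N3.eigO`
  (`finrank_n3EigO_le_two_of_AL`, `finrank_n3EigO_eq_two_of_AL`, `hrk_step_of_AL`).
-/
import Mathlib
import Fermat.Agent.S59lib.SMO.TensorN3

set_option autoImplicit false
set_option linter.unusedSectionVars false
set_option linter.unusedVariables false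
set_option linter.style.haveILetI false

noncomputable section

namespace Fermat.Agent.S59lib.SMO

open CongruenceSubgroup ModularCurve ModularCurve.Period Module Matrix ModularFormClass TensorProduct
open Fermat.Agent.S41lib.HC Fermat.Agent.S43lib.B1 Fermat.Agent.S16lib.LG
open Fermat.Agent.S16lib.LH Fermat.Agent.Helper8
open scoped MatrixGroups

variable {M : ℕ} [NeZero M] {P : ℕ → Prop}

/-- **the Atkin–Lehner vanishing statement for the set of primes `P`**: a cusp form of level `M` whose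
`q`-expansion vanishes at every `n` prime to `P` is zero -/
def ALHyp (M : ℕ) [NeZero M] (P : ℕ → Prop) : Prop :=
  ∀ f : CuspForm (Gamma0 M) 2,
    (∀ n : ℕ, (∀ ℓ : ℕ, ℓ.Prime → ℓ ∣ n → ¬ P ℓ) → qCoeff ⇑f n = 0) → f = 0

/-- Atkin–Lehner for one prime `p ∤ M` (`SMO/ALp`) -/
theorem alHyp_single {p : ℕ} (hp : p.Prime) (hpM : ¬ p ∣ M) : ALHyp M (fun ℓ => ℓ = p) := by
  intro f hf
  refine eq_zero_of_qCoeff_coprime hp hpM f fun n hn => hf n fun ℓ hℓ hℓn hℓp => ?_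
  exact hn (hℓp ▸ hℓn)

/-- the form of `ALHyp` for two primes -/
theorem alHyp_pair {p r : ℕ}
    (h : ∀ f : CuspForm (Gamma0 M) 2, (∀ n, ¬ p ∣ n → ¬ r ∣ n → qCoeff ⇑f n = 0) → f = 0) :
    ALHyp M (fun ℓ => ℓ = p ∨ ℓ = r) := by
  intro f hf
  refine h f fun n hp hr => ?_
  by_cases hn : n = 0
  · rw [hn]; exact qCoeff_cusp_zero f
  refine hf n fun ℓ hℓ hℓn hP => ?_
  rcases hP with rfl | rfl
  · exact hp hℓn
  · exact hr hℓn

/-- the form of `ALHyp` for a finite set of primes -/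
theorem alHyp_finset (D : Finset ℕ)
    (h : ∀ f : CuspForm (Gamma0 M) 2, (∀ n, (∀ q ∈ D, ¬ q ∣ n) → qCoeff ⇑f n = 0) → f = 0) :
    ALHyp M (fun ℓ => ℓ ∈ D) := by
  intro f hf
  refine h f fun n hn => ?_
  exact hf n fun ℓ hℓ hℓn hP => hn ℓ hP hℓn

variable (hAL : ALHyp M P)

include hAL

theorem finrank_eigSP_le_one_of_AL (a : ℕ → ℂ) : finrank ℂ ↥(eigSP M P a) ≤ 1 := by
  refine finrank_eigSP_le_one_of fun f hf h1 => ?_
  exact hAL f fun n hn => qCoeff_eq_zero_of_one hf h1 n hn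

variable (K : Type*) [Field K] [CharZero K]

theorem finrank_eigHKP_le_two_of_AL (a : ℕ → K) : finrank K ↥(eigHKP M K P a) ≤ 2 := by
  refine finrank_eigHKP_of_complex K (fun d => d ≤ 2) (Nat.zero_le 2) (fun a' => ?_) a
  have := finrank_eigSP_le_one_of_AL hAL a'
  omega

theorem finrank_eigHKP_eq_zero_or_two_of_AL (a : ℕ → K) :
    finrank K ↥(eigHKP M K P a) = 0 ∨ finrank K ↥(eigHKP M K P a) = 2 := by
  refine finrank_eigHKP_of_complex K (fun d => d = 0 ∨ d = 2) (Or.inl rfl) (fun a' => ?_) a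
  have := finrank_eigSP_le_one_of_AL hAL a'
  omega

variable (𝒪 : Type*) [CommRing 𝒪] [IsDomain 𝒪] [CharZero 𝒪]

/-- **strong multiplicity one in `𝒪 ⊗ L_M` for the Hecke algebra missing the primes of `P`** -/
theorem finrank_le_two_of_eigen_of_AL (a : ℕ → 𝒪) (Λ : Submodule 𝒪 (𝒪 ⊗[ℤ] ↥(VZ (Gamma0 M))))
    (h : ∀ x ∈ Λ, ∀ (ℓ : ℕ) (hℓ : ℓ.Prime), ¬ P ℓ → (fullL M hℓ).baseChange 𝒪 x = a ℓ • x) :
    finrank 𝒪 ↥Λ ≤ 2 :=
  finrank_le_of_eigenP 𝒪 P 2 (fun a' => finrank_eigHKP_le_two_of_AL hAL (FractionRing 𝒪) a') a Λ h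

theorem finrank_eigO_le_two_of_AL (a : ℕ → 𝒪) : finrank 𝒪 ↥(eigO M 𝒪 P a) ≤ 2 :=
  finrank_le_two_of_eigen_of_AL hAL 𝒪 a _ fun _ hx => hx

theorem finrank_eigO_eq_two_of_AL (a : ℕ → 𝒪) (hne : eigO M 𝒪 P a ≠ ⊥) :
    finrank 𝒪 ↥(eigO M 𝒪 P a) = 2 := by
  have h := finrank_eigenP_eq 𝒪 P a (eigO M 𝒪 P a) (fun _ => Iff.rfl)
  rcases finrank_eigHKP_eq_zero_or_two_of_AL hAL (FractionRing 𝒪)
    (fun n => algebraMap 𝒪 (FractionRing 𝒪) (a n)) with h0 | h2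
  · exfalso
    set b := Module.finBasis ℤ ↥(VZ (Gamma0 M))
    have h1 := finrank_eig_pos_of_ne_bot b 𝒪 (fun ℓ : PrimeIdxP P => fullL M ℓ.2.1)
      (fun ℓ => a ℓ.1) (eigO M 𝒪 P a) (fun x hx ℓ => hx ℓ.1 ℓ.2.1 ℓ.2.2) hne
    have h3 := finrank_eq_of_eig b 𝒪 (fun ℓ : PrimeIdxP P => fullL M ℓ.2.1)
      (fun ℓ => a ℓ.1) (eigO M 𝒪 P a)
      (fun x => ⟨fun h' ℓ => h' ℓ.1 ℓ.2.1 ℓ.2.2, fun h' ℓ hℓ hP => h' ⟨ℓ, hℓ, hP⟩⟩)
    rw [← h3, h, h0] at h1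
    exact lt_irrefl 0 h1
  · rw [h, h2]

theorem finrank_n3EigO_le_two_of_AL (a : ℕ → 𝒪) : finrank 𝒪 ↥(N3.eigO 𝒪 M P a) ≤ 2 := by
  rw [n3EigO_eq]
  exact finrank_eigO_le_two_of_AL hAL 𝒪 a

theorem finrank_n3EigO_eq_two_of_AL (a : ℕ → 𝒪) (hne : N3.eigO 𝒪 M P a ≠ ⊥) :
    finrank 𝒪 ↥(N3.eigO 𝒪 M P a) = 2 := by
  rw [n3EigO_eq] at hne ⊢
  exact finrank_eigO_eq_two_of_AL hAL 𝒪 a hne

omit hAL in
/-- the hypothesis `hrk` of `N3.eigO_step_eq` for the Hecke algebra missing the primes of `P`, from the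
Atkin–Lehner statements at the two levels -/
theorem hrk_step_of_AL {N q : ℕ} [NeZero N] [NeZero (N * q * q)] (hN : ALHyp N P)
    (hNq : ALHyp (N * q * q) P) (a a' : ℕ → 𝒪) (hne : N3.eigO 𝒪 N P a ≠ ⊥) :
    finrank 𝒪 ↥(N3.eigO 𝒪 (N * q * q) P a') ≤ finrank 𝒪 ↥(N3.eigO 𝒪 N P a) := by
  rw [finrank_n3EigO_eq_two_of_AL hN 𝒪 a hne]
  exact finrank_n3EigO_le_two_of_AL hNq 𝒪 a'

end Fermat.Agent.S59lib.SMO
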