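/-
S59lib / SMO / AL2  (helper4)

**Strong multiplicity one for the Hecke algebra missing a finite set `D` of primes not dividing the level — unconditional.**
Glue of `SMO/ALgen` (multiplicity one from the Atkin–Lehner vanishing statement `ALHyp M P`) with helper1's
`R7b/ALD/Base` (`eq_zero_of_qCoeff_coprime_finset`, `eq_zero_of_qCoeff_coprime_two`).

* `alHyp_of_finset`, `alHyp_two` : the Atkin–Lehner statements themselves;
* `finrank_n3EigO_le_two_two`, `finrank_n3EigO_eq_two_two`, `hrk_step_two` : the rank statements for helper2's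
  `N3.eigO 𝒪 M P a` with `P ℓ := ℓ = p ∨ ℓ = r` (`p, r ∤ M` primes) — the input `AL₂` of HS5;
* the same for `P ℓ := ℓ ∈ D`.
-/
import Mathlib
import Fermat.Agent.S59lib.SMO.ALgen
import Fermat.Agent.S59lib.R7b.ALD.Base

set_option autoImplicit false
set_option linter.unusedSectionVars false
set_option linter.unusedVariables false
set_option linter.style.haveILetI false

noncomputable section

namespace Fermat.Agent.S59lib.SMO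

open CongruenceSubgroup ModularCurve ModularCurve.Period Module Matrix ModularFormClass TensorProduct
open Fermat.Agent.S41lib.HC Fermat.Agent.S43lib.B1 Fermat.Agent.S16lib.LG
open Fermat.Agent.S16lib.LH Fermat.Agent.Helper8
open scoped MatrixGroups

variable {M : ℕ} [NeZero M]

/-- **Atkin–Lehner for a finite set of primes not dividing the level** (helper1's `R7b/ALD/Base`) -/
theorem alHyp_of_finset (D : Finset ℕ) (hD : ∀ q ∈ D, q.Prime ∧ ¬ q ∣ M) :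
    ALHyp M (fun ℓ => ℓ ∈ D) :=
  alHyp_finset D fun f hf => R7b.ALD.eq_zero_of_qCoeff_coprime_finset D M hD f hf

/-- **AL₂** : Atkin–Lehner for two primes not dividing the level -/
theorem alHyp_two {p r : ℕ} (hp : p.Prime) (hr : r.Prime) (hpM : ¬ p ∣ M) (hrM : ¬ r ∣ M) :
    ALHyp M (fun ℓ => ℓ = p ∨ ℓ = r) :=
  alHyp_pair fun f hf => R7b.ALD.eq_zero_of_qCoeff_coprime_two hp hr hpM hrM f hf

variable (𝒪 : Type*) [CommRing 𝒪] [IsDomain 𝒪] [CharZero 𝒪]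

section two

variable {p r : ℕ} (hp : p.Prime) (hr : r.Prime) (hpM : ¬ p ∣ M) (hrM : ¬ r ∣ M)

include hp hr hpM hrM

theorem finrank_eigO_le_two_two (a : ℕ → 𝒪) :
    finrank 𝒪 ↥(eigO M 𝒪 (fun ℓ => ℓ = p ∨ ℓ = r) a) ≤ 2 :=
  finrank_eigO_le_two_of_AL (alHyp_two hp hr hpM hrM) 𝒪 a

theorem finrank_eigO_eq_two_two (a : ℕ → 𝒪) (hne : eigO M 𝒪 (fun ℓ => ℓ = p ∨ ℓ = r) a ≠ ⊥) :
    finrank 𝒪 ↥(eigO M 𝒪 (fun ℓ => ℓ = p ∨ ℓ = r) a) = 2 :=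
  finrank_eigO_eq_two_of_AL (alHyp_two hp hr hpM hrM) 𝒪 a hne

/-- **the rank input of HS5** : the eigenspace of the Hecke algebra missing `T_p, T_r` (`p, r ∤ M`) has rank `≤ 2` -/
theorem finrank_n3EigO_le_two_two (a : ℕ → 𝒪) :
    finrank 𝒪 ↥(N3.eigO 𝒪 M (fun ℓ => ℓ = p ∨ ℓ = r) a) ≤ 2 :=
  finrank_n3EigO_le_two_of_AL (alHyp_two hp hr hpM hrM) 𝒪 a

theorem finrank_n3EigO_eq_two_two (a : ℕ → 𝒪)
    (hne : N3.eigO 𝒪 M (fun ℓ => ℓ = p ∨ ℓ = r) a ≠ ⊥) :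
    finrank 𝒪 ↥(N3.eigO 𝒪 M (fun ℓ => ℓ = p ∨ ℓ = r) a) = 2 :=
  finrank_n3EigO_eq_two_of_AL (alHyp_two hp hr hpM hrM) 𝒪 a hne

end two

section finset

variable (D : Finset ℕ) (hD : ∀ q ∈ D, q.Prime ∧ ¬ q ∣ M)

include hD

theorem finrank_eigO_le_two_finset (a : ℕ → 𝒪) :
    finrank 𝒪 ↥(eigO M 𝒪 (fun ℓ => ℓ ∈ D) a) ≤ 2 :=
  finrank_eigO_le_two_of_AL (alHyp_of_finset D hD) 𝒪 a

theorem finrank_eigO_eq_two_finset (a : ℕ → 𝒪) (hne : eigO M 𝒪 (fun ℓ => ℓ ∈ D) a ≠ ⊥) :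
    finrank 𝒪 ↥(eigO M 𝒪 (fun ℓ => ℓ ∈ D) a) = 2 :=
  finrank_eigO_eq_two_of_AL (alHyp_of_finset D hD) 𝒪 a hne

theorem finrank_n3EigO_le_two_finset (a : ℕ → 𝒪) :
    finrank 𝒪 ↥(N3.eigO 𝒪 M (fun ℓ => ℓ ∈ D) a) ≤ 2 :=
  finrank_n3EigO_le_two_of_AL (alHyp_of_finset D hD) 𝒪 a

theorem finrank_n3EigO_eq_two_finset (a : ℕ → 𝒪) (hne : N3.eigO 𝒪 M (fun ℓ => ℓ ∈ D) a ≠ ⊥) :
    finrank 𝒪 ↥(N3.eigO 𝒪 M (fun ℓ => ℓ ∈ D) a) = 2 :=
  finrank_n3EigO_eq_two_of_AL (alHyp_of_finset D hD) 𝒪 a hne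

end finset

/-- the hypothesis `hrk` of `N3.eigO_step_eq` for the Hecke algebra missing `T_p, T_r`; `p, r ∤ N q` -/
theorem hrk_step_two {N q : ℕ} [NeZero N] [NeZero (N * q * q)] {p r : ℕ} (hp : p.Prime) (hr : r.Prime)
    (hpN : ¬ p ∣ N) (hrN : ¬ r ∣ N) (hpq : ¬ p ∣ q) (hrq : ¬ r ∣ q) (a a' : ℕ → 𝒪)
    (hne : N3.eigO 𝒪 N (fun ℓ => ℓ = p ∨ ℓ = r) a ≠ ⊥) :
    finrank 𝒪 ↥(N3.eigO 𝒪 (N * q * q) (fun ℓ => ℓ = p ∨ ℓ = r) a') ≤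
      finrank 𝒪 ↥(N3.eigO 𝒪 N (fun ℓ => ℓ = p ∨ ℓ = r) a) := by
  have h1 : ∀ {s : ℕ}, s.Prime → ¬ s ∣ N → ¬ s ∣ q → ¬ s ∣ N * q * q := by
    intro s hs h1 h2 h3
    rcases (Nat.Prime.dvd_mul hs).mp h3 with h | h
    · rcases (Nat.Prime.dvd_mul hs).mp h with h | h
      · exact h1 h
      · exact h2 h
    · exact h2 h
  exact hrk_step_of_AL 𝒪 (alHyp_two hp hr hpN hrN) (alHyp_two hp hr (h1 hp hpN hpq) (h1 hr hrN hrq))
    a a' hne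

end Fermat.Agent.S59lib.SMO
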