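/-
S59lib / SMO / R4  (helper4)

**(R4-1) : the rank of the anemic eigenspace doubles when an anemic prime `r ∤ M` is added to the level.**

`D` a finite set of primes not dividing `M`, `r ∈ D`, `P := (· ∈ D)` the dropped primes.  If the system `a` occurs at level
`M` then

* forms:       `eigSP (M r) P a' ≃ eigSP M P a' × eigSP M P a'`, `(x, y) ↦ x + V_r y`  (`finrank_eigSP_mul`);
* cohomology:  `finrank K (eigHKP (M r) K P a) = 2 * finrank K (eigHKP M K P a)`        (`finrank_eigHKP_mul`);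
* lattices:    `finrank 𝒪 (N3.eigO 𝒪 (M r) P a) = 2 * finrank 𝒪 (N3.eigO 𝒪 M P a)`       (`finrank_n3EigO_mul`).

Ingredients: `SMO/OldP` (every eigenform of level `M r` is `r`-old: helper1's (D1)), Atkin–Lehner for one prime (`SMO/ALp`:
injectivity of `(x, y) ↦ x + V_r y`), the commutation of `V_r` with the Hecke operators away from `r`, and the transport
`SMO/Transport`.
-/
import Mathlib
import Fermat.Agent.S59lib.SMO.OldP
import Fermat.Agent.S59lib.R7b.ALD.Eigen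
import Fermat.Agent.S59lib.SMO.TensorN3

set_option autoImplicit false
set_option linter.unusedSectionVars false
set_option linter.unusedVariables false
set_option linter.style.haveILetI false

noncomputable section

namespace Fermat.Agent.S59lib.SMO

open CongruenceSubgroup ModularCurve ModularCurve.Period Module Matrix ModularFormClass UpperHalfPlane
open Fermat.Agent.S41lib.HC Fermat.Agent.S43lib.B1 Fermat.Agent.S16lib.LG
open Fermat.Agent.S16lib.LH Fermat.Agent.Helper8 Fermat.Agent.S59lib.R7b.ALD ModularForm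
open scoped MatrixGroups ModularForm

variable {M p : ℕ} [NeZero M] [NeZero (M * p)]

/-! ### commutation of `incl`, `V_p` with the Hecke operators away from `p` -/

section Comm

variable (hp : p.Prime)

include hp

theorem heckeTLin_incl {ℓ : ℕ} (hℓ : ℓ.Prime) (hℓM : ¬ ℓ ∣ M) (hℓMp : ¬ ℓ ∣ M * p)
    (x : CuspForm (Gamma0 M) 2) :
    CuspForm.heckeTLin 2 hℓ hℓMp (incl (dvd_mul_right M p) 2 x) =
      incl (dvd_mul_right M p) 2 (CuspForm.heckeTLin 2 hℓ hℓM x) := by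
  apply DFunLike.coe_injective
  rw [CuspForm.coe_heckeTLin_apply, coe_incl, coe_incl, CuspForm.coe_heckeTLin_apply]

theorem heckeTLin_vOp [NeZero p] {ℓ : ℕ} (hℓ : ℓ.Prime) (hℓM : ¬ ℓ ∣ M) (hℓMp : ¬ ℓ ∣ M * p)
    (y : CuspForm (Gamma0 M) 2) :
    CuspForm.heckeTLin 2 hℓ hℓMp (vOp M p 2 y) = vOp M p 2 (CuspForm.heckeTLin 2 hℓ hℓM y) := by
  have hℓp : ℓ ≠ p := fun h => hℓMp (h ▸ dvd_mul_left ℓ M)
  apply DFunLike.coe_injective
  rw [CuspForm.coe_heckeTLin_apply, coe_vOp, coe_vOp, CuspForm.coe_heckeTLin_apply]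
  have := heckeT_vF hℓ hp hℓp hℓM (coe_mem_cf y)
  simpa using this

theorem heckeULin_incl {q : ℕ} (hq : q.Prime) (hqM : q ∣ M) (hqMp : q ∣ M * p)
    (x : CuspForm (Gamma0 M) 2) :
    CuspForm.heckeULin 2 hqMp (incl (dvd_mul_right M p) 2 x) =
      incl (dvd_mul_right M p) 2 (CuspForm.heckeULin 2 hqM x) := by
  apply DFunLike.coe_injective
  rw [CuspForm.coe_heckeULin_apply, coe_incl, coe_incl, CuspForm.coe_heckeULin_apply]

theorem heckeULin_vOp [NeZero p] {q : ℕ} (hq : q.Prime) (hqp : q ≠ p) (hqM : q ∣ M) (hqMp : q ∣ M * p)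
    (y : CuspForm (Gamma0 M) 2) :
    CuspForm.heckeULin 2 hqMp (vOp M p 2 y) = vOp M p 2 (CuspForm.heckeULin 2 hqM y) := by
  have hcop : Nat.Coprime p q := (Nat.coprime_primes hp hq).mpr hqp.symm
  rw [← sub_eq_zero]
  apply eq_zero_of_qCoeff_eq_zero
  intro n
  rw [qCoeff_sub, qCoeff_heckeULin hq, qCoeff_vOp, coeffHeckeU_apply, qCoeff_vOp, qCoeff_heckeULin hq,
    coeffHeckeU_apply]
  have e1 : p ∣ n * q ↔ p ∣ n := hcop.dvd_mul_right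
  by_cases hpn : p ∣ n
  · obtain ⟨m, rfl⟩ := hpn
    have e2 : p * m * q / p = m * q := by rw [mul_assoc, Nat.mul_div_cancel_left _ hp.pos]
    have e3 : p * m / p = m := Nat.mul_div_cancel_left _ hp.pos
    rw [if_pos (e1.mpr (Dvd.intro m rfl)), if_pos (Dvd.intro m rfl), e2, e3, sub_self]
  · rw [if_neg (fun h => hpn (e1.mp h)), if_neg hpn, sub_self]

end Comm

/-! ### the eigenspaces -/

section Eig

variable {P : ℕ → Prop} (hp : p.Prime) (hPp : P p)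

include hp hPp

/-- `V_p` maps the eigenspace of level `M` to the eigenspace of level `M p` -/
theorem vOp_mem_eigSP [NeZero p] {a : ℕ → ℂ} {g : CuspForm (Gamma0 M) 2} (hg : g ∈ eigSP M P a) :
    vOp M p 2 g ∈ eigSP (M * p) P a := by
  refine ⟨fun ℓ hℓ hℓMp hPℓ => ?_, fun q hq hqMp hPq => ?_⟩
  · have hℓM : ¬ ℓ ∣ M := fun h => hℓMp (h.trans (dvd_mul_right M p))
    rw [heckeTLin_vOp hp hℓ hℓM hℓMp, hg.1 ℓ hℓ hℓM hPℓ, map_smul]
  · have hqp : q ≠ p := fun h => hPq (h ▸ hPp)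
    have hqM : q ∣ M := by
      rcases (Nat.Prime.dvd_mul hq).mp hqMp with h | h
      · exact h
      · exact absurd ((Nat.prime_dvd_prime_iff_eq hq hp).mp h) hqp
    rw [heckeULin_vOp hp hq hqp hqM hqMp, hg.2 q hq hqM hPq, map_smul]

omit hPp in
/-- `(x, y) ↦ x + V_p y` is injective (Atkin–Lehner at `p ∤ M`) -/
theorem eq_zero_of_incl_add_vOp [NeZero p] (hpM : ¬ p ∣ M) {x y : CuspForm (Gamma0 M) 2}
    (h : incl (dvd_mul_right M p) 2 x + vOp M p 2 y = 0) : x = 0 ∧ y = 0 := by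
  have hq : ∀ n, qCoeff ⇑x n + (if p ∣ n then (p : ℂ) ^ ((2 : ℤ) - 1) * qCoeff ⇑y (n / p) else 0) = 0 := by
    intro n
    have := congrArg (fun v : CuspForm (Gamma0 (M * p)) 2 => qCoeff ⇑v n) h
    simp only [qCoeff_add, qCoeff_incl, qCoeff_vOp, qCoeff_zero'] at this
    exact this
  have hx : x = 0 := by
    refine eq_zero_of_qCoeff_coprime hp hpM x fun n hn => ?_
    have := hq n
    rwa [if_neg hn, add_zero] at this
  refine ⟨hx, ?_⟩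
  apply eq_zero_of_qCoeff_eq_zero
  intro n
  have := hq (p * n)
  rw [hx, qCoeff_zero', zero_add, if_pos (Dvd.intro n rfl), Nat.mul_div_cancel_left _ hp.pos] at this
  have h3 : ((p : ℂ)) ^ ((2 : ℤ) - 1) = (p : ℂ) := by norm_num
  rw [h3] at this
  have hp0 : (p : ℂ) ≠ 0 := by exact_mod_cast hp.ne_zero
  exact (mul_eq_zero.mp this).resolve_left hp0

/-- the components of an eigenform `x + V_p y` are eigenforms -/
theorem mem_eigSP_of_incl_add_vOp [NeZero p] (hpM : ¬ p ∣ M) {a : ℕ → ℂ} {x y : CuspForm (Gamma0 M) 2}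
    (h : incl (dvd_mul_right M p) 2 x + vOp M p 2 y ∈ eigSP (M * p) P a) :
    x ∈ eigSP M P a ∧ y ∈ eigSP M P a := by
  have key1 : ∀ (ℓ : ℕ) (hℓ : ℓ.Prime) (hℓM : ¬ ℓ ∣ M), ¬ P ℓ →
      CuspForm.heckeTLin 2 hℓ hℓM x - a ℓ • x = 0 ∧ CuspForm.heckeTLin 2 hℓ hℓM y - a ℓ • y = 0 := by
    intro ℓ hℓ hℓM hPℓ
    have hℓp : ℓ ≠ p := fun h' => hPℓ (h' ▸ hPp)
    have hℓMp : ¬ ℓ ∣ M * p := by
      intro h'
      rcases (Nat.Prime.dvd_mul hℓ).mp h' with h' | h'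
      · exact hℓM h'
      · exact hℓp ((Nat.prime_dvd_prime_iff_eq hℓ hp).mp h')
    apply eq_zero_of_incl_add_vOp hp hpM
    have := h.1 ℓ hℓ hℓMp hPℓ
    rw [map_add, heckeTLin_incl hp hℓ hℓM hℓMp, heckeTLin_vOp hp hℓ hℓM hℓMp, smul_add] at this
    rw [map_sub, map_sub, map_smul, map_smul, sub_add_sub_comm, this, sub_self]
  have key2 : ∀ (q : ℕ) (hq : q.Prime) (hqM : q ∣ M), ¬ P q →
      CuspForm.heckeULin 2 hqM x - a q • x = 0 ∧ CuspForm.heckeULin 2 hqM y - a q • y = 0 := by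
    intro q hq hqM hPq
    have hqp : q ≠ p := fun h' => hPq (h' ▸ hPp)
    have hqMp : q ∣ M * p := hqM.trans (dvd_mul_right M p)
    apply eq_zero_of_incl_add_vOp hp hpM
    have := h.2 q hq hqMp hPq
    rw [map_add, heckeULin_incl hp hq hqM hqMp, heckeULin_vOp hp hq hqp hqM hqMp, smul_add] at this
    rw [map_sub, map_sub, map_smul, map_smul, sub_add_sub_comm, this, sub_self]
  exact ⟨⟨fun ℓ hℓ hℓM hPℓ => sub_eq_zero.mp (key1 ℓ hℓ hℓM hPℓ).1,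
      fun q hq hqM hPq => sub_eq_zero.mp (key2 q hq hqM hPq).1⟩,
    ⟨fun ℓ hℓ hℓM hPℓ => sub_eq_zero.mp (key1 ℓ hℓ hℓM hPℓ).2,
      fun q hq hqM hPq => sub_eq_zero.mp (key2 q hq hqM hPq).2⟩⟩

end Eig

/-! ### the doubling of the dimension -/

section Double

variable (D : Finset ℕ) (hD : ∀ q ∈ D, q.Prime ∧ ¬ q ∣ M) (hpD : p ∈ D)

include hD hpD

/-- **forms** : `eigSP (M p) ≃ eigSP M × eigSP M` when the system occurs at level `M` -/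
theorem finrank_eigSP_mul {a' : ℕ → ℂ} (hne : eigSP M (fun ℓ => ℓ ∈ D) a' ≠ ⊥) :
    finrank ℂ ↥(eigSP (M * p) (fun ℓ => ℓ ∈ D) a') = 2 * finrank ℂ ↥(eigSP M (fun ℓ => ℓ ∈ D) a') := by
  have hp : p.Prime := (hD p hpD).1
  have hpM : ¬ p ∣ M := (hD p hpD).2
  haveI : NeZero p := ⟨hp.ne_zero⟩
  set E := eigSP M (fun ℓ => ℓ ∈ D) a' with hE
  set E' := eigSP (M * p) (fun ℓ => ℓ ∈ D) a' with hE'
  let Φ₀ : (↥E × ↥E) →ₗ[ℂ] CuspForm (Gamma0 (M * p)) 2 :=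
    ((incl (dvd_mul_right M p) 2).comp E.subtype).coprod ((vOp M p 2).comp E.subtype)
  have hΦ₀ : ∀ z : ↥E × ↥E, Φ₀ z = incl (dvd_mul_right M p) 2 (z.1 : CuspForm (Gamma0 M) 2) +
      vOp M p 2 (z.2 : CuspForm (Gamma0 M) 2) := fun z => by
    simp [Φ₀, LinearMap.coprod_apply]
  have hmem : ∀ z, Φ₀ z ∈ E' := fun z => by
    rw [hΦ₀]
    exact Submodule.add_mem _ (incl_mem_eigSP hp hpD z.1.2) (vOp_mem_eigSP hp hpD z.2.2)
  let Φ : (↥E × ↥E) →ₗ[ℂ] ↥E' := Φ₀.codRestrict E' hmem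
  have hinj : Function.Injective Φ := by
    rw [← LinearMap.ker_eq_bot, LinearMap.ker_eq_bot']
    rintro ⟨x, y⟩ hz
    have h1 : Φ₀ (x, y) = 0 := congrArg Subtype.val hz
    rw [hΦ₀] at h1
    obtain ⟨hx, hy⟩ := eq_zero_of_incl_add_vOp hp hpM h1
    exact Prod.ext (Subtype.ext hx) (Subtype.ext hy)
  have hsurj : Function.Surjective Φ := by
    rintro ⟨f, hf⟩
    obtain ⟨f₁, f₂, h12⟩ := exists_old_of_occurs D hD hpD hne hf
    have hf' : f = incl (dvd_mul_right M p) 2 f₁ + vOp M p 2 f₂ := by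
      apply DFunLike.coe_injective
      rw [FunLike.coe_add, coe_incl, coe_vOp]
      exact h12
    have hmem2 := mem_eigSP_of_incl_add_vOp (P := fun ℓ => ℓ ∈ D) hp hpD hpM (a := a')
      (x := f₁) (y := f₂) (hf' ▸ hf)
    refine ⟨(⟨f₁, hmem2.1⟩, ⟨f₂, hmem2.2⟩), Subtype.ext ?_⟩
    show Φ₀ _ = f
    rw [hΦ₀, hf']
  haveI : FiniteDimensional ℂ (CuspForm (Gamma0 M) 2) :=
    Fermat.Agent.ProgramR.ES.finiteDimensional_cuspForm M
  have e := LinearEquiv.ofBijective Φ ⟨hinj, hsurj⟩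
  rw [← e.finrank_eq, Module.finrank_prod]
  ring

/-- **cohomology over `K`** : the dimension doubles -/
theorem finrank_eigHKP_mul (K : Type*) [Field K] [CharZero K] (a : ℕ → K)
    (hne : eigHKP M K (fun ℓ => ℓ ∈ D) a ≠ ⊥) :
    finrank K ↥(eigHKP (M * p) K (fun ℓ => ℓ ∈ D) a) =
      2 * finrank K ↥(eigHKP M K (fun ℓ => ℓ ∈ D) a) := by
  obtain ⟨a', h1, -⟩ := exists_complex_system K (fun ℓ => ℓ ∈ D) a hne
  have hdim : ∀ (N : ℕ) [NeZero N], finrank K ↥(eigHKP N K (fun ℓ => ℓ ∈ D) a) =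
      2 * finrank ℂ ↥(eigSP N (fun ℓ => ℓ ∈ D) a') := fun N _ => by
    rw [h1 N, finrank_eigHKP_complex]
  have hne' : eigSP M (fun ℓ => ℓ ∈ D) a' ≠ ⊥ := by
    intro h0
    have h2 := hdim M
    rw [h0, finrank_bot, mul_zero] at h2
    haveI := finite_eigHKP M K (fun ℓ => ℓ ∈ D) a
    exact hne (Submodule.finrank_eq_zero.mp h2)
  rw [hdim (M * p), hdim M, finrank_eigSP_mul D hD hpD hne']

omit hD hpD in
/-- the rank of the eigenlattice over `𝒪` is the dimension of the eigenspace over `Frac 𝒪`, and a non-zero eigenlattice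
gives a non-zero eigenspace -/
theorem finrank_n3EigO_eq_frac (N : ℕ) [NeZero N] (𝒪 : Type*) [CommRing 𝒪] [IsDomain 𝒪] [CharZero 𝒪]
    (Q : ℕ → Prop) (a : ℕ → 𝒪) :
    finrank 𝒪 ↥(N3.eigO 𝒪 N Q a) = finrank (FractionRing 𝒪)
      ↥(eigHKP N (FractionRing 𝒪) Q (fun n => algebraMap 𝒪 (FractionRing 𝒪) (a n))) := by
  rw [n3EigO_eq]
  exact finrank_eigenP_eq 𝒪 Q a (eigO N 𝒪 Q a) (fun _ => Iff.rfl)

omit hD hpD in
theorem eigHKP_ne_bot_of_n3EigO (N : ℕ) [NeZero N] (𝒪 : Type*) [CommRing 𝒪] [IsDomain 𝒪] [CharZero 𝒪]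
    (Q : ℕ → Prop) (a : ℕ → 𝒪) (hne : N3.eigO 𝒪 N Q a ≠ ⊥) :
    eigHKP N (FractionRing 𝒪) Q (fun n => algebraMap 𝒪 (FractionRing 𝒪) (a n)) ≠ ⊥ := by
  rw [n3EigO_eq] at hne
  set b := Module.finBasis ℤ ↥(VZ (Gamma0 N))
  have h1 := finrank_eig_pos_of_ne_bot b 𝒪 (fun ℓ : PrimeIdxP Q => fullL N ℓ.2.1)
    (fun ℓ => a ℓ.1) (eigO N 𝒪 Q a) (fun x hx ℓ => hx ℓ.1 ℓ.2.1 ℓ.2.2) hne
  intro h0
  have h2 := finrank_eigHKP_eq (P := Q) b (FractionRing 𝒪)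
    (fun n => algebraMap 𝒪 (FractionRing 𝒪) (a n))
  rw [h0, finrank_bot] at h2
  have h3 : finrank (FractionRing 𝒪) ↥(eig (fun ℓ : PrimeIdxP Q => fullMat b ℓ.2.1) (FractionRing 𝒪)
      (fun ℓ => algebraMap 𝒪 (FractionRing 𝒪) (a ℓ.1))) = 0 := h2.symm
  have h4 : 0 < finrank (FractionRing 𝒪) ↥(eig (fun ℓ : PrimeIdxP Q => fullMat b ℓ.2.1)
      (FractionRing 𝒪) (fun ℓ => algebraMap 𝒪 (FractionRing 𝒪) (a ℓ.1))) := h1
  omega

/-- **(R4-1), lattices** : `finrank 𝒪 (N3.eigO 𝒪 (M p) (· ∈ D) a) = 2 * finrank 𝒪 (N3.eigO 𝒪 M (· ∈ D) a)` -/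
theorem finrank_n3EigO_mul (𝒪 : Type*) [CommRing 𝒪] [IsDomain 𝒪] [CharZero 𝒪] (a : ℕ → 𝒪)
    (hne : N3.eigO 𝒪 M (fun ℓ => ℓ ∈ D) a ≠ ⊥) :
    finrank 𝒪 ↥(N3.eigO 𝒪 (M * p) (fun ℓ => ℓ ∈ D) a) =
      2 * finrank 𝒪 ↥(N3.eigO 𝒪 M (fun ℓ => ℓ ∈ D) a) := by
  rw [finrank_n3EigO_eq_frac (M * p) 𝒪, finrank_n3EigO_eq_frac M 𝒪]
  exact finrank_eigHKP_mul D hD hpD (FractionRing 𝒪) _ (eigHKP_ne_bot_of_n3EigO M 𝒪 _ a hne)

/-- with Atkin–Lehner at level `M` : the eigenlattice at level `M p` has rank exactly `4` -/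
theorem finrank_n3EigO_mul_eq_four (𝒪 : Type*) [CommRing 𝒪] [IsDomain 𝒪] [CharZero 𝒪] (a : ℕ → 𝒪)
    (hne : N3.eigO 𝒪 M (fun ℓ => ℓ ∈ D) a ≠ ⊥) :
    finrank 𝒪 ↥(N3.eigO 𝒪 (M * p) (fun ℓ => ℓ ∈ D) a) = 4 := by
  rw [finrank_n3EigO_mul D hD hpD 𝒪 a hne,
    finrank_n3EigO_eq_two_of_AL (alHyp_of_finset D hD) 𝒪 a hne]

end Double

/-- **(R4-1)** in helper2's shape (#h2-197) -/
theorem r4_1 {M' r : ℕ} [NeZero M'] [NeZero (M' * r)] (hr : r.Prime) (hrM' : ¬ r ∣ M') (D : Finset ℕ)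
    (hD : ∀ ℓ ∈ D, ℓ.Prime ∧ (ℓ = r ∨ ¬ ℓ ∣ M')) (hrD : r ∈ D)
    (𝒪 : Type*) [CommRing 𝒪] [IsDomain 𝒪] [CharZero 𝒪] (a : ℕ → 𝒪)
    (hne : N3.eigO 𝒪 M' (fun ℓ => ℓ ∈ D) a ≠ ⊥) :
    finrank 𝒪 ↥(N3.eigO 𝒪 (M' * r) (fun ℓ => ℓ ∈ D) a) =
      2 * finrank 𝒪 ↥(N3.eigO 𝒪 M' (fun ℓ => ℓ ∈ D) a) := by
  refine finrank_n3EigO_mul D (fun q hq => ⟨(hD q hq).1, ?_⟩) hrD 𝒪 a hne
  rcases (hD q hq).2 with h | h
  · rw [h]; exact hrM'
  · exact h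

end Fermat.Agent.S59lib.SMO
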