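/-
S59lib / SMO / ChainRk  (helper4)

**The rank hypotheses of helper2's (HS-Σ) `HS.hs_sigma` and (HS-p) `HS.hs_pstep`, discharged by strong multiplicity one**
(Atkin–Lehner for a finite set of dropped primes not dividing the level: `SMO/AL2`, `SMO/R4`).

`P : ℕ → Prop` is the set of dropped primes.

* `ALHyp.mono`, `alHyp_of_finite` : the Atkin–Lehner statement for any `P` with finitely many primes, none dividing the level;
* `chainOK_of_AL`, **`chainOK_of_finite`** : the hypothesis `hok : ChainOK p R0 P ev₀ l` of `hs_sigma`;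
* `hrk1_of_AL`, **`hrk1_of_finite`** : the hypothesis `hrk1` of `hs_pstep`;
* **`hrk2_of_finite`** : the hypothesis `hrk2` of `hs_pstep`.
-/
import Mathlib
import Fermat.Agent.S59lib.HS.PStep
import Fermat.Agent.S59lib.SMO.AL2
import Fermat.Agent.S59lib.SMO.R4

set_option autoImplicit false
set_option linter.unusedSectionVars false
set_option linter.unusedVariables false
set_option linter.style.haveILetI false

noncomputable section

namespace Fermat.Agent.S59lib.SMO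

open CongruenceSubgroup Module IsLocalRing
open Fermat.Agent.S59lib.HS

/-! ### Atkin–Lehner for a general finite set of dropped primes -/

/-- the Atkin–Lehner statement is monotone in the set of dropped primes -/
theorem ALHyp.mono {M : ℕ} [NeZero M] {P Q : ℕ → Prop} (h : ALHyp M Q)
    (hPQ : ∀ ℓ : ℕ, ℓ.Prime → P ℓ → Q ℓ) : ALHyp M P := by
  intro f hf
  refine h f fun n hn => hf n fun ℓ hℓ hℓn hP => ?_
  exact hn ℓ hℓ hℓn (hPQ ℓ hℓ hP)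

/-- **Atkin–Lehner for a set `P` containing finitely many primes, none of which divides the level** -/
theorem alHyp_of_finite {M : ℕ} [NeZero M] {P : ℕ → Prop} (hfin : {ℓ : ℕ | ℓ.Prime ∧ P ℓ}.Finite)
    (hP : ∀ ℓ : ℕ, ℓ.Prime → P ℓ → ¬ ℓ ∣ M) : ALHyp M P := by
  have h1 : ALHyp M (fun ℓ => ℓ ∈ hfin.toFinset) :=
    alHyp_of_finset hfin.toFinset fun q hq => by
      rw [Set.Finite.mem_toFinset] at hq
      exact ⟨hq.1, hP q hq.1 hq.2⟩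
  refine h1.mono fun ℓ hℓ hPℓ => ?_
  rw [Set.Finite.mem_toFinset]
  exact ⟨hℓ, hPℓ⟩

/-! ### The chain hypothesis of (HS-Σ) -/

section Chain

variable {𝒪 : Type*} [CommRing 𝒪] [IsDomain 𝒪] [IsDiscreteValuationRing 𝒪] [CharZero 𝒪]
variable {p : ℕ} [Fact p.Prime]

/-- the level of a suffix divides the level of the list -/
theorem lvlP_dvd_of_suffix (R0 : ℕ) : ∀ {l' l : List Nat.Primes}, l' <:+ l → lvlP R0 l' ∣ lvlP R0 l
  | l', [], h => by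
    rw [List.suffix_nil] at h
    rw [h]
  | l', q :: l, h => by
    rcases List.suffix_cons_iff.mp h with h | h
    · rw [h]
    · rw [lvlP_cons, mul_assoc]
      exact (lvlP_dvd_of_suffix R0 h).mul_right _

/-- a prime dividing the level `R0 ∏ q²` divides `R0` or is one of the `q` -/
theorem prime_dvd_lvlP {R0 r : ℕ} (hr : r.Prime) : ∀ {l : List Nat.Primes}, r ∣ lvlP R0 l →
    r ∣ R0 ∨ ∃ q ∈ l, ((q : Nat.Primes) : ℕ) = r
  | [], h => Or.inl h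
  | q :: l, h => by
    rw [lvlP_cons] at h
    rcases (Nat.Prime.dvd_mul hr).mp h with h | h
    · rcases (Nat.Prime.dvd_mul hr).mp h with h | h
      · rcases prime_dvd_lvlP hr h with h | ⟨q', hq', h⟩
        · exact Or.inl h
        · exact Or.inr ⟨q', List.mem_cons_of_mem _ hq', h⟩
      · exact Or.inr ⟨q, List.mem_cons_self, ((Nat.prime_dvd_prime_iff_eq hr q.2).mp h).symm⟩
    · exact Or.inr ⟨q, List.mem_cons_self, ((Nat.prime_dvd_prime_iff_eq hr q.2).mp h).symm⟩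

/-- **the chain hypothesis from the Atkin–Lehner statements at the levels of the chain** -/
theorem chainOK_of_AL (hp2 : p ≠ 2) (hp : (p : 𝒪) ∈ maximalIdeal 𝒪) (R0 : ℕ) [NeZero R0]
    (P : ℕ → Prop) (ev₀ : ℕ → 𝒪) {ℓ : ℕ} (hℓ : ℓ.Prime) (hPℓ : ¬ P ℓ)
    (hu : IsUnit (ev₀ ℓ - ((ℓ : 𝒪) + 1))) (hne : N3.eigO 𝒪 R0 P ev₀ ≠ ⊥) :
    ∀ l : List Nat.Primes, ¬ ℓ ∣ lvlP R0 l →
      (∀ (q : Nat.Primes) (l' : List Nat.Primes), (q :: l') <:+ l →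
        ¬ (q : ℕ) ∣ lvlP R0 l' ∧ (q : ℕ) ≠ p ∧ ¬ P q) →
      (∀ l' : List Nat.Primes, l' <:+ l → ALHyp (lvlP R0 l') P) → ChainOK p R0 P ev₀ l
  | [], _, _, _ => trivial
  | q :: l, hℓl, hq, hAL => by
    have hℓl' : ¬ ℓ ∣ lvlP R0 l := fun h => hℓl (by
      rw [lvlP_cons, mul_assoc]
      exact h.mul_right _)
    have hok' : ChainOK p R0 P ev₀ l :=
      chainOK_of_AL hp2 hp R0 P ev₀ hℓ hPℓ hu hne l hℓl'
        (fun q' l' h => hq q' l' (h.trans (List.suffix_cons q l)))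
        (fun l' h => hAL l' (h.trans (List.suffix_cons q l)))
    obtain ⟨hqN, hqp, hPq⟩ := hq q l (List.suffix_refl _)
    refine ⟨hok', hqN, hqp, hPq, ?_⟩
    have hrank := (congL_chain hp2 hp R0 P ev₀ hℓ hPℓ hu l hok' hℓl').2
    have hne' : N3.eigO 𝒪 (lvlP R0 l) P (evP ev₀ l) ≠ ⊥ := by
      intro h
      apply hne
      rw [← Submodule.finrank_eq_zero, ← hrank, h, finrank_bot]
    have h1 : ALHyp (lvlP R0 l) P := hAL l (List.suffix_cons q l)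
    have : NeZero (lvlP R0 l * (q : ℕ) * (q : ℕ)) := lvlP_neZero R0 (q :: l)
    have h2 : ALHyp (lvlP R0 l * (q : ℕ) * (q : ℕ)) P := hAL (q :: l) (List.suffix_refl _)
    exact hrk_step_of_AL 𝒪 h1 h2 (evP ev₀ l) (evP ev₀ (q :: l)) hne'

/-- **the chain hypothesis `hok` of `HS.hs_sigma`** : `P` contains finitely many primes, none of which divides the level
`R0 ∏_{q ∈ l} q²`; the `q ∈ l` are distinct primes not dividing `R0`, different from `p`, kept. -/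
theorem chainOK_of_finite (hp2 : p ≠ 2) (hp : (p : 𝒪) ∈ maximalIdeal 𝒪) (R0 : ℕ) [NeZero R0]
    (P : ℕ → Prop) (hfin : {ℓ : ℕ | ℓ.Prime ∧ P ℓ}.Finite) (ev₀ : ℕ → 𝒪) {ℓ : ℕ} (hℓ : ℓ.Prime)
    (hPℓ : ¬ P ℓ) (hu : IsUnit (ev₀ ℓ - ((ℓ : 𝒪) + 1))) (hne : N3.eigO 𝒪 R0 P ev₀ ≠ ⊥)
    (l : List Nat.Primes) (hℓl : ¬ ℓ ∣ lvlP R0 l) (hl : l.Nodup)
    (hlq : ∀ q ∈ l, ¬ ((q : Nat.Primes) : ℕ) ∣ R0 ∧ ((q : Nat.Primes) : ℕ) ≠ p ∧ ¬ P q)
    (hP : ∀ r : ℕ, r.Prime → P r → ¬ r ∣ lvlP R0 l) : ChainOK p R0 P ev₀ l := by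
  refine chainOK_of_AL hp2 hp R0 P ev₀ hℓ hPℓ hu hne l hℓl (fun q l' h => ?_) (fun l' h => ?_)
  · have hql : q ∈ l := h.subset List.mem_cons_self
    refine ⟨fun hd => ?_, (hlq q hql).2⟩
    rcases prime_dvd_lvlP q.2 hd with h1 | ⟨q', hq', h1⟩
    · exact (hlq q hql).1 h1
    · have h2 : q' = q := Subtype.ext h1
      subst h2
      have h3 : (q' :: l').Nodup := hl.sublist h.sublist
      exact (List.nodup_cons.mp h3).1 hq'
  · exact alHyp_of_finite hfin fun r hr hPr hd => hP r hr hPr (hd.trans (lvlP_dvd_of_suffix R0 h))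

end Chain

/-! ### The rank hypotheses of (HS-p) -/

section PStep

variable (𝒪 : Type*) [CommRing 𝒪] [IsDomain 𝒪] [CharZero 𝒪]

/-- a system occurring at level `M'` occurs at level `M' r` for the Hecke algebra anemic at `r` -/
theorem n3EigO_mul_ne_bot {M' r : ℕ} [NeZero M'] [NeZero (M' * r)] (hr : r.Prime) (hrM' : ¬ r ∣ M')
    (D : Finset ℕ) (hD : ∀ ℓ ∈ D, ℓ.Prime ∧ (ℓ = r ∨ ¬ ℓ ∣ M')) (hrD : r ∈ D) (a : ℕ → 𝒪)
    (hne : N3.eigO 𝒪 M' (fun ℓ => ℓ ∈ D) a ≠ ⊥) :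
    N3.eigO 𝒪 (M' * r) (fun ℓ => ℓ ∈ D) a ≠ ⊥ := by
  intro h
  have h1 := r4_1 hr hrM' D hD hrD 𝒪 a hne
  rw [h, finrank_bot] at h1
  have h2 : finrank 𝒪 ↥(N3.eigO 𝒪 M' (fun ℓ => ℓ ∈ D) a) = 0 := by omega
  rw [finrank_n3EigO_eq_frac] at h2
  haveI := finite_eigHKP M' (FractionRing 𝒪) (fun ℓ => ℓ ∈ D)
    (fun n => algebraMap 𝒪 (FractionRing 𝒪) (a n))
  exact eigHKP_ne_bot_of_n3EigO M' 𝒪 _ a hne (Submodule.finrank_eq_zero.mp h2)

/-- the rank hypothesis at a higher level `N'` from the Atkin–Lehner statements at the two levels -/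
theorem hrk1_of_AL {N N' : ℕ} [NeZero N] [NeZero N'] {P P' : ℕ → Prop} (hN : ALHyp N P)
    (hN' : ALHyp N' P') (a a' : ℕ → 𝒪) (hne : N3.eigO 𝒪 N P a ≠ ⊥) :
    finrank 𝒪 ↥(N3.eigO 𝒪 N' P' a') ≤ finrank 𝒪 ↥(N3.eigO 𝒪 N P a) := by
  rw [finrank_n3EigO_eq_two_of_AL hN 𝒪 a hne]
  exact finrank_n3EigO_le_two_of_AL hN' 𝒪 a'

/-- **the hypothesis `hrk1` of `HS.hs_pstep`** : `P` contains finitely many primes, and the only prime of `P` dividing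
`N p` is `p` -/
theorem hrk1_of_finite {N p : ℕ} [NeZero N] [NeZero (N * p)] (P : ℕ → Prop)
    (hfin : {ℓ : ℕ | ℓ.Prime ∧ P ℓ}.Finite)
    (hP : ∀ ℓ : ℕ, ℓ.Prime → P ℓ → ℓ = p ∨ ¬ ℓ ∣ N * p) (hpN : ¬ p ∣ N) (a a' : ℕ → 𝒪)
    (hne : N3.eigO 𝒪 N P a ≠ ⊥) :
    finrank 𝒪 ↥(N3.eigO 𝒪 (N * p) (fun ℓ => P ℓ ∧ ℓ ≠ p) a') ≤ finrank 𝒪 ↥(N3.eigO 𝒪 N P a) := by
  refine hrk1_of_AL 𝒪 (alHyp_of_finite hfin fun ℓ hℓ hPℓ hd => ?_)
    (alHyp_of_finite (hfin.subset fun ℓ h => ⟨h.1, h.2.1⟩) fun ℓ hℓ hPℓ hd => ?_) a a' hne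
  · rcases hP ℓ hℓ hPℓ with h | h
    · exact hpN (h ▸ hd)
    · exact h (hd.mul_right p)
  · rcases hP ℓ hℓ hPℓ.1 with h | h
    · exact hPℓ.2 h
    · exact h hd

/-- **the hypothesis `hrk2` of `HS.hs_pstep`** : `P` is a finite set of primes, `p ∈ P`, and the only prime of `P`
dividing `N p` is `p` -/
theorem hrk2_of_finite {N p : ℕ} [NeZero N] [NeZero (N * p)] (hp : p.Prime) (hpN : ¬ p ∣ N)
    (P : ℕ → Prop) (hfin : {ℓ : ℕ | P ℓ}.Finite)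
    (hP : ∀ ℓ : ℕ, P ℓ → ℓ.Prime ∧ (ℓ = p ∨ ¬ ℓ ∣ N)) (hPp : P p) (a : ℕ → 𝒪)
    (hne : N3.eigO 𝒪 N P a ≠ ⊥) :
    finrank 𝒪 ↥(N3.eigO 𝒪 (N * p) P a) ≤ 2 * finrank 𝒪 ↥(N3.eigO 𝒪 N P a) := by
  have hPD : P = fun ℓ => ℓ ∈ hfin.toFinset := by
    funext ℓ
    rw [Set.Finite.mem_toFinset]
    rfl
  have h := r4_1 hp hpN hfin.toFinset (fun ℓ hℓ => hP ℓ ((Set.Finite.mem_toFinset hfin).mp hℓ))
    ((Set.Finite.mem_toFinset hfin).mpr hPp) 𝒪 a (hPD ▸ hne)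
  rw [← hPD] at h
  exact h.le

end PStep

end Fermat.Agent.S59lib.SMO
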