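/-
S59lib / SMO / R4b  (helper4)

**(R4-2) : two anemic primes in the level.**

`D` a finite set of primes not dividing `M`, `r ≠ p` in `D`, `P := (· ∈ D)` the dropped primes.  If the system `a` occurs at
level `M` then

* forms:       `eigSP (M r p) P a' ≃ eigSP (M r) P a' × eigSP (M r) P a'`, `(x, y) ↦ x + V_p y`, of dimension
               `4 dim eigSP M P a'`   (`finrank_eigSP_mul_mul`, `exists_old_of_occurs_two`);
* cohomology:  `finrank K (eigHKP (M r p) K P a) = 4 * finrank K (eigHKP M K P a)`  and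
               `eigHKP (M r p) K P a ≤ oldK (M r) p K`                                 (`eigHKP_le_oldK_two_primes`);
* lattices:    `finrank 𝒪 (N3.eigO 𝒪 (M r p) P a) = 4 * finrank 𝒪 (N3.eigO 𝒪 M P a)`  (`r4_2`).

Proof of `≤` (forms).  The `p`-depletion `δ F = F - p⁻¹ V_p U_p F` maps the eigenspace `E` of level `M r p` into the eigenspace
of level `M r p²` for the dropped set `D ∖ {p}` and the system `a''` (`a'' p = 0`), which by (R4-1) at the base level `M p²` and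
Atkin–Lehner for `D ∖ {p}` at level `M p²` has dimension `≤ 2`; the kernel of `δ` on `E` consists of forms `F = V_p y`
(helper1's (D1) for `{p}` + Atkin–Lehner at `p`), `y` in the eigenspace of level `M r`, of dimension `2 dim` by (R4-1).
-/
import Mathlib
import Fermat.Agent.S59lib.SMO.R4

set_option autoImplicit false
set_option linter.unusedSectionVars false
set_option linter.unusedVariables false
set_option linter.style.haveILetI false

noncomputable section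

namespace Fermat.Agent.S59lib.SMO

open CongruenceSubgroup ModularCurve ModularCurve.Period Module Matrix ModularFormClass UpperHalfPlane
open Fermat.Agent.S41lib.HC Fermat.Agent.S43lib.B1 Fermat.Agent.S16lib.LG
open Fermat.Agent.S16lib.LH Fermat.Agent.Helper8 Fermat.Agent.S59lib.R7b.ALD ModularForm
open scoped MatrixGroups ModularForm

/-! ### change of the level along an equality -/

section Cast

theorem incl_eq_mem_eigSP {N₁ N₂ : ℕ} [NeZero N₁] [NeZero N₂] (h : N₁ = N₂) {P : ℕ → Prop} {a : ℕ → ℂ}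
    {f : CuspForm (Gamma0 N₁) 2} (hf : f ∈ eigSP N₁ P a) :
    incl (dvd_of_eq h) 2 f ∈ eigSP N₂ P a := by
  subst h
  have : incl (dvd_of_eq (rfl : N₁ = N₁)) 2 f = f := DFunLike.coe_injective rfl
  rw [this]
  exact hf

theorem finrank_eigSP_congr {N₁ N₂ : ℕ} [NeZero N₁] [NeZero N₂] (h : N₁ = N₂) (P : ℕ → Prop) (a : ℕ → ℂ) :
    finrank ℂ ↥(eigSP N₁ P a) = finrank ℂ ↥(eigSP N₂ P a) := by
  subst h
  rfl

end Cast

/-! ### the depletion -/

section Depl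

variable {L p : ℕ} [NeZero L] [NeZero p]

/-- the `p`-depletion as a linear map -/
def deplLin (L p : ℕ) [NeZero L] [NeZero p] (hpL : p ∣ L) :
    CuspForm (Gamma0 L) 2 →ₗ[ℂ] CuspForm (Gamma0 (L * p)) 2 :=
  incl (dvd_mul_right L p) 2 - (p : ℂ)⁻¹ • (vOp L p 2).comp (CuspForm.heckeULin 2 hpL)

theorem deplLin_apply (hpL : p ∣ L) (F : CuspForm (Gamma0 L) 2) :
    deplLin L p hpL F = depl L p hpL F := rfl

theorem qCoeff_deplLin (hpL : p ∣ L) (F : CuspForm (Gamma0 L) 2) (n : ℕ) :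
    qCoeff ⇑(deplLin L p hpL F) n = if p ∣ n then 0 else qCoeff ⇑F n := by
  rw [deplLin_apply, qCoeff_depl]

/-- the depletion of an eigenform is an eigenform for the system with `U_p = 0` -/
theorem deplLin_mem_eigSP (hp : p.Prime) (hpL : p ∣ L) {P P' : ℕ → Prop}
    (hP' : ∀ ℓ, ¬ P' ℓ → ℓ ≠ p → ¬ P ℓ) {a a'' : ℕ → ℂ} (ha : ∀ ℓ, ℓ ≠ p → a'' ℓ = a ℓ) (hap : a'' p = 0)
    {F : CuspForm (Gamma0 L) 2} (hF : F ∈ eigSP L P a) :
    deplLin L p hpL F ∈ eigSP (L * p) P' a'' := by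
  refine ⟨fun ℓ hℓ hℓLp hPℓ => ?_, fun q hq hqLp hPq => ?_⟩
  · have hℓp : ℓ ≠ p := fun h => hℓLp (h ▸ dvd_mul_left ℓ L)
    have hℓL : ¬ ℓ ∣ L := fun h => hℓLp (h.trans (dvd_mul_right L p))
    have hcop : Nat.Coprime p ℓ := (Nat.coprime_primes hp hℓ).mpr hℓp.symm
    have h1 := hF.1 ℓ hℓ hℓL (hP' ℓ hPℓ hℓp)
    rw [← sub_eq_zero]
    apply eq_zero_of_qCoeff_eq_zero
    intro n
    have h3 := congrArg (fun v : CuspForm (Gamma0 L) 2 => qCoeff ⇑v n) h1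
    simp only [qCoeff_heckeTLin, qCoeff_smul, ModularForm.coeffHeckeT_apply] at h3
    rw [qCoeff_sub, qCoeff_smul, qCoeff_heckeTLin, ModularForm.coeffHeckeT_apply, qCoeff_deplLin,
      qCoeff_deplLin, qCoeff_deplLin, ha ℓ hℓp]
    have e1 : p ∣ n * ℓ ↔ p ∣ n := hcop.dvd_mul_right
    by_cases hpn : p ∣ n
    · rw [if_pos (e1.mpr hpn), if_pos hpn]
      by_cases hℓn : ℓ ∣ n
      · have : p ∣ n / ℓ := by
          obtain ⟨m, rfl⟩ := hℓn
          rw [Nat.mul_div_cancel_left _ hℓ.pos]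
          exact (hcop.dvd_mul_left).mp hpn
        rw [if_pos hℓn, if_pos this]
        simp
      · rw [if_neg hℓn]
        simp
    · rw [if_neg (fun h => hpn (e1.mp h)), if_neg hpn]
      by_cases hℓn : ℓ ∣ n
      · have : ¬ p ∣ n / ℓ := fun h => hpn (h.trans (Nat.div_dvd_of_dvd hℓn))
        rw [if_pos hℓn, if_neg this]
        rw [if_pos hℓn] at h3
        rw [h3, sub_self]
      · rw [if_neg hℓn]
        rw [if_neg hℓn] at h3
        rw [h3, sub_self]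
  · rw [← sub_eq_zero]
    apply eq_zero_of_qCoeff_eq_zero
    intro n
    rw [qCoeff_sub, qCoeff_smul, qCoeff_heckeULin hq, ModularForm.coeffHeckeU_apply, qCoeff_deplLin,
      qCoeff_deplLin]
    by_cases hqp : q = p
    · subst hqp
      rw [if_pos (dvd_mul_left q n), hap, zero_mul, sub_self]
    · have hqL : q ∣ L := by
        rcases (Nat.Prime.dvd_mul hq).mp hqLp with h | h
        · exact h
        · exact absurd ((Nat.prime_dvd_prime_iff_eq hq hp).mp h) hqp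
      have hcop : Nat.Coprime p q := (Nat.coprime_primes hp hq).mpr (Ne.symm hqp)
      have h1 := hF.2 q hq hqL (hP' q hPq hqp)
      have h3 := congrArg (fun v : CuspForm (Gamma0 L) 2 => qCoeff ⇑v n) h1
      simp only [qCoeff_heckeULin hq, qCoeff_smul, ModularForm.coeffHeckeU_apply] at h3
      have e1 : p ∣ n * q ↔ p ∣ n := hcop.dvd_mul_right
      rw [ha q hqp]
      by_cases hpn : p ∣ n
      · rw [if_pos (e1.mpr hpn), if_pos hpn, mul_zero, sub_self]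
      · rw [if_neg (fun h => hpn (e1.mp h)), if_neg hpn, h3, sub_self]

end Depl

/-! ### forms supported on the multiples of `p` -/

section Ker

variable {L p : ℕ} [NeZero L] [NeZero p]

/-- a form of level `L p` (`p ∤ L`) whose `q`-expansion is supported on the multiples of `p` is `V_p y`, `y` of level `L` -/
theorem exists_vOp_of_qCoeff (hp : p.Prime) (hpL : ¬ p ∣ L) (F : CuspForm (Gamma0 (L * p)) 2)
    (hF : ∀ n, ¬ p ∣ n → qCoeff ⇑F n = 0) : ∃ y : CuspForm (Gamma0 L) 2, F = vOp L p 2 y := by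
  classical
  have hD : ∀ q ∈ ({p} : Finset ℕ), q.Prime ∧ ¬ q ∣ L := by
    intro q hq
    rw [Finset.mem_singleton] at hq
    subst hq
    exact ⟨hp, hpL⟩
  have hW : ∀ m, (∀ q ∈ ({p} : Finset ℕ), ¬ q ∣ m) → qCoeff ⇑F m = 0 :=
    fun m hm => hF m (hm p (Finset.mem_singleton_self p))
  have hold : ⇑F ∈ oldAt p (L * p) :=
    oldSub_le_oldAt {p} hD (Finset.mem_singleton_self p)
      (coe_mem_oldSub {p} (fun q hq => (hD q hq).1) (L * p) F hW)
  obtain ⟨G, H, hGH⟩ := exists_of_mem_oldAt hold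
  have hdiv : L * p / p = L := Nat.mul_div_cancel L hp.pos
  have hdvd : L * p / p ∣ L := by rw [hdiv]
  set x : CuspForm (Gamma0 L) 2 := incl hdvd 2 G with hx
  set y : CuspForm (Gamma0 L) 2 := incl hdvd 2 H with hy
  have hFxy : F = incl (dvd_mul_right L p) 2 x + vOp L p 2 y := by
    apply DFunLike.coe_injective
    rw [FunLike.coe_add, coe_incl, coe_vOp, hx, hy, coe_incl, coe_incl]
    exact hGH
  have hx0 : x = 0 := by
    refine eq_zero_of_qCoeff_coprime hp hpL x fun n hn => ?_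
    have := hF n hn
    rw [hFxy, qCoeff_add, qCoeff_incl, qCoeff_vOp, if_neg hn, add_zero] at this
    exact this
  refine ⟨y, ?_⟩
  rw [hFxy, hx0, map_zero, zero_add]

end Ker

/-! ### the step: `dim E(L p) ≤ dim E(L) + dim E''(L p²)` -/

section Step

variable {L p : ℕ} [NeZero L] [NeZero p]

theorem finrank_eigSP_mul_le (hp : p.Prime) (hpL : ¬ p ∣ L) {P P' : ℕ → Prop} (hPp : P p)
    (hP' : ∀ ℓ, ¬ P' ℓ → ℓ ≠ p → ¬ P ℓ) (a a'' : ℕ → ℂ) (ha : ∀ ℓ, ℓ ≠ p → a'' ℓ = a ℓ) (hap : a'' p = 0) :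
    finrank ℂ ↥(eigSP (L * p) P a) ≤
      finrank ℂ ↥(eigSP L P a) + finrank ℂ ↥(eigSP (L * p * p) P' a'') := by
  haveI : FiniteDimensional ℂ (CuspForm (Gamma0 L) 2) :=
    Fermat.Agent.ProgramR.ES.finiteDimensional_cuspForm L
  haveI : FiniteDimensional ℂ (CuspForm (Gamma0 (L * p)) 2) :=
    Fermat.Agent.ProgramR.ES.finiteDimensional_cuspForm (L * p)
  haveI : FiniteDimensional ℂ (CuspForm (Gamma0 (L * p * p)) 2) :=
    Fermat.Agent.ProgramR.ES.finiteDimensional_cuspForm (L * p * p)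
  set E := eigSP (L * p) P a with hE
  set E'' := eigSP (L * p * p) P' a'' with hE''
  have hpLp : p ∣ L * p := dvd_mul_left p L
  let δ₀ : ↥E →ₗ[ℂ] CuspForm (Gamma0 (L * p * p)) 2 := (deplLin (L * p) p hpLp).comp E.subtype
  have hmem : ∀ z, δ₀ z ∈ E'' := fun z => deplLin_mem_eigSP hp hpLp hP' ha hap z.2
  let δ : ↥E →ₗ[ℂ] ↥E'' := δ₀.codRestrict E'' hmem
  have h1 := LinearMap.finrank_range_add_finrank_ker δ
  have h2 : finrank ℂ ↥(LinearMap.range δ) ≤ finrank ℂ ↥E'' := Submodule.finrank_le _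
  -- the kernel
  have h3 : finrank ℂ ↥(LinearMap.ker δ) ≤ finrank ℂ ↥(eigSP L P a) := by
    have h4 : (LinearMap.ker δ).map E.subtype ≤ (eigSP L P a).map (vOp L p 2) := by
      rintro _ ⟨⟨F, hFE⟩, hFk, rfl⟩
      have hF0 : deplLin (L * p) p hpLp F = 0 := by
        have := LinearMap.mem_ker.mp hFk
        exact congrArg Subtype.val this
      have hF : ∀ n, ¬ p ∣ n → qCoeff ⇑F n = 0 := by
        intro n hn
        have := qCoeff_deplLin hpLp F n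
        rw [hF0, if_neg hn, qCoeff_zero'] at this
        exact this.symm
      obtain ⟨y, hy⟩ := exists_vOp_of_qCoeff hp hpL F hF
      have hmem2 := mem_eigSP_of_incl_add_vOp (P := P) hp hPp hpL (a := a)
        (x := (0 : CuspForm (Gamma0 L) 2)) (y := y) (by
          rw [map_zero, zero_add, ← hy]
          exact hFE)
      exact ⟨y, hmem2.2, hy.symm⟩
    calc finrank ℂ ↥(LinearMap.ker δ)
        = finrank ℂ ↥((LinearMap.ker δ).map E.subtype) :=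
          (LinearEquiv.finrank_eq (Submodule.equivMapOfInjective E.subtype
            (Submodule.injective_subtype E) (LinearMap.ker δ)))
      _ ≤ finrank ℂ ↥((eigSP L P a).map (vOp L p 2)) := Submodule.finrank_mono h4
      _ ≤ finrank ℂ ↥(eigSP L P a) := Submodule.finrank_map_le _ _
  omega

end Step

/-! ### `(x, y) ↦ x + V_p y` on eigenspaces -/

section Phi

variable {L p : ℕ} [NeZero L] [NeZero p]

/-- if `dim E(L p) ≤ 2 dim E(L)` then `E(L p) = E(L) ⊕ V_p E(L)` -/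
theorem exists_old_of_finrank_le (hp : p.Prime) (hpL : ¬ p ∣ L) {P : ℕ → Prop} (hPp : P p) (a : ℕ → ℂ)
    (hle : finrank ℂ ↥(eigSP (L * p) P a) ≤ 2 * finrank ℂ ↥(eigSP L P a)) :
    finrank ℂ ↥(eigSP (L * p) P a) = 2 * finrank ℂ ↥(eigSP L P a) ∧
      ∀ f ∈ eigSP (L * p) P a, ∃ f₁ ∈ eigSP L P a, ∃ f₂ ∈ eigSP L P a,
        f = incl (dvd_mul_right L p) 2 f₁ + vOp L p 2 f₂ := by
  haveI : FiniteDimensional ℂ (CuspForm (Gamma0 L) 2) :=
    Fermat.Agent.ProgramR.ES.finiteDimensional_cuspForm L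
  haveI : FiniteDimensional ℂ (CuspForm (Gamma0 (L * p)) 2) :=
    Fermat.Agent.ProgramR.ES.finiteDimensional_cuspForm (L * p)
  set E := eigSP L P a with hE
  set E' := eigSP (L * p) P a with hE'
  let Φ₀ : (↥E × ↥E) →ₗ[ℂ] CuspForm (Gamma0 (L * p)) 2 :=
    ((incl (dvd_mul_right L p) 2).comp E.subtype).coprod ((vOp L p 2).comp E.subtype)
  have hΦ₀ : ∀ z : ↥E × ↥E, Φ₀ z = incl (dvd_mul_right L p) 2 (z.1 : CuspForm (Gamma0 L) 2) +
      vOp L p 2 (z.2 : CuspForm (Gamma0 L) 2) := fun z => by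
    simp [Φ₀, LinearMap.coprod_apply]
  have hmem : ∀ z, Φ₀ z ∈ E' := fun z => by
    rw [hΦ₀]
    exact Submodule.add_mem _ (incl_mem_eigSP hp hPp z.1.2) (vOp_mem_eigSP hp hPp z.2.2)
  let Φ : (↥E × ↥E) →ₗ[ℂ] ↥E' := Φ₀.codRestrict E' hmem
  have hinj : Function.Injective Φ := by
    rw [← LinearMap.ker_eq_bot, LinearMap.ker_eq_bot']
    rintro ⟨x, y⟩ hz
    have h1 : Φ₀ (x, y) = 0 := congrArg Subtype.val hz
    rw [hΦ₀] at h1
    obtain ⟨hx, hy⟩ := eq_zero_of_incl_add_vOp hp hpL h1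
    exact Prod.ext (Subtype.ext hx) (Subtype.ext hy)
  have h1 := LinearMap.finrank_le_finrank_of_injective hinj
  rw [Module.finrank_prod] at h1
  have heq : finrank ℂ ↥E' = 2 * finrank ℂ ↥E := by omega
  have heq' : finrank ℂ (↥E × ↥E) = finrank ℂ ↥E' := by rw [Module.finrank_prod, heq]; ring
  have hsurj : Function.Surjective Φ :=
    (LinearMap.injective_iff_surjective_of_finrank_eq_finrank heq').mp hinj
  refine ⟨heq, fun f hf => ?_⟩
  obtain ⟨⟨x, y⟩, hxy⟩ := hsurj ⟨f, hf⟩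
  refine ⟨x.1, x.2, y.1, y.2, ?_⟩
  have := congrArg Subtype.val hxy
  rw [← hΦ₀ (x, y)]
  exact this.symm

end Phi

/-! ### the main theorem on forms -/

section Main

variable {M r p : ℕ} [NeZero M] [NeZero (M * r)] [NeZero (M * r * p)]
variable (D : Finset ℕ) (hD : ∀ q ∈ D, q.Prime ∧ ¬ q ∣ M) (hrD : r ∈ D) (hpD : p ∈ D) (hrp : r ≠ p)

include hD hrD hpD hrp

theorem finrank_eigSP_mul_mul_le {a' : ℕ → ℂ} (hne : eigSP M (fun ℓ => ℓ ∈ D) a' ≠ ⊥) :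
    finrank ℂ ↥(eigSP (M * r * p) (fun ℓ => ℓ ∈ D) a') ≤ 2 * finrank ℂ ↥(eigSP (M * r) (fun ℓ => ℓ ∈ D) a') := by
  classical
  have hp : p.Prime := (hD p hpD).1
  have hpM : ¬ p ∣ M := (hD p hpD).2
  have hr : r.Prime := (hD r hrD).1
  have hrM : ¬ r ∣ M := (hD r hrD).2
  haveI : NeZero p := ⟨hp.ne_zero⟩
  haveI : NeZero r := ⟨hr.ne_zero⟩
  have hpMr : ¬ p ∣ M * r := by
    intro h
    rcases (Nat.Prime.dvd_mul hp).mp h with h | h
    · exact hpM h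
    · exact hrp ((Nat.prime_dvd_prime_iff_eq hp hr).mp h).symm
  haveI : NeZero (M * p) := ⟨Nat.mul_ne_zero (NeZero.ne M) hp.ne_zero⟩
  haveI : NeZero (M * p * p) := ⟨Nat.mul_ne_zero (NeZero.ne (M * p)) hp.ne_zero⟩
  haveI : NeZero (M * p * p * r) := ⟨Nat.mul_ne_zero (NeZero.ne (M * p * p)) hr.ne_zero⟩
  haveI : NeZero (M * r * p * p) := ⟨Nat.mul_ne_zero (NeZero.ne (M * r * p)) hp.ne_zero⟩
  haveI : FiniteDimensional ℂ (CuspForm (Gamma0 M) 2) :=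
    Fermat.Agent.ProgramR.ES.finiteDimensional_cuspForm M
  set a'' : ℕ → ℂ := Function.update a' p 0 with ha''
  have ha : ∀ ℓ, ℓ ≠ p → a'' ℓ = a' ℓ := fun ℓ hℓ => Function.update_of_ne hℓ _ _
  have hap : a'' p = 0 := Function.update_self _ _ _
  have hP' : ∀ ℓ, ¬ (ℓ ∈ D.erase p) → ℓ ≠ p → ¬ (ℓ ∈ D) := fun ℓ h1 h2 h3 =>
    h1 (Finset.mem_erase.mpr ⟨h2, h3⟩)
  have hD' : ∀ q ∈ D.erase p, q.Prime ∧ ¬ q ∣ M * p * p := by
    intro q hq
    obtain ⟨hqp, hqD⟩ := Finset.mem_erase.mp hq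
    refine ⟨(hD q hqD).1, fun h => ?_⟩
    have hq' := (hD q hqD).1
    rcases (Nat.Prime.dvd_mul hq').mp h with h | h
    · rcases (Nat.Prime.dvd_mul hq').mp h with h | h
      · exact (hD q hqD).2 h
      · exact hqp ((Nat.prime_dvd_prime_iff_eq hq' hp).mp h)
    · exact hqp ((Nat.prime_dvd_prime_iff_eq hq' hp).mp h)
  have hrD' : r ∈ D.erase p := Finset.mem_erase.mpr ⟨hrp, hrD⟩
  -- the step
  have h1 := finrank_eigSP_mul_le (L := M * r) hp hpMr (P := fun ℓ => ℓ ∈ D)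
    (P' := fun ℓ => ℓ ∈ D.erase p) hpD hP' a' a'' ha hap
  -- the depleted eigenspace
  have h2 : finrank ℂ ↥(eigSP (M * r * p * p) (fun ℓ => ℓ ∈ D.erase p) a'') =
      finrank ℂ ↥(eigSP (M * p * p * r) (fun ℓ => ℓ ∈ D.erase p) a'') :=
    finrank_eigSP_congr (by ring) _ _
  -- the system `a''` occurs at level `M p²`
  obtain ⟨g, hg, hg0⟩ := (Submodule.ne_bot_iff _).mp hne
  have hg1 : qCoeff ⇑g 1 ≠ 0 := by
    intro h1
    exact hg0 (alHyp_of_finset D hD g fun n hn => qCoeff_eq_zero_of_one hg h1 n hn)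
  have hne'' : eigSP (M * p * p) (fun ℓ => ℓ ∈ D.erase p) a'' ≠ ⊥ := by
    have hmem : deplLin (M * p) p (dvd_mul_left p M) (incl (dvd_mul_right M p) 2 g) ∈
        eigSP (M * p * p) (fun ℓ => ℓ ∈ D.erase p) a'' :=
      deplLin_mem_eigSP hp (dvd_mul_left p M) hP' ha hap (incl_mem_eigSP hp hpD hg)
    intro h0
    rw [h0, Submodule.mem_bot] at hmem
    have h3 := qCoeff_deplLin (dvd_mul_left p M) (incl (dvd_mul_right M p) 2 g) 1
    rw [hmem, qCoeff_zero', if_neg (fun h => hp.one_lt.ne' (Nat.dvd_one.mp h)), qCoeff_incl] at h3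
    exact hg1 h3.symm
  have h3 := finrank_eigSP_mul (M := M * p * p) (p := r) (D.erase p) hD' hrD' hne''
  have h4 := finrank_eigSP_le_one_of_AL (alHyp_of_finset (D.erase p) hD') a''
  have h5 := finrank_eigSP_mul D hD hrD hne
  have h6 : 1 ≤ finrank ℂ ↥(eigSP M (fun ℓ => ℓ ∈ D) a') := by
    rcases Nat.eq_zero_or_pos (finrank ℂ ↥(eigSP M (fun ℓ => ℓ ∈ D) a')) with h | h
    · exact absurd (Submodule.finrank_eq_zero.mp h) hne
    · exact h
  omega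

/-- **forms** : `dim eigSP (M r p) = 4 dim eigSP M` when the system occurs at level `M` -/
theorem finrank_eigSP_mul_mul {a' : ℕ → ℂ} (hne : eigSP M (fun ℓ => ℓ ∈ D) a' ≠ ⊥) :
    finrank ℂ ↥(eigSP (M * r * p) (fun ℓ => ℓ ∈ D) a') = 4 * finrank ℂ ↥(eigSP M (fun ℓ => ℓ ∈ D) a') := by
  have hp : p.Prime := (hD p hpD).1
  have hpM : ¬ p ∣ M := (hD p hpD).2
  have hr : r.Prime := (hD r hrD).1
  haveI : NeZero p := ⟨hp.ne_zero⟩
  have hpMr : ¬ p ∣ M * r := by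
    intro h
    rcases (Nat.Prime.dvd_mul hp).mp h with h | h
    · exact hpM h
    · exact hrp ((Nat.prime_dvd_prime_iff_eq hp hr).mp h).symm
  have h1 := (exists_old_of_finrank_le (L := M * r) hp hpMr (P := fun ℓ => ℓ ∈ D) hpD a'
    (finrank_eigSP_mul_mul_le D hD hrD hpD hrp hne)).1
  rw [h1, finrank_eigSP_mul D hD hrD hne]
  ring

/-- **forms** : an eigenform of level `M r p` of a system occurring at level `M` is `p`-old -/
theorem exists_old_of_occurs_two {a' : ℕ → ℂ} (hne : eigSP M (fun ℓ => ℓ ∈ D) a' ≠ ⊥)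
    {f : CuspForm (Gamma0 (M * r * p)) 2} (hf : f ∈ eigSP (M * r * p) (fun ℓ => ℓ ∈ D) a') :
    ∃ f₁ f₂ : CuspForm (Gamma0 (M * r)) 2,
      ⇑f = ⇑f₁ + ⇑f₂ ∣[(2 : ℤ)] (ModularForm.heckeDiagMatrix p : GL (Fin 2) ℝ) := by
  have hp : p.Prime := (hD p hpD).1
  have hpM : ¬ p ∣ M := (hD p hpD).2
  have hr : r.Prime := (hD r hrD).1
  haveI : NeZero p := ⟨hp.ne_zero⟩
  have hpMr : ¬ p ∣ M * r := by
    intro h
    rcases (Nat.Prime.dvd_mul hp).mp h with h | h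
    · exact hpM h
    · exact hrp ((Nat.prime_dvd_prime_iff_eq hp hr).mp h).symm
  obtain ⟨f₁, -, f₂, -, h12⟩ := (exists_old_of_finrank_le (L := M * r) hp hpMr (P := fun ℓ => ℓ ∈ D) hpD a'
    (finrank_eigSP_mul_mul_le D hD hrD hpD hrp hne)).2 f hf
  refine ⟨f₁, f₂, ?_⟩
  rw [h12, FunLike.coe_add, coe_incl, coe_vOp]

end Main

/-! ### cohomology and lattices -/

section Coh

variable {M r p : ℕ} [NeZero M] [NeZero (M * r)] [NeZero (M * r * p)]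
variable (D : Finset ℕ) (hD : ∀ q ∈ D, q.Prime ∧ ¬ q ∣ M) (hrD : r ∈ D) (hpD : p ∈ D) (hrp : r ≠ p)

include hD hrD hpD hrp

/-- **cohomology over `K`** : the dimension is multiplied by `4` -/
theorem finrank_eigHKP_mul_mul (K : Type*) [Field K] [CharZero K] (a : ℕ → K)
    (hne : eigHKP M K (fun ℓ => ℓ ∈ D) a ≠ ⊥) :
    finrank K ↥(eigHKP (M * r * p) K (fun ℓ => ℓ ∈ D) a) =
      4 * finrank K ↥(eigHKP M K (fun ℓ => ℓ ∈ D) a) := by
  obtain ⟨a', h1, -⟩ := exists_complex_system K (fun ℓ => ℓ ∈ D) a hne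
  have hdim : ∀ (N : ℕ) [NeZero N], finrank K ↥(eigHKP N K (fun ℓ => ℓ ∈ D) a) =
      2 * finrank ℂ ↥(eigSP N (fun ℓ => ℓ ∈ D) a') := fun N _ => by
    rw [h1 N, finrank_eigHKP_complex]
  have hne' : eigSP M (fun ℓ => ℓ ∈ D) a' ≠ ⊥ := by
    intro h0
    have h2 := hdim M
    rw [h0, finrank_bot, mul_zero] at h2
    haveI := finite_eigHKP M K (fun ℓ => ℓ ∈ D) a
    exact hne (Submodule.finrank_eq_zero.mp h2)
  rw [hdim (M * r * p), hdim M, finrank_eigSP_mul_mul D hD hrD hpD hrp hne']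
  ring

/-- **cohomology over `K`** : the dimension doubles from level `M r` to level `M r p` -/
theorem finrank_eigHKP_mul_mul' (K : Type*) [Field K] [CharZero K] (a : ℕ → K)
    (hne : eigHKP M K (fun ℓ => ℓ ∈ D) a ≠ ⊥) :
    finrank K ↥(eigHKP (M * r * p) K (fun ℓ => ℓ ∈ D) a) =
      2 * finrank K ↥(eigHKP (M * r) K (fun ℓ => ℓ ∈ D) a) := by
  rw [finrank_eigHKP_mul_mul D hD hrD hpD hrp K a hne, finrank_eigHKP_mul D hD hrD K a hne]
  ring

/-- **cohomology over `K`**: the eigenspace at level `M r p` of a system occurring at level `M` is `p`-old -/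
theorem eigHKP_le_oldK_two_primes (K : Type*) [Field K] [CharZero K] [Fact p.Prime] (a : ℕ → K)
    (hne : eigHKP M K (fun ℓ => ℓ ∈ D) a ≠ ⊥) :
    eigHKP (M * r * p) K (fun ℓ => ℓ ∈ D) a ≤ oldK (M * r) p K := by
  refine eigHKP_le_oldK_of_complex K _ (M * r) p a fun a' hdim f hf => ?_
  have h1 : eigSP M (fun ℓ => ℓ ∈ D) a' ≠ ⊥ := by
    intro h0
    have h2 := hdim M
    rw [h0, finrank_bot, mul_zero] at h2
    haveI := finite_eigHKP M K (fun ℓ => ℓ ∈ D) a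
    exact hne (Submodule.finrank_eq_zero.mp h2)
  exact exists_old_of_occurs_two D hD hrD hpD hrp h1 hf

/-- **(R4-2), lattices** : `finrank 𝒪 (N3.eigO 𝒪 (M r p) (· ∈ D) a) = 4 * finrank 𝒪 (N3.eigO 𝒪 M (· ∈ D) a)` -/
theorem finrank_n3EigO_mul_mul (𝒪 : Type*) [CommRing 𝒪] [IsDomain 𝒪] [CharZero 𝒪] (a : ℕ → 𝒪)
    (hne : N3.eigO 𝒪 M (fun ℓ => ℓ ∈ D) a ≠ ⊥) :
    finrank 𝒪 ↥(N3.eigO 𝒪 (M * r * p) (fun ℓ => ℓ ∈ D) a) =
      4 * finrank 𝒪 ↥(N3.eigO 𝒪 M (fun ℓ => ℓ ∈ D) a) := by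
  rw [finrank_n3EigO_eq_frac (M * r * p) 𝒪, finrank_n3EigO_eq_frac M 𝒪]
  exact finrank_eigHKP_mul_mul D hD hrD hpD hrp (FractionRing 𝒪) _ (eigHKP_ne_bot_of_n3EigO M 𝒪 _ a hne)

/-- **(R4-2), lattices** : the rank doubles from level `M r` to level `M r p` -/
theorem finrank_n3EigO_mul_mul' (𝒪 : Type*) [CommRing 𝒪] [IsDomain 𝒪] [CharZero 𝒪] (a : ℕ → 𝒪)
    (hne : N3.eigO 𝒪 M (fun ℓ => ℓ ∈ D) a ≠ ⊥) :
    finrank 𝒪 ↥(N3.eigO 𝒪 (M * r * p) (fun ℓ => ℓ ∈ D) a) =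
      2 * finrank 𝒪 ↥(N3.eigO 𝒪 (M * r) (fun ℓ => ℓ ∈ D) a) := by
  rw [finrank_n3EigO_mul_mul D hD hrD hpD hrp 𝒪 a hne, finrank_n3EigO_mul D hD hrD 𝒪 a hne]
  ring

/-- with Atkin–Lehner at level `M` : the eigenlattice at level `M r p` has rank exactly `8` -/
theorem finrank_n3EigO_mul_mul_eq_eight (𝒪 : Type*) [CommRing 𝒪] [IsDomain 𝒪] [CharZero 𝒪] (a : ℕ → 𝒪)
    (hne : N3.eigO 𝒪 M (fun ℓ => ℓ ∈ D) a ≠ ⊥) :
    finrank 𝒪 ↥(N3.eigO 𝒪 (M * r * p) (fun ℓ => ℓ ∈ D) a) = 8 := by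
  rw [finrank_n3EigO_mul_mul D hD hrD hpD hrp 𝒪 a hne,
    finrank_n3EigO_eq_two_of_AL (alHyp_of_finset D hD) 𝒪 a hne]

end Coh

/-- **(R4-2)** in the shape of (R4-1) (#h2-197): two primes `r ≠ p` of `D` in the level -/
theorem r4_2 {M' r p : ℕ} [NeZero M'] [NeZero (M' * r)] [NeZero (M' * r * p)] (hr : r.Prime) (hp : p.Prime)
    (hrp : r ≠ p) (hrM' : ¬ r ∣ M') (hpM' : ¬ p ∣ M') (D : Finset ℕ)
    (hD : ∀ ℓ ∈ D, ℓ.Prime ∧ (ℓ = r ∨ ℓ = p ∨ ¬ ℓ ∣ M')) (hrD : r ∈ D) (hpD : p ∈ D)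
    (𝒪 : Type*) [CommRing 𝒪] [IsDomain 𝒪] [CharZero 𝒪] (a : ℕ → 𝒪)
    (hne : N3.eigO 𝒪 M' (fun ℓ => ℓ ∈ D) a ≠ ⊥) :
    finrank 𝒪 ↥(N3.eigO 𝒪 (M' * r * p) (fun ℓ => ℓ ∈ D) a) =
        4 * finrank 𝒪 ↥(N3.eigO 𝒪 M' (fun ℓ => ℓ ∈ D) a) ∧
      finrank 𝒪 ↥(N3.eigO 𝒪 (M' * r * p) (fun ℓ => ℓ ∈ D) a) =
        2 * finrank 𝒪 ↥(N3.eigO 𝒪 (M' * r) (fun ℓ => ℓ ∈ D) a) ∧
      finrank 𝒪 ↥(N3.eigO 𝒪 (M' * r * p) (fun ℓ => ℓ ∈ D) a) = 8 := by
  have hD' : ∀ q ∈ D, q.Prime ∧ ¬ q ∣ M' := by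
    intro q hq
    refine ⟨(hD q hq).1, ?_⟩
    rcases (hD q hq).2 with h | h | h
    · rw [h]; exact hrM'
    · rw [h]; exact hpM'
    · exact h
  exact ⟨finrank_n3EigO_mul_mul D hD' hrD hpD hrp 𝒪 a hne,
    finrank_n3EigO_mul_mul' D hD' hrD hpD hrp 𝒪 a hne,
    finrank_n3EigO_mul_mul_eq_eight D hD' hrD hpD hrp 𝒪 a hne⟩

/-- **(R4-2), `oldK` version** : over a field `K` of characteristic zero, the eigenspace at level `M' r p` (`r ≠ p` in `D`)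
of a system occurring at level `M'` is `p`-old -/
theorem r4_2_old {M' r p : ℕ} [NeZero M'] [NeZero (M' * r)] [NeZero (M' * r * p)] (hr : r.Prime) [Fact p.Prime]
    (hrp : r ≠ p) (hrM' : ¬ r ∣ M') (hpM' : ¬ p ∣ M') (D : Finset ℕ)
    (hD : ∀ ℓ ∈ D, ℓ.Prime ∧ (ℓ = r ∨ ℓ = p ∨ ¬ ℓ ∣ M')) (hrD : r ∈ D) (hpD : p ∈ D)
    (K : Type*) [Field K] [CharZero K] (a : ℕ → K) (hne : eigHKP M' K (fun ℓ => ℓ ∈ D) a ≠ ⊥) :
    eigHKP (M' * r * p) K (fun ℓ => ℓ ∈ D) a ≤ oldK (M' * r) p K := by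
  have hD' : ∀ q ∈ D, q.Prime ∧ ¬ q ∣ M' := by
    intro q hq
    refine ⟨(hD q hq).1, ?_⟩
    rcases (hD q hq).2 with h | h | h
    · rw [h]; exact hrM'
    · rw [h]; exact hpM'
    · exact h
  exact eigHKP_le_oldK_two_primes D hD' hrD hpD hrp K a hne

/-- (R4-2) with the intermediate level given by an equation `N = N' * r` : the rank doubles from `N` to `N p`, and the
eigenspace of level `N p` is `p`-old -/
theorem r4_2_of_eq {N N' r p : ℕ} [NeZero N] [NeZero N'] [NeZero (N * p)] (hN : N = N' * r) (hr : r.Prime)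
    [Fact p.Prime] (hrp : r ≠ p) (hrN' : ¬ r ∣ N') (hpN' : ¬ p ∣ N') (D : Finset ℕ)
    (hD : ∀ ℓ ∈ D, ℓ.Prime ∧ (ℓ = r ∨ ℓ = p ∨ ¬ ℓ ∣ N')) (hrD : r ∈ D) (hpD : p ∈ D)
    (𝒪 : Type*) [CommRing 𝒪] [IsDomain 𝒪] [CharZero 𝒪] (a : ℕ → 𝒪)
    (hne : N3.eigO 𝒪 N' (fun ℓ => ℓ ∈ D) a ≠ ⊥) :
    finrank 𝒪 ↥(N3.eigO 𝒪 (N * p) (fun ℓ => ℓ ∈ D) a) = 2 * finrank 𝒪 ↥(N3.eigO 𝒪 N (fun ℓ => ℓ ∈ D) a) ∧
      finrank 𝒪 ↥(N3.eigO 𝒪 (N * p) (fun ℓ => ℓ ∈ D) a) = 8 ∧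
      eigHKP (N * p) (FractionRing 𝒪) (fun ℓ => ℓ ∈ D) (fun n => algebraMap 𝒪 (FractionRing 𝒪) (a n)) ≤
        oldK N p (FractionRing 𝒪) := by
  subst hN
  have h := r4_2 hr Fact.out hrp hrN' hpN' D hD hrD hpD 𝒪 a hne
  exact ⟨h.2.1, h.2.2, r4_2_old hr hrp hrN' hpN' D hD hrD hpD (FractionRing 𝒪) _
    (eigHKP_ne_bot_of_n3EigO N' 𝒪 _ a hne)⟩

end Fermat.Agent.S59lib.SMO
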