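/-
S59lib / SMO / ScalarP  (helper4)

**`T_p` is a scalar on the eigenspace of the Hecke system that drops `p`** (`p ∤ M`): for `𝒪` an integrally closed
domain of characteristic zero and every system `a : ℕ → 𝒪`,

  `exists_tO_scalar : ∃ t : 𝒪, ∀ x ∈ N3.eigO 𝒪 M (· = p) a, N3.tO 𝒪 hp hpM x = t • x`

(and `exists_fullL_scalar` in the vocabulary of `SMO/Tensor`), hence the dropped eigenspace IS the full eigenspace of
the system `Function.update a p t` (`n3EigO_drop_eq_full`).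

Proof: `T_p` commutes with all operators, so it preserves the eigenspace `E` (of dimension `≤ 2` over the fraction
field, `SMO/GenP`); over an algebraic closure it has an eigenvector in `E`; the full eigenspace for that eigenvalue
is non-zero, hence of dimension `2` by the parity `SMO/Parity`, hence all of `E`; the eigenvalue is rational over the
fraction field and integral over `ℤ`.
-/
import Mathlib
import Fermat.Agent.S59lib.SMO.TensorN3

set_option autoImplicit false
set_option linter.unusedSectionVars false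
set_option linter.unusedVariables false
set_option linter.style.haveILetI false

noncomputable section

namespace Fermat.Agent.S59lib.SMO

open CongruenceSubgroup ModularCurve ModularCurve.Period Module Matrix TensorProduct
open Fermat.Agent.S16lib.LG
open scoped MatrixGroups

/-! ### generic linear algebra -/

section Generic

variable {n : Type*} [Fintype n] [DecidableEq n] {I : Type*}

theorem mulVec_map_algebraMap (B : Matrix n n ℤ) {E L : Type*} [Field E] [Field L] [Algebra E L]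
    (x : n → E) :
    (B.map (Int.cast : ℤ → L)) *ᵥ (fun j => algebraMap E L (x j)) =
      fun j => algebraMap E L (((B.map (Int.cast : ℤ → E)) *ᵥ x) j) := by
  funext i
  simp only [Matrix.mulVec, dotProduct, Matrix.map_apply, map_sum, map_mul, map_intCast]

theorem map_mem_eig (A : I → Matrix n n ℤ) {E L : Type*} [Field E] [Field L] [Algebra E L]
    {a : I → E} {x : n → E} (hx : x ∈ eig A E a) :
    (fun j => algebraMap E L (x j)) ∈ eig A L (fun i => algebraMap E L (a i)) := by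
  intro i
  rw [mulVec_map_algebraMap, hx i]
  funext j
  simp only [Pi.smul_apply, smul_eq_mul, map_mul]

theorem mulVec_mem_eig_of_comm (A : I → Matrix n n ℤ) (B : Matrix n n ℤ)
    (hAB : ∀ i, A i * B = B * A i) {F : Type*} [Field F] {a : I → F} {x : n → F}
    (hx : x ∈ eig A F a) : (B.map (Int.cast : ℤ → F)) *ᵥ x ∈ eig A F a := by
  intro i
  have h1 : (A i).map (Int.cast : ℤ → F) * B.map (Int.cast : ℤ → F) =
      B.map (Int.cast : ℤ → F) * (A i).map (Int.cast : ℤ → F) := by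
    have := congrArg (fun C : Matrix n n ℤ => C.map (Int.castRingHom F)) (hAB i)
    simp only [Matrix.map_mul] at this
    exact this
  rw [Matrix.mulVec_mulVec, h1, ← Matrix.mulVec_mulVec, hx i, Matrix.mulVec_smul]

/-- if over an algebraic closure every eigenvector of `B` in the eigenspace `E` of the `A i` forces `B` to be that
scalar on `E`, then `B` is a scalar on `E` already over `F` -/
theorem exists_scalar_of_comm (A : I → Matrix n n ℤ) (B : Matrix n n ℤ)
    (hAB : ∀ i, A i * B = B * A i) (F : Type*) [Field F] (a : I → F)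
    (hH : ∀ (t : AlgebraicClosure F) (x : n → AlgebraicClosure F),
      x ∈ eig A (AlgebraicClosure F) (fun i => algebraMap F (AlgebraicClosure F) (a i)) → x ≠ 0 →
      (B.map (Int.cast : ℤ → AlgebraicClosure F)) *ᵥ x = t • x →
      ∀ y ∈ eig A (AlgebraicClosure F) (fun i => algebraMap F (AlgebraicClosure F) (a i)),
        (B.map (Int.cast : ℤ → AlgebraicClosure F)) *ᵥ y = t • y) :
    ∃ t : F, ∀ x ∈ eig A F a, (B.map (Int.cast : ℤ → F)) *ᵥ x = t • x := by
  classical
  by_cases h0 : eig A F a = ⊥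
  · refine ⟨0, fun x hx => ?_⟩
    rw [h0, Submodule.mem_bot] at hx
    rw [hx, Matrix.mulVec_zero, smul_zero]
  obtain ⟨x₀, hx₀, hx₀0⟩ := (Submodule.ne_bot_iff _).mp h0
  set Fb := AlgebraicClosure F
  set E' := eig A Fb (fun i => algebraMap F Fb (a i)) with hE'
  have hx₀' : (fun j => algebraMap F Fb (x₀ j)) ∈ E' := map_mem_eig A hx₀
  obtain ⟨i₀, hi₀⟩ : ∃ i₀, x₀ i₀ ≠ 0 := by
    by_contra hcon
    push Not at hcon
    exact hx₀0 (funext hcon)
  have hx₀'0 : (fun j => algebraMap F Fb (x₀ j)) ≠ 0 := by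
    intro h
    have := congrFun h i₀
    simp only [Pi.zero_apply] at this
    exact hi₀ ((map_eq_zero (algebraMap F Fb)).mp this)
  haveI : Nontrivial ↥E' := ⟨⟨⟨_, hx₀'⟩, 0, fun h => hx₀'0 (congrArg Subtype.val h)⟩⟩
  -- the restriction of `B` to `E'`
  let β : Module.End Fb ↥E' :=
    (Matrix.mulVecLin (B.map (Int.cast : ℤ → Fb))).restrict
      (fun x hx => mulVec_mem_eig_of_comm A B hAB hx)
  obtain ⟨c, hc⟩ := Module.End.exists_eigenvalue β
  obtain ⟨v, hv⟩ := hc.exists_hasEigenvector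
  have hv1 : (B.map (Int.cast : ℤ → Fb)) *ᵥ v.1 = c • v.1 := by
    have := congrArg Subtype.val hv.apply_eq_smul
    exact this
  have hv0 : v.1 ≠ 0 := fun h => hv.2 (Subtype.ext h)
  have hall := hH c v.1 v.2 hv0 hv1
  -- the eigenvalue is rational
  set t : F := ((B.map (Int.cast : ℤ → F)) *ᵥ x₀) i₀ / x₀ i₀ with ht
  have hct : c = algebraMap F Fb t := by
    have h1 := congrFun (hall _ hx₀') i₀
    rw [mulVec_map_algebraMap] at h1
    simp only [Pi.smul_apply, smul_eq_mul] at h1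
    have h2 : algebraMap F Fb (x₀ i₀) ≠ 0 := fun h => hi₀ ((map_eq_zero _).mp h)
    rw [ht, map_div₀, h1, mul_div_assoc, div_self h2, mul_one]
  refine ⟨t, fun y hy => ?_⟩
  funext j
  have h1 := congrFun (hall _ (map_mem_eig A hy)) j
  rw [mulVec_map_algebraMap, hct] at h1
  simp only [Pi.smul_apply, smul_eq_mul, ← map_mul] at h1 ⊢
  exact (algebraMap F Fb).injective h1

end Generic

/-! ### the Hecke operators commute with `T_p` -/

section Hecke

variable {M : ℕ} [NeZero M]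

theorem fullL_comm_tL {ℓ p : ℕ} (hℓ : ℓ.Prime) (hp : p.Prime) (hpM : ¬ p ∣ M) :
    Commute (fullL M hℓ) (fullL M hp) := by
  rw [fullL_eq_tL hp hpM]
  by_cases hℓM : ℓ ∣ M
  · haveI : Fact ℓ.Prime := ⟨hℓ⟩
    haveI : Fact p.Prime := ⟨hp⟩
    rw [fullL_eq_uLat hℓ hℓM, uLat_eq_uL hℓ hℓM]
    exact LinearMap.ext fun x => N3.uL_tL_comm hpM hℓM hp x
  · rw [fullL_eq_tL hℓ hℓM]
    exact S41lib.BR.tL_comm hℓ hℓM hp hpM

variable {r : ℕ} (b : Basis (Fin r) ℤ ↥(VZ (Gamma0 M)))

theorem fullMat_comm {ℓ p : ℕ} (hℓ : ℓ.Prime) (hp : p.Prime) (hpM : ¬ p ∣ M) :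
    fullMat b hℓ * fullMat b hp = fullMat b hp * fullMat b hℓ := by
  rw [fullMat, fullMat, ← LinearMap.toMatrix_mul, ← LinearMap.toMatrix_mul]
  exact congrArg _ (fullL_comm_tL hℓ hp hpM).eq

variable (K : Type*) [Field K] [CharZero K]

/-- **the Hecke input**: an eigenvector of `T_p` in the eigenspace that drops `p` forces `T_p` to be that scalar on
the whole eigenspace (strong multiplicity one + parity) -/
theorem mulVec_eq_of_eigenvector {p : ℕ} (hp : p.Prime) (hpM : ¬ p ∣ M) (a : ℕ → K) (t : K)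
    (x : Fin r → K)
    (hx : x ∈ eig (fun ℓ : PrimeIdxP (fun ℓ => ℓ = p) => fullMat b ℓ.2.1) K (fun ℓ => a ℓ.1))
    (hx0 : x ≠ 0) (hBx : ((fullMat b hp).map (Int.cast : ℤ → K)) *ᵥ x = t • x) :
    ∀ y ∈ eig (fun ℓ : PrimeIdxP (fun ℓ => ℓ = p) => fullMat b ℓ.2.1) K (fun ℓ => a ℓ.1),
      ((fullMat b hp).map (Int.cast : ℤ → K)) *ᵥ y = t • y := by
  classical
  set E := eig (fun ℓ : PrimeIdxP (fun ℓ => ℓ = p) => fullMat b ℓ.2.1) K (fun ℓ => a ℓ.1) with hE
  set a' : PrimeIdx → K := fun ℓ => if ℓ.1 = p then t else a ℓ.1 with ha'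
  set E' := eig (fun ℓ : PrimeIdx => fullMat b ℓ.2) K a' with hE'
  have hxE' : x ∈ E' := by
    rintro ⟨ℓ, hℓ⟩
    by_cases h : ℓ = p
    · subst h
      simp only [ha', if_true]
      exact hBx
    · simp only [ha', if_neg h]
      exact hx ⟨ℓ, hℓ, h⟩
  have hle : E' ≤ E := by
    intro y hy ℓ
    have := hy ⟨ℓ.1, ℓ.2.1⟩
    simp only [ha', if_neg ℓ.2.2] at this
    exact this
  have h2 : finrank K ↥E' = 2 := by
    rcases finrank_eig_fullMat_eq_zero_or_two b K a' with h | h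
    · exfalso
      have := (Module.finrank_zero_iff (R := K) (M := ↥E')).mp h
      exact hx0 (congrArg Subtype.val (Subsingleton.elim (⟨x, hxE'⟩ : ↥E') 0))
    · exact h
  have h3 : finrank K ↥E ≤ 2 := by
    rw [hE, ← finrank_eigHKP_eq (P := fun ℓ => ℓ = p) b K a]
    exact finrank_eigHKx_le_two K hp hpM a
  have heq : E' = E := Submodule.eq_of_le_of_finrank_le hle (h2 ▸ h3)
  intro y hy
  rw [← heq] at hy
  have := hy ⟨p, hp⟩
  simp only [ha', if_true] at this
  exact this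

/-- `T_p` is a scalar on the eigenspace that drops `p`, over every field of characteristic zero -/
theorem exists_scalar_fullMat {p : ℕ} (hp : p.Prime) (hpM : ¬ p ∣ M) (a : ℕ → K) :
    ∃ t : K, ∀ x ∈ eig (fun ℓ : PrimeIdxP (fun ℓ => ℓ = p) => fullMat b ℓ.2.1) K (fun ℓ => a ℓ.1),
      ((fullMat b hp).map (Int.cast : ℤ → K)) *ᵥ x = t • x := by
  refine exists_scalar_of_comm (fun ℓ : PrimeIdxP (fun ℓ => ℓ = p) => fullMat b ℓ.2.1) (fullMat b hp)
    (fun ℓ => fullMat_comm b ℓ.2.1 hp hpM) K (fun ℓ => a ℓ.1) (fun t x hx hx0 hBx => ?_)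
  exact mulVec_eq_of_eigenvector b (AlgebraicClosure K) hp hpM
    (fun n => algebraMap K (AlgebraicClosure K) (a n)) t x hx hx0 hBx

end Hecke

/-! ### the statement over an integrally closed domain -/

section Integral

variable {M : ℕ} [NeZero M]
variable (𝒪 : Type*) [CommRing 𝒪] [IsDomain 𝒪] [CharZero 𝒪] [IsIntegrallyClosed 𝒪]

/-- **`T_p` is a scalar of `𝒪` on the eigen-submodule of `𝒪 ⊗ L_M` that drops `p`** -/
theorem exists_fullL_scalar {p : ℕ} (hp : p.Prime) (hpM : ¬ p ∣ M) (a : ℕ → 𝒪) :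
    ∃ t : 𝒪, ∀ x ∈ eigO M 𝒪 (fun ℓ => ℓ = p) a, (fullL M hp).baseChange 𝒪 x = t • x := by
  classical
  by_cases h0 : eigO M 𝒪 (fun ℓ => ℓ = p) a = ⊥
  · refine ⟨0, fun x hx => ?_⟩
    rw [h0, Submodule.mem_bot] at hx
    rw [hx, map_zero, smul_zero]
  obtain ⟨x₀, hx₀, hx₀0⟩ := (Submodule.ne_bot_iff _).mp h0
  set b := Module.finBasis ℤ ↥(VZ (Gamma0 M))
  set K := FractionRing 𝒪
  obtain ⟨tK, htK⟩ := exists_scalar_fullMat b K hp hpM (fun n => algebraMap 𝒪 K (a n))
  have hmem : ∀ x ∈ eigO M 𝒪 (fun ℓ => ℓ = p) a, fracCoord b 𝒪 x ∈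
      eig (fun ℓ : PrimeIdxP (fun ℓ => ℓ = p) => fullMat b ℓ.2.1) K
        (fun ℓ => algebraMap 𝒪 K (a ℓ.1)) :=
    fun x hx ℓ => fracCoord_eigen b 𝒪 (fullL M ℓ.2.1) (a ℓ.1) (hx ℓ.1 ℓ.2.1 ℓ.2.2)
  -- integrality
  have hΘ0 : fracCoord b 𝒪 x₀ ≠ 0 := fun h =>
    hx₀0 (fracCoord_injective b 𝒪 (h.trans (map_zero _).symm))
  have hint : IsIntegral 𝒪 tK := by
    obtain ⟨Q, hQ, hev⟩ := isIntegral_of_mulVec_eq (fullMat b hp) hΘ0 (htK _ (hmem x₀ hx₀))
    refine ⟨Q.map (Int.castRingHom 𝒪), hQ.map _, ?_⟩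
    rw [Polynomial.eval₂_map]
    have h1 : (algebraMap 𝒪 K).comp (Int.castRingHom 𝒪) =
        (@algebraMap ℤ K _ _ (Ring.toIntAlgebra K)) := RingHom.ext_int _ _
    rw [h1]
    exact hev
  obtain ⟨t, ht⟩ := IsIntegrallyClosed.algebraMap_eq_of_integral (R := 𝒪) (K := K) hint
  refine ⟨t, fun x hx => ?_⟩
  rw [fracCoord_eigen_iff b 𝒪, ht]
  exact htK _ (hmem x hx)

/-- the same in helper2's vocabulary -/
theorem exists_tO_scalar {p : ℕ} (hp : p.Prime) (hpM : ¬ p ∣ M) (a : ℕ → 𝒪) :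
    ∃ t : 𝒪, ∀ x ∈ N3.eigO 𝒪 M (fun ℓ => ℓ = p) a, N3.tO 𝒪 hp hpM x = t • x := by
  obtain ⟨t, ht⟩ := exists_fullL_scalar 𝒪 hp hpM a
  refine ⟨t, fun x hx => ?_⟩
  rw [n3EigO_eq] at hx
  have := ht x hx
  rw [fullL_eq_tL hp hpM] at this
  exact this

/-- the eigenspace that drops `p` is the full eigenspace of the completed system -/
theorem n3EigO_drop_eq_full {p : ℕ} (hp : p.Prime) (hpM : ¬ p ∣ M) (a : ℕ → 𝒪) {t : 𝒪}
    (ht : ∀ x ∈ N3.eigO 𝒪 M (fun ℓ => ℓ = p) a, N3.tO 𝒪 hp hpM x = t • x) :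
    N3.eigO 𝒪 M (fun ℓ => ℓ = p) a = N3.eigO 𝒪 M (fun _ => False) (Function.update a p t) := by
  ext x
  constructor
  · intro hx
    refine ⟨fun ℓ hℓ hℓM _ => ?_, fun q hq hqM _ => ?_⟩
    · by_cases h : ℓ = p
      · subst h
        rw [Function.update_self]
        exact ht x hx
      · rw [Function.update_of_ne h]
        exact hx.1 ℓ hℓ hℓM h
    · have h : q ≠ p := fun h => hpM (h ▸ hqM)
      rw [Function.update_of_ne h]
      exact hx.2 q hq hqM h
  · rintro ⟨h1, h2⟩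
    refine ⟨fun ℓ hℓ hℓM h => ?_, fun q hq hqM h => ?_⟩
    · have := h1 ℓ hℓ hℓM not_false
      rwa [Function.update_of_ne h] at this
    · have := h2 q hq hqM not_false
      rwa [Function.update_of_ne h] at this

end Integral

end Fermat.Agent.S59lib.SMO
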