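/-
S59lib / SMO / PStepRk  (helper4)

**The Hecke-side inputs `hTp`, `hrk1`, `hrk2` of helper2's (HS-p) `HS.hs_pstep`** (helper9's request #h9-156), in both
modes of the hub: no auxiliary prime in the level, or one auxiliary prime `r ∥ N` dropped (`N = N' r`).

`D` = the finite set of dropped primes, `p ∈ D`, `p ∤ N`.

* `finrank_eigSP_mul_le_two`, `finrank_eigHKP_mul_le_four`, `finrank_n3EigO_mul_le_four` : the UNCONDITIONAL bound at the
  level `M r`, `r ∈ D`, the other primes of `D` not dividing `M` (a form of the eigenspace with `a₁ = 0` is `r`-old by helper1's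
  (D1), and its two components are eigenforms of level `M`);
* `mulVec_eq_of_finrank_le`, `exists_scalar_fullMat_of_AL`, `exists_scalar_fullMat_mul` : `T_p` is a scalar on the eigenspace
  that drops `D ∋ p` (over any field of characteristic zero);
* **(TP)** `exists_tO_scalar_of_finite` (no auxiliary prime), `exists_tO_scalar_aux` (`N = N' r`);
* **(RK1)** `hrk1_aux`, **(RK2)** `hrk2_aux` (`N = N' r`; the mode without auxiliary prime is in `SMO/ChainRk`).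
-/
import Mathlib
import Fermat.Agent.S59lib.SMO.ChainRk
import Fermat.Agent.S59lib.SMO.R4b
import Fermat.Agent.S59lib.SMO.ScalarP

set_option autoImplicit false
set_option linter.unusedSectionVars false
set_option linter.unusedVariables false
set_option linter.style.haveILetI false

noncomputable section

namespace Fermat.Agent.S59lib.SMO

open CongruenceSubgroup ModularCurve ModularCurve.Period Module Matrix ModularFormClass UpperHalfPlane
open Fermat.Agent.S41lib.HC Fermat.Agent.S43lib.B1 Fermat.Agent.S16lib.LG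
open Fermat.Agent.S16lib.LH Fermat.Agent.Helper8 Fermat.Agent.S59lib.R7b.ALD ModularForm TensorProduct
open scoped MatrixGroups ModularForm

/-! ### the unconditional bound at the level `M p`, `p ∈ D` -/

section Bound

variable {M p : ℕ} [NeZero M] [NeZero (M * p)]
variable (D : Finset ℕ) (hD : ∀ q ∈ D, q.Prime ∧ ¬ q ∣ M) (hpD : p ∈ D)

include hD hpD

/-- if the system does not occur at level `M`, an eigenform of level `M p` with `a₁ = 0` vanishes -/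
theorem eq_zero_of_not_occurs {a' : ℕ → ℂ} (h0 : eigSP M (fun ℓ => ℓ ∈ D) a' = ⊥)
    {f : CuspForm (Gamma0 (M * p)) 2} (hf : f ∈ eigSP (M * p) (fun ℓ => ℓ ∈ D) a')
    (h1 : qCoeff ⇑f 1 = 0) : f = 0 := by
  have hp : p.Prime := (hD p hpD).1
  have hpM : ¬ p ∣ M := (hD p hpD).2
  haveI : NeZero p := ⟨hp.ne_zero⟩
  have hW : ∀ m, (∀ q ∈ D, ¬ q ∣ m) → qCoeff ⇑f m = 0 := fun m hm =>
    qCoeff_eq_zero_of_one hf h1 m fun ℓ hℓ hℓm hPℓ => hm ℓ hPℓ hℓm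
  have hold : ⇑f ∈ oldAt p (M * p) :=
    oldSub_le_oldAt D hD hpD (coe_mem_oldSub D (fun q hq => (hD q hq).1) (M * p) f hW)
  obtain ⟨G, H, hGH⟩ := exists_of_mem_oldAt hold
  have hdiv : M * p / p = M := Nat.mul_div_cancel M hp.pos
  have hdvd : M * p / p ∣ M := by rw [hdiv]
  have hf' : f = incl (dvd_mul_right M p) 2 (incl hdvd 2 G) + vOp M p 2 (incl hdvd 2 H) := by
    apply DFunLike.coe_injective
    rw [FunLike.coe_add, coe_incl, coe_vOp, coe_incl, coe_incl]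
    exact hGH
  have hmem2 := mem_eigSP_of_incl_add_vOp (P := fun ℓ => ℓ ∈ D) hp hpD hpM (a := a')
    (x := incl hdvd 2 G) (y := incl hdvd 2 H) (hf' ▸ hf)
  rw [h0, Submodule.mem_bot, Submodule.mem_bot] at hmem2
  rw [hf', hmem2.1, hmem2.2, map_zero, map_zero, add_zero]

/-- **forms** : the eigenspace at level `M p` has dimension at most `2`, unconditionally -/
theorem finrank_eigSP_mul_le_two (a' : ℕ → ℂ) :
    finrank ℂ ↥(eigSP (M * p) (fun ℓ => ℓ ∈ D) a') ≤ 2 := by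
  by_cases h0 : eigSP M (fun ℓ => ℓ ∈ D) a' = ⊥
  · exact le_trans (finrank_eigSP_le_one_of fun f hf h1 => eq_zero_of_not_occurs D hD hpD h0 hf h1)
      one_le_two
  · rw [finrank_eigSP_mul D hD hpD h0]
    have := finrank_eigSP_le_one_of_AL (alHyp_of_finset D hD) a'
    omega

/-- **cohomology over `K`** : the eigenspace at level `M p` has dimension at most `4`, unconditionally -/
theorem finrank_eigHKP_mul_le_four (K : Type*) [Field K] [CharZero K] (a : ℕ → K) :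
    finrank K ↥(eigHKP (M * p) K (fun ℓ => ℓ ∈ D) a) ≤ 4 := by
  refine finrank_eigHKP_of_complex K (fun d => d ≤ 4) (Nat.zero_le 4) (fun a' => ?_) a
  have := finrank_eigSP_mul_le_two D hD hpD a'
  show 2 * finrank ℂ ↥(eigSP (M * p) (fun ℓ => ℓ ∈ D) a') ≤ 4
  omega

/-- **lattices** : the eigenlattice at level `M p` has rank at most `4`, unconditionally -/
theorem finrank_n3EigO_mul_le_four (𝒪 : Type*) [CommRing 𝒪] [IsDomain 𝒪] [CharZero 𝒪] (a : ℕ → 𝒪) :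
    finrank 𝒪 ↥(N3.eigO 𝒪 (M * p) (fun ℓ => ℓ ∈ D) a) ≤ 4 := by
  rw [finrank_n3EigO_eq_frac (M * p) 𝒪]
  exact finrank_eigHKP_mul_le_four D hD hpD (FractionRing 𝒪) _

end Bound

/-- the rank of the eigenlattice only depends on the level as a number -/
theorem finrank_n3EigO_congr (𝒪 : Type*) [CommRing 𝒪] {N₁ N₂ : ℕ} [NeZero N₁] [NeZero N₂]
    (h : N₁ = N₂) (P : ℕ → Prop) (a : ℕ → 𝒪) :
    finrank 𝒪 ↥(N3.eigO 𝒪 N₁ P a) = finrank 𝒪 ↥(N3.eigO 𝒪 N₂ P a) := by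
  subst h
  rfl

/-! ### `T_p` is a scalar on the eigenspace that drops `D ∋ p` : fields -/

section Scalar

variable {M : ℕ} [NeZero M] {r₁ : ℕ} (b : Basis (Fin r₁) ℤ ↥(VZ (Gamma0 M)))
variable (K : Type*) [Field K] [CharZero K]

/-- **the comparison**: if the eigenspace `E'` of the system completed by `a_p = t` (dropped primes `P' = P ∖ {p}`) has at
least the dimension of the eigenspace `E` that drops `P ∋ p`, then `T_p = t` on `E` -/
theorem mulVec_eq_of_finrank_le {p : ℕ} (hp : p.Prime) {P P' : ℕ → Prop} (hPp : P p)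
    (hP' : ∀ ℓ, P' ℓ ↔ (P ℓ ∧ ℓ ≠ p)) (a : ℕ → K) (t : K)
    (hle : finrank K ↥(eig (fun ℓ : PrimeIdxP P => fullMat b ℓ.2.1) K (fun ℓ => a ℓ.1)) ≤
      finrank K ↥(eig (fun ℓ : PrimeIdxP P' => fullMat b ℓ.2.1) K
        (fun ℓ => Function.update a p t ℓ.1))) :
    ∀ y ∈ eig (fun ℓ : PrimeIdxP P => fullMat b ℓ.2.1) K (fun ℓ => a ℓ.1),
      ((fullMat b hp).map (Int.cast : ℤ → K)) *ᵥ y = t • y := by
  classical
  set E := eig (fun ℓ : PrimeIdxP P => fullMat b ℓ.2.1) K (fun ℓ => a ℓ.1) with hE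
  set E' := eig (fun ℓ : PrimeIdxP P' => fullMat b ℓ.2.1) K
    (fun ℓ => Function.update a p t ℓ.1) with hE'
  have hle' : E' ≤ E := by
    intro y hy ℓ
    have hℓp : ℓ.1 ≠ p := fun h => ℓ.2.2 (h ▸ hPp)
    have hP'ℓ : ¬ P' ℓ.1 := fun h => ℓ.2.2 ((hP' ℓ.1).mp h).1
    have := hy ⟨ℓ.1, ℓ.2.1, hP'ℓ⟩
    simp only [Function.update_of_ne hℓp] at this
    exact this
  have heq : E' = E := Submodule.eq_of_le_of_finrank_le hle' hle
  intro y hy
  rw [← heq] at hy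
  have hP'p : ¬ P' p := fun h => ((hP' p).mp h).2 rfl
  have := hy ⟨p, hp, hP'p⟩
  simp only [Function.update_self] at this
  exact this

/-- an eigenvector of `T_p` in the eigenspace that drops `P ∋ p` lies in the eigenspace of the completed system -/
theorem mem_eig_update {p : ℕ} (hp : p.Prime) {P P' : ℕ → Prop}
    (hP' : ∀ ℓ, P' ℓ ↔ (P ℓ ∧ ℓ ≠ p)) (a : ℕ → K) (t : K) {x : Fin r₁ → K}
    (hx : x ∈ eig (fun ℓ : PrimeIdxP P => fullMat b ℓ.2.1) K (fun ℓ => a ℓ.1))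
    (hBx : ((fullMat b hp).map (Int.cast : ℤ → K)) *ᵥ x = t • x) :
    x ∈ eig (fun ℓ : PrimeIdxP P' => fullMat b ℓ.2.1) K (fun ℓ => Function.update a p t ℓ.1) := by
  rintro ⟨ℓ, hℓ, hPℓ⟩
  by_cases h : ℓ = p
  · subst h
    simp only [Function.update_self]
    exact hBx
  · simp only [Function.update_of_ne h]
    have hPℓ' : ¬ P ℓ := fun h' => hPℓ ((hP' ℓ).mpr ⟨h', h⟩)
    exact hx ⟨ℓ, hℓ, hPℓ'⟩

/-- the dimension of the matrix eigenspace is positive as soon as it contains a non-zero vector -/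
theorem finrank_eig_pos {I : Type*} (A : I → Matrix (Fin r₁) (Fin r₁) ℤ) (c : I → K)
    {x : Fin r₁ → K} (hx : x ∈ eig A K c) (hx0 : x ≠ 0) : 0 < finrank K ↥(eig A K c) := by
  rw [Module.finrank_pos_iff_exists_ne_zero]
  exact ⟨⟨x, hx⟩, fun h => hx0 (congrArg Subtype.val h)⟩

/-- **no dropped prime divides the level** : `T_p` is a scalar on the eigenspace that drops `P ∋ p`, over every field of
characteristic zero -/
theorem exists_scalar_fullMat_of_AL {p : ℕ} (hp : p.Prime) (hpM : ¬ p ∣ M) {P P' : ℕ → Prop}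
    (hPp : P p) (hP' : ∀ ℓ, P' ℓ ↔ (P ℓ ∧ ℓ ≠ p)) (hAL : ALHyp M P) (hAL' : ALHyp M P')
    (a : ℕ → K) :
    ∃ t : K, ∀ x ∈ eig (fun ℓ : PrimeIdxP P => fullMat b ℓ.2.1) K (fun ℓ => a ℓ.1),
      ((fullMat b hp).map (Int.cast : ℤ → K)) *ᵥ x = t • x := by
  refine exists_scalar_of_comm (fun ℓ : PrimeIdxP P => fullMat b ℓ.2.1) (fullMat b hp)
    (fun ℓ => fullMat_comm b ℓ.2.1 hp hpM) K (fun ℓ => a ℓ.1) (fun t x hx hx0 hBx => ?_)
  refine mulVec_eq_of_finrank_le b (AlgebraicClosure K) hp hPp hP'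
    (fun n => algebraMap K (AlgebraicClosure K) (a n)) t ?_
  have h1 : finrank (AlgebraicClosure K) ↥(eig (fun ℓ : PrimeIdxP P => fullMat b ℓ.2.1)
      (AlgebraicClosure K) (fun ℓ => algebraMap K (AlgebraicClosure K) (a ℓ.1))) ≤ 2 := by
    rw [← finrank_eigHKP_eq (P := P) b (AlgebraicClosure K)
      (fun n => algebraMap K (AlgebraicClosure K) (a n))]
    exact finrank_eigHKP_le_two_of_AL hAL (AlgebraicClosure K) _
  have h2 : 0 < finrank (AlgebraicClosure K) ↥(eig (fun ℓ : PrimeIdxP P' => fullMat b ℓ.2.1)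
      (AlgebraicClosure K)
      (fun ℓ => Function.update (fun n => algebraMap K (AlgebraicClosure K) (a n)) p t ℓ.1)) :=
    finrank_eig_pos (AlgebraicClosure K) _ _
      (mem_eig_update b (AlgebraicClosure K) hp hP' _ t hx hBx) hx0
  have h3 := finrank_eigHKP_eq_zero_or_two_of_AL hAL' (AlgebraicClosure K)
    (Function.update (fun n => algebraMap K (AlgebraicClosure K) (a n)) p t)
  rw [finrank_eigHKP_eq (P := P') b (AlgebraicClosure K)
    (Function.update (fun n => algebraMap K (AlgebraicClosure K) (a n)) p t)] at h3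
  omega

end Scalar

section ScalarMul

variable {M r : ℕ} [NeZero M] [NeZero (M * r)]
variable (K : Type*) [Field K] [CharZero K]

/-- **one dropped prime `r ∥ M r` in the level** : `T_p` is a scalar on the eigenspace of level `M r` that drops `D ∋ p, r`, for a
system occurring at level `M` -/
theorem exists_scalar_fullMat_mul {r₂ : ℕ} (b' : Basis (Fin r₂) ℤ ↥(VZ (Gamma0 (M * r))))
    (D : Finset ℕ) (hD : ∀ q ∈ D, q.Prime ∧ ¬ q ∣ M) (hrD : r ∈ D) {p : ℕ} (hpD : p ∈ D)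
    (hrp : r ≠ p) (a : ℕ → K) (hne : eigHKP M K (fun ℓ => ℓ ∈ D) a ≠ ⊥) :
    ∃ t : K, ∀ x ∈ eig (fun ℓ : PrimeIdxP (fun ℓ => ℓ ∈ D) => fullMat b' ℓ.2.1) K (fun ℓ => a ℓ.1),
      ((fullMat b' (hD p hpD).1).map (Int.cast : ℤ → K)) *ᵥ x = t • x := by
  classical
  have hp : p.Prime := (hD p hpD).1
  have hpM : ¬ p ∣ M := (hD p hpD).2
  set b := Module.finBasis ℤ ↥(VZ (Gamma0 M))
  have hP' : ∀ ℓ, ℓ ∈ D.erase p ↔ (ℓ ∈ D ∧ ℓ ≠ p) := fun ℓ => by
    rw [Finset.mem_erase, and_comm]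
  have hD' : ∀ q ∈ D.erase p, q.Prime ∧ ¬ q ∣ M := fun q hq => hD q (Finset.mem_of_mem_erase hq)
  have hrD' : r ∈ D.erase p := Finset.mem_erase.mpr ⟨hrp, hrD⟩
  -- the scalar at level `M`
  obtain ⟨t, ht⟩ := exists_scalar_fullMat_of_AL b K hp hpM (P := fun ℓ => ℓ ∈ D)
    (P' := fun ℓ => ℓ ∈ D.erase p) hpD hP' (alHyp_of_finset D hD) (alHyp_of_finset (D.erase p) hD') a
  refine ⟨t, ?_⟩
  -- the completed system occurs at level `M`
  haveI := finite_eigHKP M K (fun ℓ => ℓ ∈ D) a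
  have hpos : 0 < finrank K ↥(eigHKP M K (fun ℓ => ℓ ∈ D) a) := by
    rw [Nat.pos_iff_ne_zero]
    exact fun h => hne (Submodule.finrank_eq_zero.mp h)
  have hle0 : finrank K ↥(eigHKP M K (fun ℓ => ℓ ∈ D) a) ≤
      finrank K ↥(eigHKP M K (fun ℓ => ℓ ∈ D.erase p) (Function.update a p t)) := by
    rw [finrank_eigHKP_eq (P := fun ℓ => ℓ ∈ D) b K a,
      finrank_eigHKP_eq (P := fun ℓ => ℓ ∈ D.erase p) b K (Function.update a p t)]
    exact Submodule.finrank_mono fun x hx => mem_eig_update b K hp hP' a t hx (ht x hx)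
  have hne' : eigHKP M K (fun ℓ => ℓ ∈ D.erase p) (Function.update a p t) ≠ ⊥ := by
    intro h
    rw [h, finrank_bot] at hle0
    omega
  -- the doubling for both systems
  have h1 := finrank_eigHKP_mul D hD hrD K a hne
  have h2 := finrank_eigHKP_mul (D.erase p) hD' hrD' K (Function.update a p t) hne'
  refine mulVec_eq_of_finrank_le b' K hp hpD hP' a t ?_
  rw [← finrank_eigHKP_eq (P := fun ℓ => ℓ ∈ D) b' K a,
    ← finrank_eigHKP_eq (P := fun ℓ => ℓ ∈ D.erase p) b' K (Function.update a p t), h1, h2]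
  omega

end ScalarMul

/-! ### `T_p` is a scalar : integrally closed domains -/

section Integral

variable {M : ℕ} [NeZero M]
variable (𝒪 : Type*) [CommRing 𝒪] [IsDomain 𝒪] [CharZero 𝒪] [IsIntegrallyClosed 𝒪]

/-- from the fraction field to `𝒪` : the scalar is integral over `ℤ` -/
theorem exists_fullL_scalar_of_frac {p : ℕ} (hp : p.Prime) (P : ℕ → Prop) (a : ℕ → 𝒪)
    (h : ∃ tK : FractionRing 𝒪, ∀ x ∈ eig (fun ℓ : PrimeIdxP P =>
        fullMat (Module.finBasis ℤ ↥(VZ (Gamma0 M))) ℓ.2.1) (FractionRing 𝒪)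
        (fun ℓ => algebraMap 𝒪 (FractionRing 𝒪) (a ℓ.1)),
      ((fullMat (Module.finBasis ℤ ↥(VZ (Gamma0 M))) hp).map
        (Int.cast : ℤ → FractionRing 𝒪)) *ᵥ x = tK • x) :
    ∃ t : 𝒪, ∀ x ∈ eigO M 𝒪 P a, (fullL M hp).baseChange 𝒪 x = t • x := by
  classical
  by_cases h0 : eigO M 𝒪 P a = ⊥
  · refine ⟨0, fun x hx => ?_⟩
    rw [h0, Submodule.mem_bot] at hx
    rw [hx, map_zero, smul_zero]
  obtain ⟨x₀, hx₀, hx₀0⟩ := (Submodule.ne_bot_iff _).mp h0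
  set b := Module.finBasis ℤ ↥(VZ (Gamma0 M))
  set K := FractionRing 𝒪
  obtain ⟨tK, htK⟩ := h
  have hmem : ∀ x ∈ eigO M 𝒪 P a, fracCoord b 𝒪 x ∈
      eig (fun ℓ : PrimeIdxP P => fullMat b ℓ.2.1) K (fun ℓ => algebraMap 𝒪 K (a ℓ.1)) :=
    fun x hx ℓ => fracCoord_eigen b 𝒪 (fullL M ℓ.2.1) (a ℓ.1) (hx ℓ.1 ℓ.2.1 ℓ.2.2)
  have hΘ0 : fracCoord b 𝒪 x₀ ≠ 0 := fun h =>
    hx₀0 (fracCoord_injective b 𝒪 (h.trans (map_zero _).symm))
  have hint : IsIntegral 𝒪 tK := by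
    obtain ⟨Q, hQ, hev⟩ := isIntegral_of_mulVec_eq (fullMat b hp) hΘ0 (htK _ (hmem x₀ hx₀))
    refine ⟨Q.map (Int.castRingHom 𝒪), hQ.map _, ?_⟩
    rw [Polynomial.eval₂_map]
    have h1 : (algebraMap 𝒪 K).comp (Int.castRingHom 𝒪) =
        (@algebraMap ℤ K _ _ (Ring.toIntAlgebra K)) := RingHom.ext_int _ _
    rw [h1]
    exact hev
  obtain ⟨t, ht⟩ := IsIntegrallyClosed.algebraMap_eq_of_integral (R := 𝒪) (K := K) hint
  refine ⟨t, fun x hx => ?_⟩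
  rw [fracCoord_eigen_iff b 𝒪, ht]
  exact htK _ (hmem x hx)

/-- **(TP), no dropped prime in the level** : `P` contains finitely many primes, none dividing `N`; `p ∈ P` -/
theorem exists_tO_scalar_of_finite {p : ℕ} (hp : p.Prime) (hpM : ¬ p ∣ M) (P : ℕ → Prop)
    (hfin : {ℓ : ℕ | ℓ.Prime ∧ P ℓ}.Finite) (hP : ∀ ℓ : ℕ, ℓ.Prime → P ℓ → ¬ ℓ ∣ M) (hPp : P p)
    (a : ℕ → 𝒪) :
    ∃ t : 𝒪, ∀ x ∈ N3.eigO 𝒪 M P a, N3.tO 𝒪 hp hpM x = t • x := by
  have hAL : ALHyp M P := alHyp_of_finite hfin hP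
  have hAL' : ALHyp M (fun ℓ => P ℓ ∧ ℓ ≠ p) := hAL.mono fun ℓ _ h => h.1
  obtain ⟨t, ht⟩ := exists_fullL_scalar_of_frac 𝒪 hp P a
    (exists_scalar_fullMat_of_AL (Module.finBasis ℤ ↥(VZ (Gamma0 M))) (FractionRing 𝒪) hp hpM hPp
      (fun ℓ => Iff.rfl) hAL hAL' (fun n => algebraMap 𝒪 (FractionRing 𝒪) (a n)))
  refine ⟨t, fun x hx => ?_⟩
  rw [n3EigO_eq] at hx
  have := ht x hx
  rw [fullL_eq_tL hp hpM] at this
  exact this

/-- **(TP), one dropped prime `r ∥ N` in the level** (`N = N' r`), for a system occurring at the level `N'` -/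
theorem exists_tO_scalar_aux {N N' r p : ℕ} [NeZero N] [NeZero N'] (hN : N = N' * r) (hr : r.Prime)
    (hp : p.Prime) (hrp : r ≠ p) (hrN' : ¬ r ∣ N') (hpN : ¬ p ∣ N) (D : Finset ℕ)
    (hD : ∀ ℓ ∈ D, ℓ.Prime ∧ (ℓ = r ∨ ¬ ℓ ∣ N')) (hrD : r ∈ D) (hpD : p ∈ D) (a : ℕ → 𝒪)
    (hne : N3.eigO 𝒪 N' (fun ℓ => ℓ ∈ D) a ≠ ⊥) :
    ∃ t : 𝒪, ∀ x ∈ N3.eigO 𝒪 N (fun ℓ => ℓ ∈ D) a, N3.tO 𝒪 hp hpN x = t • x := by
  subst hN
  have hD' : ∀ q ∈ D, q.Prime ∧ ¬ q ∣ N' := by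
    intro q hq
    refine ⟨(hD q hq).1, ?_⟩
    rcases (hD q hq).2 with h | h
    · rw [h]; exact hrN'
    · exact h
  obtain ⟨t, ht⟩ := exists_fullL_scalar_of_frac (M := N' * r) 𝒪 hp (fun ℓ => ℓ ∈ D) a
    (exists_scalar_fullMat_mul (FractionRing 𝒪) (Module.finBasis ℤ ↥(VZ (Gamma0 (N' * r)))) D hD' hrD
      hpD hrp (fun n => algebraMap 𝒪 (FractionRing 𝒪) (a n))
      (eigHKP_ne_bot_of_n3EigO N' 𝒪 _ a hne))
  refine ⟨t, fun x hx => ?_⟩
  rw [n3EigO_eq] at hx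
  have := ht x hx
  rw [fullL_eq_tL hp hpN] at this
  exact this

end Integral

/-! ### (RK1), (RK2) with one dropped prime `r ∥ N` in the level -/

section Ranks

variable (𝒪 : Type*) [CommRing 𝒪] [IsDomain 𝒪] [CharZero 𝒪]

/-- **(RK2), `N = N' r`** : the hypothesis `hrk2` of `HS.hs_pstep` -/
theorem hrk2_aux {N N' r p : ℕ} [NeZero N] [NeZero N'] [NeZero (N * p)] (hN : N = N' * r)
    (hr : r.Prime) (hp : p.Prime) (hrp : r ≠ p) (hrN' : ¬ r ∣ N') (hpN' : ¬ p ∣ N') (D : Finset ℕ)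
    (hD : ∀ ℓ ∈ D, ℓ.Prime ∧ (ℓ = r ∨ ℓ = p ∨ ¬ ℓ ∣ N')) (hrD : r ∈ D) (hpD : p ∈ D) (a : ℕ → 𝒪)
    (hne : N3.eigO 𝒪 N' (fun ℓ => ℓ ∈ D) a ≠ ⊥) :
    finrank 𝒪 ↥(N3.eigO 𝒪 (N * p) (fun ℓ => ℓ ∈ D) a) ≤
      2 * finrank 𝒪 ↥(N3.eigO 𝒪 N (fun ℓ => ℓ ∈ D) a) := by
  haveI : Fact p.Prime := ⟨hp⟩
  exact (r4_2_of_eq hN hr hrp hrN' hpN' D hD hrD hpD 𝒪 a hne).1.le

/-- **(RK1), `N = N' r`** : the hypothesis `hrk1` of `HS.hs_pstep` (`a'` = any system, e.g. `Function.update a p α`) -/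
theorem hrk1_aux {N N' r p : ℕ} [NeZero N] [NeZero N'] [NeZero (N * p)] (hN : N = N' * r)
    (hr : r.Prime) (hp : p.Prime) (hrp : r ≠ p) (hrN' : ¬ r ∣ N') (hpN' : ¬ p ∣ N') (D : Finset ℕ)
    (hD : ∀ ℓ ∈ D, ℓ.Prime ∧ (ℓ = r ∨ ℓ = p ∨ ¬ ℓ ∣ N')) (hrD : r ∈ D) (hpD : p ∈ D)
    (a a' : ℕ → 𝒪) (hne : N3.eigO 𝒪 N' (fun ℓ => ℓ ∈ D) a ≠ ⊥) :
    finrank 𝒪 ↥(N3.eigO 𝒪 (N * p) (fun ℓ => ℓ ∈ D ∧ ℓ ≠ p) a') ≤
      finrank 𝒪 ↥(N3.eigO 𝒪 N (fun ℓ => ℓ ∈ D) a) := by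
  classical
  subst hN
  have hD' : ∀ q ∈ D, q.Prime ∧ ¬ q ∣ N' := by
    intro q hq
    refine ⟨(hD q hq).1, ?_⟩
    rcases (hD q hq).2 with h | h | h
    · rw [h]; exact hrN'
    · rw [h]; exact hpN'
    · exact h
  -- the right-hand side is `4`
  rw [finrank_n3EigO_mul_eq_four D hD' hrD 𝒪 a hne]
  -- the left-hand side
  have hpred : (fun ℓ => ℓ ∈ D ∧ ℓ ≠ p) = fun ℓ => ℓ ∈ D.erase p := by
    funext ℓ
    rw [Finset.mem_erase, and_comm]
  rw [hpred]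
  haveI : NeZero (N' * p) := ⟨Nat.mul_ne_zero (NeZero.ne N') hp.ne_zero⟩
  haveI : NeZero (N' * p * r) := ⟨Nat.mul_ne_zero (NeZero.ne (N' * p)) hr.ne_zero⟩
  rw [finrank_n3EigO_congr 𝒪 (show N' * r * p = N' * p * r by ring) _ a']
  refine finrank_n3EigO_mul_le_four (D.erase p) (fun q hq => ?_) (Finset.mem_erase.mpr ⟨hrp, hrD⟩) 𝒪 a'
  obtain ⟨hqp, hqD⟩ := Finset.mem_erase.mp hq
  refine ⟨(hD' q hqD).1, fun h => ?_⟩
  rcases (Nat.Prime.dvd_mul (hD' q hqD).1).mp h with h | h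
  · exact (hD' q hqD).2 h
  · exact hqp ((Nat.prime_dvd_prime_iff_eq (hD' q hqD).1 hp).mp h)

end Ranks

end Fermat.Agent.S59lib.SMO
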